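import Fermat.Agent.JensenPolynomials.Moments

/-!
# Concentration of the moments

With `4 π a e^(4a) = 2 n + 9 a + 2 t a²` the measure `exp (t u²) Φ u u^(2n) du` on `u > 0` has
`|u² / a² - 1|^k` of mean `O ((a e^(2a))^(-k))`, and `n / (a² e^(4a)) → 0`.
-/

set_option autoImplicit false

noncomputable section

namespace FA.JensenPolynomials

open MeasureTheory Filter Topology FA.DeBruijnNewman
open scoped Real Nat

/-- The density of the `2n`-th moment. -/
def momWeight (t : ℝ) (n : ℕ) (u : ℝ) : ℝ := Real.exp (t * u ^ 2) * polyaPhi u * u ^ (2 * n)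

/-- The model density. -/
def momModel (t : ℝ) (n : ℕ) (u : ℝ) : ℝ :=
  Real.exp (t * u ^ 2 + 9 * u - π * Real.exp (4 * u)) * u ^ (2 * n)

theorem momWeight_comparable : ∃ c C : ℝ, 0 < c ∧ 0 < C ∧ ∀ (t : ℝ) (n : ℕ) (u : ℝ), 0 ≤ u →
    c * momModel t n u ≤ momWeight t n u ∧ momWeight t n u ≤ C * momModel t n u := by
  have hs : Summable fun n : ℕ =>
      5 * Real.exp π * (polyaCoef n ^ 2 * Real.exp (-(polyaCoef n * 1))) :=
    (summable_coef_mul_exp one_pos 2).mul_left _
  refine ⟨2 * π ^ 2 - 3 * π, ∑' n : ℕ, 5 * Real.exp π *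
    (polyaCoef n ^ 2 * Real.exp (-(polyaCoef n * 1))), by nlinarith [Real.pi_gt_three],
    hs.tsum_pos (fun n => by positivity) 0 (by have := polyaCoef_pos 0; positivity),
    fun t n u hu => ?_⟩
  have hΦl : (2 * π ^ 2 - 3 * π) * Real.exp (9 * u - π * Real.exp (4 * u)) ≤ polyaPhi u := by
    refine le_trans ?_ ((summable_polyaTerm u).le_tsum 0 fun i _ => (polyaTerm_pos hu i).le)
    rw [polyaTerm, show polyaCoef 0 = π by simp [polyaCoef], sub_eq_add_neg (9 * u), Real.exp_add,
      ← mul_assoc]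
    refine mul_le_mul_of_nonneg_right ?_ (Real.exp_pos _).le
    have h : Real.exp (5 * u) ≤ Real.exp (9 * u) := Real.exp_le_exp.2 (by linarith)
    nlinarith [mul_le_mul_of_nonneg_left h (show 0 ≤ 3 * π by positivity)]
  have hΦu : polyaPhi u ≤ (∑' n : ℕ, 5 * Real.exp π *
      (polyaCoef n ^ 2 * Real.exp (-(polyaCoef n * 1)))) *
        Real.exp (9 * u - π * Real.exp (4 * u)) := by
    rw [← tsum_mul_right]
    refine (summable_polyaTerm u).tsum_le_tsum (fun i => ?_) (hs.mul_right _)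
    have ha := three_lt_polyaCoef i
    have hE : 1 ≤ Real.exp (4 * u) := Real.one_le_exp (by linarith)
    have hπa : π ≤ polyaCoef i := le_mul_of_one_le_right Real.pi_pos.le
      (one_le_pow₀ (by linarith [(Nat.cast_nonneg i : (0 : ℝ) ≤ i)]))
    have h1 : 2 * polyaCoef i ^ 2 * Real.exp (9 * u) - 3 * polyaCoef i * Real.exp (5 * u) ≤
        5 * polyaCoef i ^ 2 * Real.exp (9 * u) := by
      nlinarith [mul_pos (polyaCoef_pos i) (Real.exp_pos (5 * u)),
        mul_nonneg (sq_nonneg (polyaCoef i)) (Real.exp_pos (9 * u)).le]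
    refine (mul_le_mul_of_nonneg_right h1 (Real.exp_pos _).le).trans ?_
    rw [show 5 * Real.exp π * (polyaCoef i ^ 2 * Real.exp (-(polyaCoef i * 1))) *
        Real.exp (9 * u - π * Real.exp (4 * u)) = 5 * polyaCoef i ^ 2 *
        (Real.exp π * Real.exp (-(polyaCoef i * 1)) * Real.exp (9 * u - π * Real.exp (4 * u))) by
          ring, ← Real.exp_add, ← Real.exp_add, mul_assoc (5 * polyaCoef i ^ 2), ← Real.exp_add]
    refine mul_le_mul_of_nonneg_left (Real.exp_le_exp.2 ?_) (by positivity)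
    nlinarith [mul_nonneg (sub_nonneg.2 hπa) (sub_nonneg.2 hE)]
  have hp : 0 ≤ Real.exp (t * u ^ 2) * u ^ (2 * n) :=
    mul_nonneg (Real.exp_pos _).le (pow_nonneg hu _)
  have e : momModel t n u =
      Real.exp (t * u ^ 2) * u ^ (2 * n) * Real.exp (9 * u - π * Real.exp (4 * u)) := by
    rw [momModel, add_sub_assoc, Real.exp_add]
    ring
  rw [e, momWeight]
  constructor
  · nlinarith [mul_le_mul_of_nonneg_left hΦl hp]
  · nlinarith [mul_le_mul_of_nonneg_left hΦu hp]

theorem quarter_min_le_exp_sub (s : ℝ) : min (s ^ 2) |s| / 4 ≤ Real.exp s - 1 - s := by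
  rcases le_or_gt 0 s with hs | hs
  · have := Real.quadratic_le_exp_of_nonneg hs
    linarith [min_le_left (s ^ 2) |s|, sq_nonneg s]
  · rw [abs_of_neg hs]
    rcases le_or_gt (-2) s with h2 | h2
    · have h := pow_le_pow_left₀ (by linarith) (Real.add_one_le_exp (s / 2)) 2
      rw [← Real.exp_nat_mul, show ((2 : ℕ) : ℝ) * (s / 2) = s by push_cast; ring] at h
      linarith [min_le_left (s ^ 2) (-s), show (s / 2 + 1) ^ 2 = s ^ 2 / 4 + s + 1 by ring]
    · linarith [min_le_right (s ^ 2) (-s), Real.exp_pos s]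

theorem min_le_exp_sub (x : ℝ) : min (x ^ 2) |x| ≤ Real.exp (4 * x) - 1 - 4 * x := by
  refine le_trans ?_ (quarter_min_le_exp_sub (4 * x))
  rw [le_div_iff₀ four_pos, mul_pow, abs_mul, abs_of_pos (four_pos (α := ℝ)), le_min_iff]
  constructor
  · nlinarith [min_le_left (x ^ 2) |x|, sq_nonneg x]
  · linarith [min_le_right (x ^ 2) |x|]

variable {t a : ℝ} {n : ℕ}

theorem momModel_shift (ha : 0 < a) {x : ℝ} (hx : -a < x) :
    momModel t n (a + x) = momModel t n a *
      Real.exp (2 * n * Real.log (1 + x / a) + t * (2 * a * x + x ^ 2) + 9 * x -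
        π * Real.exp (4 * a) * (Real.exp (4 * x) - 1)) := by
  have hy : 0 < 1 + x / a := by
    rw [show 1 + x / a = (a + x) / a by field_simp]
    exact div_pos (by linarith) ha
  have hpow : (a + x) ^ (2 * n) = a ^ (2 * n) * Real.exp (2 * n * Real.log (1 + x / a)) := by
    rw [show (2 : ℝ) * n = ((2 * n : ℕ) : ℝ) by push_cast; ring, Real.exp_nat_mul,
      Real.exp_log hy, ← mul_pow]
    congr 1
    field_simp
  rw [momModel, momModel, hpow, show Real.exp (4 * (a + x)) = Real.exp (4 * a) * Real.exp (4 * x) by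
    rw [← Real.exp_add]; ring_nf]
  have h : Real.exp (t * (a + x) ^ 2 + 9 * (a + x) - π * (Real.exp (4 * a) * Real.exp (4 * x))) *
      Real.exp (2 * n * Real.log (1 + x / a)) =
      Real.exp (t * a ^ 2 + 9 * a - π * Real.exp (4 * a)) *
      Real.exp (2 * n * Real.log (1 + x / a) + t * (2 * a * x + x ^ 2) + 9 * x -
        π * Real.exp (4 * a) * (Real.exp (4 * x) - 1)) := by
    rw [← Real.exp_add, ← Real.exp_add, ← Real.exp_add]
    congr 1
    rw [Real.exp_add]
    ring
  linear_combination a ^ (2 * n) * h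

/-- The centre. -/
def IsCentre (t : ℝ) (n : ℕ) (a : ℝ) : Prop :=
  1 ≤ a ∧ 4 * π * a * Real.exp (4 * a) = 2 * n + 9 * a + 2 * t * a ^ 2 ∧
    |t| * (a + 1) ≤ π * Real.exp (4 * a) / 2

theorem momModel_upper (h : IsCentre t n a) {x : ℝ} (hx : -a < x) :
    momModel t n (a + x) ≤ momModel t n a *
      Real.exp (-(π * Real.exp (4 * a) / 2 * min (x ^ 2) |x|)) := by
  obtain ⟨ha, hc, ht⟩ := h
  have ha0 : 0 < a := by linarith
  rw [momModel_shift ha0 hx]
  refine mul_le_mul_of_nonneg_left (Real.exp_le_exp.2 ?_)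
    (mul_nonneg (Real.exp_pos _).le (pow_nonneg ha0.le _))
  have hy : 0 < 1 + x / a := by
    rw [show 1 + x / a = (a + x) / a by field_simp]
    exact div_pos (by linarith) ha0
  have hlog : 2 * n * Real.log (1 + x / a) + 9 * x + 2 * t * a * x ≤
      4 * π * Real.exp (4 * a) * x := by
    have e : 4 * π * Real.exp (4 * a) * x = 2 * n * (x / a) + 9 * x + 2 * t * a * x := by
      field_simp
      linear_combination x * hc
    rw [e]
    linarith [mul_le_mul_of_nonneg_left (Real.log_le_sub_one_of_pos hy)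
      (show (0 : ℝ) ≤ 2 * n by positivity)]
  have hE : 0 < π * Real.exp (4 * a) := by positivity
  have hφ := min_le_exp_sub x
  have hquad : t * x ^ 2 ≤ π * Real.exp (4 * a) * (Real.exp (4 * x) - 1 - 4 * x) -
      π * Real.exp (4 * a) / 2 * min (x ^ 2) |x| := by
    have htx : t * x ^ 2 ≤ |t| * x ^ 2 := mul_le_mul_of_nonneg_right (le_abs_self t) (sq_nonneg x)
    have ht1 : |t| ≤ π * Real.exp (4 * a) / 2 := by nlinarith [abs_nonneg t]
    have hmul := mul_le_mul_of_nonneg_left hφ hE.le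
    rcases le_or_gt |x| 1 with h1 | h1
    · have hm : min (x ^ 2) |x| = x ^ 2 := min_eq_left (by
        rw [← sq_abs x]; nlinarith [abs_nonneg x])
      rw [hm] at hmul ⊢
      nlinarith [mul_le_mul_of_nonneg_right ht1 (sq_nonneg x)]
    · have hm : min (x ^ 2) |x| = |x| := min_eq_right (by rw [← sq_abs x]; nlinarith)
      rw [hm] at hmul ⊢
      rcases lt_or_gt_of_ne (show x ≠ 0 from fun e => by norm_num [e] at h1) with hx0 | hx0
      · rw [abs_of_neg hx0] at h1 hmul ⊢
        have h2 : |t| * x ^ 2 ≤ |t| * a * (-x) := by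
          rw [mul_assoc]
          exact mul_le_mul_of_nonneg_left (by nlinarith) (abs_nonneg t)
        have h3 : |t| * a * (-x) ≤ π * Real.exp (4 * a) / 2 * (-x) :=
          mul_le_mul_of_nonneg_right (by nlinarith [abs_nonneg t]) (by linarith)
        linarith
      · rw [abs_of_pos hx0] at h1 hmul ⊢
        have h2 := Real.quadratic_le_exp_of_nonneg (show 0 ≤ 4 * x by linarith)
        nlinarith [mul_le_mul_of_nonneg_left h2 hE.le, mul_le_mul_of_nonneg_right ht1 (sq_nonneg x),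
          mul_le_mul_of_nonneg_left h1.le (mul_nonneg hE.le hx0.le)]
  linarith

theorem centre_le (h : IsCentre t n a) :
    2 * (n : ℝ) / a ^ 2 ≤ 5 * π * Real.exp (4 * a) ∧
      (n : ℝ) + 1 / 2 ≤ 3 * π * (a * Real.exp (4 * a)) := by
  obtain ⟨ha, hc, ht⟩ := h
  have h1 : 1 ≤ a * Real.exp (4 * a) :=
    one_le_mul_of_one_le_of_one_le ha (Real.one_le_exp (by linarith))
  have hn : 2 * (n : ℝ) ≤ 5 * π * (a * Real.exp (4 * a)) := by
    have h3 := mul_le_mul_of_nonneg_left ht (show 0 ≤ 2 * a by linarith)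
    nlinarith [neg_abs_le t, abs_nonneg t, Real.pi_pos,
      mul_le_mul_of_nonneg_right (neg_abs_le t) (sq_nonneg a)]
  refine ⟨?_, by nlinarith [Real.pi_gt_three]⟩
  rw [div_le_iff₀ (by positivity)]
  nlinarith [mul_le_mul_of_nonneg_left (le_self_pow₀ ha two_ne_zero)
    (show 0 ≤ 5 * π * Real.exp (4 * a) by positivity)]

theorem momModel_lower (h : IsCentre t n a) {x : ℝ} (hx0 : 0 ≤ x)
    (hx : x ≤ 1 / (4 * √(Real.exp (4 * a)))) :
    momModel t n a * Real.exp (-(2 * π)) ≤ momModel t n (a + x) := by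
  obtain ⟨hn2, -⟩ := centre_le h
  obtain ⟨ha, hc, ht⟩ := h
  have ha0 : 0 < a := by linarith
  rw [momModel_shift ha0 (by linarith)]
  refine mul_le_mul_of_nonneg_left (Real.exp_le_exp.2 ?_)
    (mul_nonneg (Real.exp_pos _).le (pow_nonneg ha0.le _))
  have hx2 : Real.exp (4 * a) * x ^ 2 ≤ 1 / 16 := by
    have := pow_le_pow_left₀ hx0 hx 2
    rw [div_pow, mul_pow, Real.sq_sqrt (Real.exp_pos _).le, le_div_iff₀ (by positivity)] at this
    linarith
  have hx4 : |4 * x| ≤ 1 := by
    rw [abs_of_nonneg (by linarith)]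
    nlinarith [Real.one_le_exp (show 0 ≤ 4 * a by linarith)]
  have hexp : Real.exp (4 * x) - 1 - 4 * x ≤ 16 * x ^ 2 := by
    have h := le_trans (le_abs_self _) (Real.abs_exp_sub_one_sub_id_le hx4)
    linarith [mul_pow 4 x 2]
  have hy : 0 ≤ x / a := div_nonneg hx0 ha0.le
  have hlog : x / a - (x / a) ^ 2 ≤ Real.log (1 + x / a) := by
    refine le_trans ?_ (Real.one_sub_inv_le_log_of_pos (by linarith))
    rw [← sub_nonneg]
    refine (show (0 : ℝ) ≤ (x / a) ^ 3 / (1 + x / a) by positivity).trans_eq ?_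
    field_simp
    ring
  have h2n := mul_le_mul_of_nonneg_left hlog (show (0 : ℝ) ≤ 2 * n by positivity)
  have e : 4 * π * Real.exp (4 * a) * x = 2 * n * (x / a) + 9 * x + 2 * t * a * x := by
    field_simp
    linear_combination x * hc
  have hsq : 2 * (n : ℝ) * (x / a) ^ 2 ≤ 5 * π * Real.exp (4 * a) * x ^ 2 := by
    rw [div_pow, show 2 * (n : ℝ) * (x ^ 2 / a ^ 2) = 2 * n / a ^ 2 * x ^ 2 by ring]
    exact mul_le_mul_of_nonneg_right hn2 (sq_nonneg x)
  have hp := mul_le_mul_of_nonneg_left hexp (show 0 ≤ π * Real.exp (4 * a) by positivity)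
  have ht1 : -(π * Real.exp (4 * a) / 2) ≤ t := by nlinarith [neg_abs_le t, abs_nonneg t]
  nlinarith [mul_le_mul_of_nonneg_right ht1 (sq_nonneg x),
    mul_le_mul_of_nonneg_left hx2 Real.pi_pos.le]

theorem integrable_devKernel (k : ℕ) :
    Integrable fun s : ℝ => (|s| + s ^ 2) ^ k * Real.exp (-(π / 2 * min (s ^ 2) |s|)) := by
  refine (integrable_inv_one_add_sq.const_mul
    (((2 * k + 2)! : ℝ) * Real.exp (π / 2) * Real.exp 1)).mono' ((by fun_prop :
      Continuous fun s : ℝ => (|s| + s ^ 2) ^ k * Real.exp (-(π / 2 * min (s ^ 2) |s|))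
      ).aestronglyMeasurable) (Eventually.of_forall fun s => ?_)
  rw [Real.norm_of_nonneg (by positivity), ← div_eq_mul_inv, le_div_iff₀ (by positivity)]
  have hm : |s| - 1 ≤ min (s ^ 2) |s| :=
    le_min (by nlinarith [sq_abs s, sq_nonneg (|s| - 1 / 2)]) (by linarith)
  have hp : (|s| + s ^ 2) ^ k * (1 + s ^ 2) ≤ (|s| + 1) ^ (2 * k + 2) := by
    rw [pow_add, pow_mul]
    exact mul_le_mul (pow_le_pow_left₀ (by positivity) (by nlinarith [sq_abs s, abs_nonneg s]) k)
      (by nlinarith [sq_abs s, abs_nonneg s]) (by positivity) (by positivity)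
  have hq := hp.trans (pow_le_factorial_mul_exp (2 * k + 2) (show 0 ≤ |s| + 1 by positivity))
  calc (|s| + s ^ 2) ^ k * Real.exp (-(π / 2 * min (s ^ 2) |s|)) * (1 + s ^ 2)
      = (|s| + s ^ 2) ^ k * (1 + s ^ 2) * Real.exp (-(π / 2 * min (s ^ 2) |s|)) := by ring
    _ ≤ ((2 * k + 2)! * Real.exp (|s| + 1)) * Real.exp (π / 2 - π / 2 * |s|) := by
        refine mul_le_mul hq (Real.exp_le_exp.2 ?_) (Real.exp_pos _).le (by positivity)
        linarith [mul_le_mul_of_nonneg_left hm (show 0 ≤ π / 2 by positivity)]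
    _ ≤ _ := by
        rw [mul_assoc, mul_assoc, ← Real.exp_add, ← Real.exp_add]
        refine mul_le_mul_of_nonneg_left (Real.exp_le_exp.2 ?_) (by positivity)
        nlinarith [Real.pi_gt_three, abs_nonneg s]

theorem integrableOn_momWeight_dev (t : ℝ) (n : ℕ) (a : ℝ) (k : ℕ) :
    IntegrableOn (fun u => momWeight t n u * |u ^ 2 / a ^ 2 - 1| ^ k) (Set.Ioi 0) := by
  have hpoly : ∀ u : ℝ, |u ^ 2 / a ^ 2 - 1| ^ k * |u| ^ (2 * n) ≤
      ((1 / a ^ 2 + 1) ^ k * ((2 * k + 2 * n)! : ℝ)) * Real.exp (|u| + 1) := fun u => by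
    have h1 : |u ^ 2 / a ^ 2 - 1| ≤ (1 / a ^ 2 + 1) * (|u| + 1) ^ 2 := by
      refine (abs_sub _ _).trans ?_
      rw [abs_div, abs_one, abs_of_nonneg (sq_nonneg u), abs_of_nonneg (sq_nonneg a)]
      nlinarith [sq_abs u, abs_nonneg u, show 0 ≤ 1 / a ^ 2 by positivity,
        div_eq_mul_one_div (u ^ 2) (a ^ 2)]
    refine (mul_le_mul (pow_le_pow_left₀ (abs_nonneg _) h1 k)
      (pow_le_pow_left₀ (abs_nonneg u) (le_add_of_nonneg_right zero_le_one) (2 * n))
      (pow_nonneg (abs_nonneg u) _) (by positivity)).trans ?_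
    rw [mul_pow, ← pow_mul, mul_assoc, ← pow_add, mul_assoc]
    exact mul_le_mul_of_nonneg_left (pow_le_factorial_mul_exp _ (by positivity)) (by positivity)
  refine (((integrable_phi_gauss t 1).const_mul
    ((1 / a ^ 2 + 1) ^ k * ((2 * k + 2 * n)! : ℝ) * Real.exp 1)).integrableOn).mono'
    ((((by fun_prop : Continuous fun u : ℝ => Real.exp (t * u ^ 2))).mul continuous_polyaPhi).mul
      (by fun_prop : Continuous fun u : ℝ => u ^ (2 * n)) |>.mul
      (by fun_prop : Continuous fun u : ℝ => |u ^ 2 / a ^ 2 - 1| ^ k)).aestronglyMeasurable.restrict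
    (Eventually.of_forall fun u => ?_)
  have hp := polyaPhi_pos u
  rw [momWeight, norm_mul, norm_mul, Real.norm_of_nonneg (by positivity), norm_pow,
    Real.norm_eq_abs, norm_pow, Real.norm_eq_abs, abs_abs, one_mul, mul_assoc,
    mul_comm (|u| ^ (2 * n))]
  refine (mul_le_mul_of_nonneg_left (hpoly u) (by positivity)).trans_eq ?_
  rw [Real.exp_add]
  ring

/-- **The deviation.** -/
theorem exists_dev_bound (k : ℕ) : ∃ K : ℝ, 0 ≤ K ∧ ∀ (t : ℝ) (n : ℕ) (a : ℝ), IsCentre t n a →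
    (∫ u in Set.Ioi (0 : ℝ), momWeight t n u * |u ^ 2 / a ^ 2 - 1| ^ k) ≤
      K * (1 / (a * √(Real.exp (4 * a)))) ^ k * ∫ u in Set.Ioi (0 : ℝ), momWeight t n u := by
  obtain ⟨c, C, hc, hC, hcomp⟩ := momWeight_comparable
  obtain ⟨I, hI⟩ : ∃ I, I = ∫ s : ℝ, (|s| + s ^ 2) ^ k * Real.exp (-(π / 2 * min (s ^ 2) |s|)) :=
    ⟨_, rfl⟩
  have hI0 : 0 ≤ I := hI ▸ integral_nonneg fun s => by positivity
  refine ⟨C / c * 4 * Real.exp (2 * π) * 2 ^ k * I, by positivity, fun t n a h => ?_⟩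
  have ha : 1 ≤ a := h.1
  obtain ⟨q, hq⟩ : ∃ q, q = √(Real.exp (4 * a)) := ⟨_, rfl⟩
  have hq2 : q ^ 2 = Real.exp (4 * a) := by rw [hq, Real.sq_sqrt (Real.exp_pos _).le]
  have hq0 : 0 < q := hq ▸ Real.sqrt_pos.2 (Real.exp_pos _)
  have hq1 : 1 ≤ q := hq ▸ Real.one_le_sqrt.2 (Real.one_le_exp (by linarith))
  rw [← hq]
  obtain ⟨A, hA⟩ : ∃ A, A = momModel t n a := ⟨_, rfl⟩
  have hA0 : 0 < A := hA ▸ mul_pos (Real.exp_pos _) (pow_pos (by linarith) _)
  obtain ⟨g, hg⟩ : ∃ g : ℝ → ℝ, g = fun s =>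
      (|s| + s ^ 2) ^ k * Real.exp (-(π / 2 * min (s ^ 2) |s|)) := ⟨_, rfl⟩
  have hgi : Integrable g := hg ▸ integrable_devKernel k
  have hup : ∀ u : ℝ, 0 < u → momWeight t n u * |u ^ 2 / a ^ 2 - 1| ^ k ≤
      C * A * (2 / (a * q)) ^ k * g (q * (u - a)) := by
    intro u hu
    obtain ⟨x, hx⟩ : ∃ x, x = u - a := ⟨_, rfl⟩
    rw [← hx]
    have hua : u = a + x := by rw [hx]; ring
    have h1 := (hcomp t n u hu.le).2.trans (mul_le_mul_of_nonneg_left
      (le_of_eq_of_le (by rw [hua]) (momModel_upper h (x := x) (by linarith))) hC.le)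
    rw [← hA] at h1
    have h2 : |u ^ 2 / a ^ 2 - 1| ≤ 2 / (a * q) * (|q * x| + (q * x) ^ 2) := by
      rw [abs_mul, abs_of_pos hq0, show u ^ 2 / a ^ 2 - 1 = x * (2 * a + x) / a ^ 2 by
        rw [hua]; field_simp; ring, abs_div, abs_mul, abs_of_nonneg (sq_nonneg a),
        div_le_iff₀ (by positivity)]
      have h3 : |2 * a + x| ≤ 2 * a + |x| := by
        refine (abs_add_le _ _).trans_eq ?_
        rw [abs_of_pos (show 0 < 2 * a by linarith)]
      rw [show 2 / (a * q) * (q * |x| + (q * x) ^ 2) * a ^ 2 = 2 * a * (|x| + q * x ^ 2) by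
        field_simp]
      nlinarith [mul_le_mul_of_nonneg_left h3 (abs_nonneg x), sq_abs x,
        mul_le_mul_of_nonneg_left hq1 (mul_nonneg (show 0 ≤ a by linarith) (sq_nonneg x))]
    have h4 : Real.exp (-(π * Real.exp (4 * a) / 2 * min (x ^ 2) |x|)) ≤
        Real.exp (-(π / 2 * min ((q * x) ^ 2) |q * x|)) := by
      refine Real.exp_le_exp.2 (neg_le_neg ?_)
      rw [← hq2, show π * q ^ 2 / 2 * min (x ^ 2) |x| = π / 2 * (q ^ 2 * min (x ^ 2) |x|) by ring]
      refine mul_le_mul_of_nonneg_left ?_ (by positivity)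
      rw [mul_min_of_nonneg _ _ (sq_nonneg q), mul_pow, abs_mul, abs_of_pos hq0]
      exact min_le_min le_rfl (mul_le_mul_of_nonneg_right (le_self_pow₀ hq1 two_ne_zero)
        (abs_nonneg x))
    simp only [hg]
    calc momWeight t n u * |u ^ 2 / a ^ 2 - 1| ^ k
        ≤ C * (A * Real.exp (-(π / 2 * min ((q * x) ^ 2) |q * x|))) *
            (2 / (a * q) * (|q * x| + (q * x) ^ 2)) ^ k := by
          refine mul_le_mul (h1.trans (mul_le_mul_of_nonneg_left
            (mul_le_mul_of_nonneg_left h4 hA0.le) hC.le))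
            (pow_le_pow_left₀ (abs_nonneg _) h2 k) (by positivity) (by positivity)
      _ = _ := by rw [mul_pow (2 / (a * q))]; ring
  have hnum : (∫ u in Set.Ioi (0 : ℝ), momWeight t n u * |u ^ 2 / a ^ 2 - 1| ^ k) ≤
      C * A * (2 / (a * q)) ^ k * (I / q) := by
    have hgs : Integrable fun u : ℝ => g (q * (u - a)) :=
      (hgi.comp_mul_left' hq0.ne').comp_sub_right a
    refine (setIntegral_mono_on (integrableOn_momWeight_dev t n a k)
      (hgs.const_mul _).integrableOn measurableSet_Ioi hup).trans ?_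
    refine (setIntegral_le_integral (hgs.const_mul _) (Eventually.of_forall fun u => ?_)).trans
      (le_of_eq ?_)
    · simp only [hg]; positivity
    · rw [integral_const_mul, integral_sub_right_eq_self (fun u : ℝ => g (q * u)) a,
        Measure.integral_comp_mul_left g q, hI, hg, smul_eq_mul, abs_of_pos (inv_pos.2 hq0)]
      ring
  have hden : c * A * Real.exp (-(2 * π)) * (1 / (4 * q)) ≤
      ∫ u in Set.Ioi (0 : ℝ), momWeight t n u := by
    have hint : IntegrableOn (fun u => momWeight t n u) (Set.Ioi 0) := integrableOn_moment t n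
    have hsub : Set.Ioc a (a + 1 / (4 * q)) ⊆ Set.Ioi (0 : ℝ) := fun u hu => by
      have := hu.1
      simp only [Set.mem_Ioi]
      linarith
    refine le_trans ?_ (setIntegral_mono_set hint (ae_restrict_of_forall_mem measurableSet_Ioi
      fun u (hu : 0 < u) => ?_) hsub.eventuallyLE)
    · refine le_trans (le_of_eq ?_) (setIntegral_mono_on
        (f := fun _ => c * (A * Real.exp (-(2 * π)))) (integrableOn_const (by simp))
        (hint.mono_set hsub) measurableSet_Ioc fun u hu => ?_)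
      · rw [setIntegral_const, measureReal_def, Real.volume_Ioc, add_sub_cancel_left,
          ENNReal.toReal_ofReal (by positivity), smul_eq_mul]
        ring
      · refine le_trans (mul_le_mul_of_nonneg_left ?_ hc.le) (hcomp t n u (by linarith [hu.1])).1
        have := momModel_lower h (x := u - a) (by linarith [hu.1])
          (by rw [← hq]; linarith [hu.2])
        rwa [add_sub_cancel, ← hA] at this
    · have := polyaPhi_pos u
      simp only [Pi.zero_apply, momWeight]
      positivity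
  refine hnum.trans ?_
  have hK : 0 ≤ C / c * 4 * Real.exp (2 * π) * 2 ^ k * I * (1 / (a * q)) ^ k := by positivity
  refine le_trans (le_of_eq ?_) (mul_le_mul_of_nonneg_left hden hK)
  rw [Real.exp_neg]
  field_simp
  ring

/-- **The centres.** -/
theorem exists_centres (t : ℝ) : ∃ a : ℕ → ℝ, (∀ n, 0 < a n) ∧ Tendsto a atTop atTop ∧
    ∀ᶠ n : ℕ in atTop, IsCentre t n (a n) := by
  classical
  obtain ⟨h, hh⟩ : ∃ h : ℝ → ℝ,
      h = fun a => 4 * π * a * Real.exp (4 * a) - 9 * a - 2 * t * a ^ 2 := ⟨_, rfl⟩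
  have hcont : Continuous h := by rw [hh]; fun_prop
  have hex : ∀ A : ℝ, |t| + 1 ≤ A → ∀ᶠ n : ℕ in atTop, ∃ a, A ≤ a ∧ IsCentre t n a := by
    intro A hA
    filter_upwards [tendsto_natCast_atTop_atTop.eventually_ge_atTop (h A / 2)] with n hn
    obtain ⟨B, hB⟩ : ∃ B, B = A + 2 * n + 2 := ⟨_, rfl⟩
    have hA1 : 1 ≤ A := by linarith [abs_nonneg t]
    have hAB : A ≤ B := by rw [hB]; linarith [(Nat.cast_nonneg n : (0 : ℝ) ≤ n)]
    have hexp : ∀ x, 0 ≤ x → 8 * x ^ 2 ≤ Real.exp (4 * x) := fun x hx => by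
      have := Real.quadratic_le_exp_of_nonneg (show 0 ≤ 4 * x by linarith)
      nlinarith
    have hBig : 2 * (n : ℝ) ≤ h B := by
      have h1 : A ≤ B := hAB
      have h2 := hexp B (by linarith)
      rw [hh]
      simp only
      have h3 : 4 * π * B * (8 * B ^ 2) ≤ 4 * π * B * Real.exp (4 * B) :=
        mul_le_mul_of_nonneg_left h2 (mul_nonneg (by positivity) (by linarith))
      have h4 : t * B ^ 2 ≤ |t| * B ^ 2 := mul_le_mul_of_nonneg_right (le_abs_self t) (sq_nonneg B)
      have h5 : |t| * B ^ 2 ≤ B * B ^ 2 := mul_le_mul_of_nonneg_right (by linarith) (sq_nonneg B)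
      have h6 : 3 * B ^ 3 ≤ π * B ^ 3 :=
        mul_le_mul_of_nonneg_right Real.pi_gt_three.le (pow_nonneg (by linarith) 3)
      have h7 : B ≤ B ^ 3 := le_self_pow₀ (by linarith) (by norm_num)
      nlinarith [(Nat.cast_nonneg n : (0 : ℝ) ≤ n)]
    obtain ⟨a, ha, hha⟩ := intermediate_value_Icc hAB hcont.continuousOn
      (show 2 * (n : ℝ) ∈ Set.Icc (h A) (h B) from ⟨by linarith, hBig⟩)
    refine ⟨a, ha.1, by linarith [ha.1], ?_, ?_⟩
    · rw [hh] at hha
      simp only at hha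
      linarith
    · have h1 := mul_le_mul_of_nonneg_left (hexp a (by linarith [ha.1])) Real.pi_pos.le
      have h2 : |t| * (a + 1) ≤ a * (2 * a) :=
        mul_le_mul (by linarith [ha.1]) (by linarith [ha.1]) (by linarith [ha.1, abs_nonneg t])
          (by linarith [ha.1])
      nlinarith [Real.pi_gt_three, mul_le_mul_of_nonneg_right Real.pi_gt_three.le (sq_nonneg a)]
  obtain ⟨a, ha⟩ : ∃ a : ℕ → ℝ, a = fun n : ℕ =>
      if hn : ∃ a, IsCentre t n a then hn.choose else 1 := ⟨_, rfl⟩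
  have hsel : ∀ᶠ n : ℕ in atTop, IsCentre t n (a n) :=
    (hex _ le_rfl).mono fun n ⟨b, _, hb⟩ => by
      have hn : ∃ a, IsCentre t n a := ⟨b, hb⟩
      simp only [ha, dif_pos hn]
      exact hn.choose_spec
  refine ⟨a, fun n => ?_, tendsto_atTop.2 fun A => ?_, hsel⟩
  · simp only [ha]
    split_ifs with hn
    · linarith [hn.choose_spec.1]
    · exact one_pos
  · obtain ⟨M, hM⟩ := (isCompact_Icc (a := (1 : ℝ)) (b := A)).bddAbove_image hcont.continuousOn
    filter_upwards [hsel, tendsto_natCast_atTop_atTop.eventually_gt_atTop (M / 2)] with n hn hn2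
    by_contra hlt
    rw [not_le] at hlt
    have := hM ⟨a n, ⟨hn.1, hlt.le⟩, rfl⟩
    rw [hh] at this
    simp only at this
    linarith [hn.2.1]

theorem tendsto_centre_ratio {a : ℕ → ℝ} (ha : Tendsto a atTop atTop)
    (hc : ∀ᶠ n : ℕ in atTop, IsCentre t n (a n)) :
    Tendsto (fun n : ℕ => √((n : ℝ) + 1 / 2) * (1 / (a n * √(Real.exp (4 * a n))))) atTop
      (𝓝 0) := by
  have h : Tendsto (fun n : ℕ => √(3 * π / a n)) atTop (𝓝 0) := by
    have := (Real.continuous_sqrt.tendsto 0).comp ((tendsto_const_nhds (x := 3 * π)).div_atTop ha)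
    simpa [Function.comp_def] using this
  refine squeeze_zero' ?_ ?_ h
  · filter_upwards [hc] with n hn
    have : 0 < a n := by linarith [hn.1]
    positivity
  · filter_upwards [hc] with n hn
    obtain ⟨-, hb⟩ := centre_le hn
    have ha0 : 0 < a n := by linarith [hn.1]
    have hE := Real.exp_pos (4 * a n)
    rw [Real.le_sqrt (by positivity) (by positivity), mul_pow, div_pow, one_pow, mul_pow,
      Real.sq_sqrt (by positivity), Real.sq_sqrt hE.le, mul_one_div, div_le_div_iff₀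
        (by positivity) ha0]
    nlinarith [mul_le_mul_of_nonneg_left hb ha0.le]

end FA.JensenPolynomials

end
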