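import Mathlib.Analysis.Complex.Polynomial.Basic
import Mathlib.Algebra.Polynomial.Derivative
import Mathlib.Topology.Instances.Complex

/-!
# The theorem of Hermite and Poulain

If `p` and `q` have only real zeros then `p (D) q` has only real zeros or is `0`; applied to
`q = X^d` this gives the reversed Jensen polynomial of `p`.
-/

set_option autoImplicit false

noncomputable section

namespace FA.JensenPolynomials

open Polynomial Filter Topology
open scoped Nat

/-- All the zeros are real. -/
def RealZeros (q : ℂ[X]) : Prop := ∀ z : ℂ, q.eval z = 0 → z.im = 0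

/-- `p (D) q`. -/
def polyAct (p q : ℂ[X]) : ℂ[X] :=
  (aeval (Polynomial.derivative : ℂ[X] →ₗ[ℂ] ℂ[X]) p) q

theorem im_sum_inv {z : ℂ} (hz : z.im ≠ 0) (R : Multiset ℂ) (hR : ∀ r ∈ R, r.im = 0) :
    z.im * (R.map fun r => 1 / (z - r)).sum.im ≤ 0 ∧
      (R ≠ 0 → z.im * (R.map fun r => 1 / (z - r)).sum.im < 0) := by
  induction R using Multiset.induction_on with
  | empty => simp
  | cons r R ih =>
    obtain ⟨h1, -⟩ := ih fun a ha => hR a (Multiset.mem_cons_of_mem ha)
    have hr := hR r (Multiset.mem_cons_self r R)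
    have hne : z - r ≠ 0 := fun h => hz (by
      have := congrArg Complex.im h
      simpa [hr] using this)
    have h2 : z.im * (1 / (z - r)).im < 0 := by
      rw [one_div, Complex.inv_im, Complex.sub_im, hr, sub_zero, ← mul_div_assoc]
      exact div_neg_of_neg_of_pos (by nlinarith [mul_self_pos.2 hz]) (Complex.normSq_pos.2 hne)
    have h3 : z.im * ((r ::ₘ R).map fun r => 1 / (z - r)).sum.im < 0 := by
      rw [Multiset.map_cons, Multiset.sum_cons, Complex.add_im, mul_add]
      linarith
    exact ⟨h3.le, fun _ => h3⟩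

theorem realZeros_step {q : ℂ[X]} (hq : RealZeros q) {ρ : ℂ} (hρ : ρ.im = 0)
    (h0 : derivative q - C ρ * q ≠ 0) : RealZeros (derivative q - C ρ * q) := by
  intro z hz
  by_contra him
  have hqz : q.eval z ≠ 0 := fun h => him (hq z h)
  have hs := (IsAlgClosed.splits q).eval_derivative_div_eval_of_ne_zero hqz
  rw [eval_sub, eval_mul, eval_C, sub_eq_zero] at hz
  rw [hz, mul_div_cancel_right₀ _ hqz] at hs
  rcases eq_or_ne q.roots 0 with hR | hR
  · rw [hR, Multiset.map_zero, Multiset.sum_zero] at hs
    refine h0 ?_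
    rcases Nat.eq_zero_or_pos q.natDegree with hd | hd
    · rw [hs, eq_C_of_natDegree_eq_zero hd]
      simp
    · exact absurd ((IsAlgClosed.splits q).natDegree_eq_card_roots.trans (by simp [hR])) hd.ne'
  · have h := (im_sum_inv him q.roots fun r hr => hq r (isRoot_of_mem_roots hr)).2 hR
    rw [← hs, hρ, mul_zero] at h
    exact lt_irrefl _ h

theorem polyAct_mul (a b q : ℂ[X]) : polyAct (a * b) q = polyAct a (polyAct b q) := by
  simp [polyAct]

theorem polyAct_C (c : ℂ) (q : ℂ[X]) : polyAct (C c) q = C c * q := by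
  simp [polyAct, Module.algebraMap_end_apply, smul_eq_C_mul]

theorem polyAct_X_sub_C (ρ : ℂ) (q : ℂ[X]) :
    polyAct (X - C ρ) q = derivative q - C ρ * q := by
  simp [polyAct, Module.algebraMap_end_apply, smul_eq_C_mul]

/-- **Hermite–Poulain.** -/
theorem realZeros_polyAct {p q : ℂ[X]} (hp : RealZeros p) (hq : RealZeros q) :
    polyAct p q = 0 ∨ RealZeros (polyAct p q) := by
  have key : ∀ R : Multiset ℂ, (∀ r ∈ R, r.im = 0) →
      polyAct (R.map fun r => X - C r).prod q = 0 ∨
        RealZeros (polyAct (R.map fun r => X - C r).prod q) := by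
    intro R
    induction R using Multiset.induction_on with
    | empty => intro _; right; simpa [polyAct] using hq
    | cons r R ih =>
      intro hR
      rw [Multiset.map_cons, Multiset.prod_cons, polyAct_mul, polyAct_X_sub_C]
      rcases ih fun a ha => hR a (Multiset.mem_cons_of_mem ha) with h | h
      · left; simp [h]
      · rcases eq_or_ne (derivative (polyAct (R.map fun r => X - C r).prod q) -
            C r * polyAct (R.map fun r => X - C r).prod q) 0 with h0 | h0
        · exact Or.inl h0
        · exact Or.inr (realZeros_step h (hR r (Multiset.mem_cons_self r R)) h0)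
  rcases eq_or_ne p 0 with rfl | hp0
  · left; simp [polyAct]
  rw [(IsAlgClosed.splits p).eq_prod_roots, polyAct_mul, polyAct_C]
  rcases key p.roots fun r hr => hp r (isRoot_of_mem_roots hr) with h | h
  · left; simp [h]
  · right
    intro z hz
    rw [eval_mul, eval_C, mul_eq_zero, or_iff_right (leadingCoeff_ne_zero.2 hp0)] at hz
    exact h z hz

theorem realZeros_X_pow (d : ℕ) : RealZeros ((X : ℂ[X]) ^ d) := fun z hz => by
  rw [eval_pow, eval_X] at hz
  simp [eq_zero_of_pow_eq_zero hz]

theorem realZeros_iterate_derivative {p : ℂ[X]} (hp : RealZeros p) :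
    ∀ n : ℕ, derivative^[n] p = 0 ∨ RealZeros (derivative^[n] p)
  | 0 => Or.inr hp
  | n + 1 => by
    rw [Function.iterate_succ_apply']
    rcases realZeros_iterate_derivative hp n with h | h
    · left; simp [h]
    · rcases eq_or_ne (derivative (derivative^[n] p)) 0 with h0 | h0
      · exact Or.inl h0
      · right
        have := realZeros_step h (ρ := 0) (by simp) (by simpa using h0)
        simpa using this

theorem eval_polyAct_X_pow (p : ℂ[X]) (d : ℕ) (z : ℂ) :
    (polyAct p ((X : ℂ[X]) ^ d)).eval z =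
      ∑ j ∈ Finset.range (d + 1), p.coeff j * (d.descFactorial j : ℂ) * z ^ (d - j) := by
  obtain ⟨N, hN⟩ : ∃ N, N = max (p.natDegree + 1) (d + 1) := ⟨_, rfl⟩
  have hd : d + 1 ≤ N := hN ▸ le_max_right _ _
  rw [polyAct, aeval_eq_sum_range' (n := N) (by omega), LinearMap.sum_apply, eval_finsetSum]
  refine (Finset.sum_subset_zero_on_sdiff (Finset.range_mono hd) (fun j hj => ?_)
    fun j _ => ?_).symm
  · rw [Finset.mem_sdiff, Finset.mem_range, Finset.mem_range] at hj
    rw [LinearMap.smul_apply, Module.End.coe_pow, iterate_derivative_X_pow_eq_C_mul,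
      Nat.descFactorial_eq_zero_iff_lt.2 (by omega)]
    simp
  · rw [LinearMap.smul_apply, Module.End.coe_pow, iterate_derivative_X_pow_eq_C_mul, eval_smul,
      eval_mul, eval_C, eval_pow, eval_X, smul_eq_mul, mul_assoc]

/-- **A limit of polynomials of degree `d` with real zeros.** -/
theorem im_eq_zero_of_limit {d : ℕ} {Q : ℕ → ℂ[X]} {c : ℕ → ℕ → ℂ} {b : ℕ → ℂ}
    (hQ : ∀ k, Q k = 0 ∨ RealZeros (Q k))
    (heval : ∀ k z, (Q k).eval z = ∑ j ∈ Finset.range (d + 1), c k j * z ^ (d - j))
    (hlim : ∀ j ≤ d, Tendsto (fun k => c k j) atTop (𝓝 (b j))) (hb : b 0 ≠ 0) {z : ℂ}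
    (hz : ∑ j ∈ Finset.range (d + 1), b j * z ^ (d - j) = 0) : z.im = 0 := by
  by_contra him
  have hlow : ∀ᶠ k in atTop, ‖c k 0‖ * |z.im| ^ d ≤ ‖(Q k).eval z‖ := by
    filter_upwards [(hlim 0 (Nat.zero_le d)).eventually_ne hb] with k hk
    have hco : Q k = ∑ j ∈ Finset.range (d + 1), C (c k j) * X ^ (d - j) :=
      Polynomial.funext fun x => by simp [heval, eval_finsetSum]
    have hdeg : (Q k).natDegree = d ∧ (Q k).leadingCoeff = c k 0 := by
      have hle : (Q k).natDegree ≤ d := by
        rw [hco]
        exact natDegree_sum_le_of_forall_le _ _ fun j _ =>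
          (natDegree_C_mul_X_pow_le _ _).trans (Nat.sub_le d j)
      have hc : (Q k).coeff d = c k 0 := by
        rw [hco, finsetSum_coeff, Finset.sum_eq_single 0]
        · simp
        · intro j hj hj0
          rw [coeff_C_mul_X_pow, if_neg]
          have := Finset.mem_range.1 hj
          omega
        · simp
      have he := natDegree_eq_of_le_of_coeff_ne_zero hle (by rwa [hc])
      exact ⟨he, by rw [leadingCoeff, he, hc]⟩
    have hR : RealZeros (Q k) := (hQ k).resolve_left fun h => hk (by
      rw [← hdeg.2, h, leadingCoeff_zero])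
    rw [(IsAlgClosed.splits (Q k)).eval_eq_prod_roots, norm_mul, hdeg.2]
    refine mul_le_mul_of_nonneg_left ?_ (norm_nonneg _)
    rw [← hdeg.1, (IsAlgClosed.splits (Q k)).natDegree_eq_card_roots]
    have : ∀ R : Multiset ℂ, (∀ r ∈ R, r.im = 0) →
        |z.im| ^ Multiset.card R ≤ ‖(R.map fun r => z - r).prod‖ := fun R => by
      induction R using Multiset.induction_on with
      | empty => simp
      | cons r R ih =>
        intro hR
        rw [Multiset.map_cons, Multiset.prod_cons, norm_mul, Multiset.card_cons, pow_succ']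
        refine mul_le_mul ?_ (ih fun a ha => hR a (Multiset.mem_cons_of_mem ha))
          (pow_nonneg (abs_nonneg _) _) (norm_nonneg _)
        refine le_trans ?_ (Complex.abs_im_le_norm _)
        rw [Complex.sub_im, hR r (Multiset.mem_cons_self r R), sub_zero]
    exact this _ fun r hr => hR r (isRoot_of_mem_roots hr)
  have hlim' : Tendsto (fun k => ‖(Q k).eval z‖) atTop (𝓝 0) := by
    rw [← norm_zero (E := ℂ), ← hz]
    simp only [heval]
    exact (tendsto_finsetSum _ fun j hj =>
      (hlim j (Nat.lt_succ_iff.1 (Finset.mem_range.1 hj))).mul_const _).norm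
  have h := le_of_tendsto_of_tendsto ((hlim 0 (Nat.zero_le d)).norm.mul_const _) hlim' hlow
  exact absurd h (not_le.2 (mul_pos (norm_pos_iff.2 hb) (pow_pos (abs_pos.2 him) d)))

end FA.JensenPolynomials

end
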