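import Fermat.Agent.DeBruijn.Heat
import Fermat.Agent.JensenPolynomials.Poulain
import Mathlib.Analysis.Normed.Group.Tannery

/-!
# Jensen's criterion

For an entire `f z = ∑ a j z^j` of growth `exp (o |z|)` with every `a j > 0`: the zeros of `f` are
all real iff for all `d`, `n` those of `∑ C (d, j) (n + j)! a (n + j) z^j` are, and it suffices that
this holds for `n = 0`.
-/

set_option autoImplicit false

noncomputable section

namespace FA.JensenPolynomials

open Polynomial Filter Topology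
open scoped Nat

variable {f : ℂ → ℂ} {a : ℕ → ℝ}

/-- The Jensen polynomial of degree `d` and shift `n` of the sequence `g`, as a function. -/
def jensenSum (g : ℕ → ℝ) (d n : ℕ) (z : ℂ) : ℂ :=
  ∑ j ∈ Finset.range (d + 1), (d.choose j : ℂ) * (g (n + j) : ℂ) * z ^ j

theorem eq_ofReal_tsum (hsum : ∀ z : ℂ, HasSum (fun j => (a j : ℂ) * z ^ j) (f z)) (x : ℝ) :
    (Summable fun j => a j * x ^ j) ∧ f x = ((∑' j, a j * x ^ j : ℝ) : ℂ) := by
  have h : HasSum (fun j => ((a j * x ^ j : ℝ) : ℂ)) (f x) := by simpa using hsum x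
  exact ⟨Complex.summable_ofReal.1 h.summable, by rw [Complex.ofReal_tsum, h.tsum_eq]⟩

theorem pos_on_nonneg (ha : ∀ j, 0 < a j)
    (hsum : ∀ z : ℂ, HasSum (fun j => (a j : ℂ) * z ^ j) (f z)) {x : ℝ} (hx : 0 ≤ x) :
    0 < (f x).re ∧ f x = ((f x).re : ℂ) := by
  obtain ⟨hs, he⟩ := eq_ofReal_tsum hsum x
  rw [he, Complex.ofReal_re]
  exact ⟨hs.tsum_pos (fun j => mul_nonneg (ha j).le (pow_nonneg hx j)) 0 (by simpa using ha 0), rfl⟩

/-- The product over the inverse distances `R`. -/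
def linProd (c : ℝ) (R : Multiset ℝ) : ℝ[X] :=
  Polynomial.C c * (R.map fun b => Polynomial.C b * X + 1).prod

theorem coeff_linProd_nonneg {c : ℝ} (hc : 0 ≤ c) {R : Multiset ℝ} (hR : ∀ b ∈ R, 0 ≤ b) (j : ℕ) :
    0 ≤ (linProd c R).coeff j := by
  rw [linProd, coeff_C_mul]
  refine mul_nonneg hc ?_
  clear hc
  induction R using Multiset.induction_on generalizing j with
  | empty => simp [coeff_one]; split_ifs <;> norm_num
  | cons b R ih =>
    have hb := hR b (Multiset.mem_cons_self b R)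
    have ih' := fun i => ih (fun x hx => hR x (Multiset.mem_cons_of_mem hx)) i
    rw [Multiset.map_cons, Multiset.prod_cons, add_mul, one_mul, coeff_add, mul_assoc,
      coeff_C_mul]
    rcases j with _ | i
    · simpa using ih' 0
    · rw [coeff_X_mul]
      exact add_nonneg (mul_nonneg hb (ih' i)) (ih' _)

theorem eval_linProd (c : ℝ) (R : Multiset ℝ) (x : ℝ) :
    (linProd c R).eval x = c * (R.map fun b => b * x + 1).prod := by
  simp [linProd, eval_multiset_prod, Multiset.map_map]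

theorem realZeros_linProd {c : ℝ} (hc : c ≠ 0) (R : Multiset ℝ) :
    RealZeros ((linProd c R).map (algebraMap ℝ ℂ)) := by
  intro z hz
  rw [eval_map, ← aeval_def, linProd, map_mul, aeval_C, map_multiset_prod, mul_eq_zero,
    or_iff_right (by simpa using hc), Multiset.prod_eq_zero_iff, Multiset.map_map,
    Multiset.mem_map] at hz
  obtain ⟨b, -, hb⟩ := hz
  simp only [Function.comp_apply, map_add, map_mul, aeval_C, aeval_X, map_one] at hb
  have h1 := congrArg Complex.im hb
  simp at h1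
  rcases h1 with h1 | h1
  · simp [h1] at hb
  · exact h1

theorem eq_zero_of_tsum_eq_zero {b : ℕ → ℝ} {K : ℝ} (hK : ∀ j, |b j| ≤ K)
    (h : ∀ x : ℝ, 0 < x → x ≤ 1 / 2 → ∑' j, b j * x ^ j = 0) : ∀ j, b j = 0 := by
  intro j
  induction j using Nat.strong_induction_on with
  | _ m ih =>
    by_contra hm
    have hK0 : 0 ≤ K := (abs_nonneg _).trans (hK 0)
    obtain ⟨x, hx⟩ : ∃ x, x = min (1 / 2) (|b m| / (4 * (K + 1))) := ⟨_, rfl⟩
    have hx0 : 0 < x := hx ▸ lt_min (by norm_num) (div_pos (abs_pos.2 hm) (by linarith))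
    have hx2 : x ≤ 1 / 2 := hx ▸ min_le_left _ _
    have hgeo := summable_geometric_two
    have hb : ∀ i, ‖b i * x ^ i‖ ≤ K * (1 / 2) ^ i := fun i => by
      rw [Real.norm_eq_abs, abs_mul, abs_pow, abs_of_pos hx0]
      exact mul_le_mul (hK i) (pow_le_pow_left₀ hx0.le hx2 i) (by positivity) hK0
    have hs : Summable fun i => b i * x ^ i := Summable.of_norm_bounded (hgeo.mul_left K) hb
    have h1 := h x hx0 hx2
    rw [← hs.sum_add_tsum_nat_add (m + 1), Finset.sum_range_succ,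
      Finset.sum_eq_zero fun i hi => by rw [ih i (Finset.mem_range.1 hi), zero_mul], zero_add] at h1
    have hr : ‖∑' i, b (i + (m + 1)) * x ^ (i + (m + 1))‖ ≤ 2 * K * x ^ (m + 1) := by
      refine (tsum_of_norm_bounded ((hasSum_geometric_two).mul_left (K * x ^ (m + 1))) fun i => ?_
        ).trans_eq (by ring)
      rw [Real.norm_eq_abs, abs_mul, abs_pow, abs_of_pos hx0, pow_add, mul_comm (x ^ i),
        mul_assoc K]
      exact mul_le_mul (hK _) (mul_le_mul_of_nonneg_left (pow_le_pow_left₀ hx0.le hx2 i)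
        (by positivity)) (by positivity) hK0
    rw [show ∑' i, b (i + (m + 1)) * x ^ (i + (m + 1)) = -(b m * x ^ m) by linarith, norm_neg,
      Real.norm_eq_abs, abs_mul, abs_pow, abs_of_pos hx0, pow_succ] at hr
    have h2 : |b m| ≤ 2 * K * x :=
      le_of_mul_le_mul_right (hr.trans_eq (by ring)) (pow_pos hx0 m)
    have h3 : x * (4 * (K + 1)) ≤ |b m| :=
      (le_div_iff₀ (by linarith)).1 (hx ▸ min_le_right _ _)
    nlinarith

/-- **The approximation**: a function with only real zeros is a limit of such polynomials. -/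
theorem exists_approx (hf : Differentiable ℂ f)
    (hgr : ∀ η : ℝ, 0 < η → ∃ G : ℝ, ∀ z : ℂ, ‖f z‖ ≤ Real.exp (η * ‖z‖ + G))
    (ha : ∀ j, 0 < a j) (hsum : ∀ z : ℂ, HasSum (fun j => (a j : ℂ) * z ^ j) (f z))
    (hzero : ∀ z : ℂ, f z = 0 → z.im = 0) :
    ∃ P : ℕ → ℂ[X], (∀ k, RealZeros (P k)) ∧
      ∀ j, Tendsto (fun k => (P k).coeff j) atTop (𝓝 (a j : ℂ)) := by
  classical
  obtain ⟨hpos0, he0⟩ := pos_on_nonneg ha hsum le_rfl
  simp only [Complex.ofReal_zero] at hpos0 he0
  have h0 : f 0 ≠ 0 := fun h => by rw [h] at hpos0; simp at hpos0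
  obtain ⟨c, hc⟩ : ∃ c, c = (f 0).re := ⟨_, rfl⟩
  have hc0 : 0 < c := hc ▸ hpos0
  have hnc : ‖f 0‖ = c := by
    rw [he0, Complex.norm_real, Real.norm_of_nonneg hpos0.le, hc]
  have hZ : ∀ᶠ r : ℝ in atTop, ∃ Z : Multiset ℂ, (∀ ρ ∈ Z, ‖ρ‖ ≤ r ∧ ρ ≠ 0 ∧ f ρ = 0) ∧
      ∀ z : ℂ, ‖z‖ ≤ r → analyticOrderNatAt f z = Z.count z :=
    (FA.PrimeRaceLittlewood.eventually_product_exact hf h0 hgr 0 one_pos).mono
      fun r ⟨Z, h1, h2, _⟩ => ⟨Z, h1, h2⟩
  obtain ⟨P, hP⟩ : ∃ P : ℕ → ℝ[X], ∀ k : ℕ,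
      (∃ R, (∀ b ∈ R, 0 ≤ b) ∧ P k = linProd c R) ∧
        ∀ Z : Multiset ℂ, (∀ ρ ∈ Z, ‖ρ‖ ≤ k ∧ ρ ≠ 0 ∧ f ρ = 0) →
          (∀ z : ℂ, ‖z‖ ≤ k → analyticOrderNatAt f z = Z.count z) →
            P k = linProd c (Z.map fun ρ => ‖ρ‖⁻¹) := by
    refine ⟨fun k => if h : ∃ Z : Multiset ℂ, (∀ ρ ∈ Z, ‖ρ‖ ≤ k ∧ ρ ≠ 0 ∧ f ρ = 0) ∧
      ∀ z : ℂ, ‖z‖ ≤ k → analyticOrderNatAt f z = Z.count z
      then linProd c (h.choose.map fun ρ => ‖ρ‖⁻¹) else linProd c 0, fun k => ⟨?_, ?_⟩⟩
    · dsimp only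
      split_ifs with h
      · exact ⟨_, fun b hb => by
          obtain ⟨ρ, -, rfl⟩ := Multiset.mem_map.1 hb
          positivity, rfl⟩
      · exact ⟨0, by simp, rfl⟩
    · intro Z h1 h2
      have h : ∃ Z : Multiset ℂ, (∀ ρ ∈ Z, ‖ρ‖ ≤ k ∧ ρ ≠ 0 ∧ f ρ = 0) ∧
          ∀ z : ℂ, ‖z‖ ≤ k → analyticOrderNatAt f z = Z.count z := ⟨Z, h1, h2⟩
      simp only [dif_pos h]
      have : h.choose = Z := Multiset.ext.2 fun u => by
        by_cases hu : ‖u‖ ≤ k
        · rw [← h.choose_spec.2 u hu, ← h2 u hu]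
        · rw [Multiset.count_eq_zero.2 fun hm => hu (h.choose_spec.1 u hm).1,
            Multiset.count_eq_zero.2 fun hm => hu (h1 u hm).1]
      rw [this]
  have hlim : ∀ x : ℝ, 0 ≤ x →
      Tendsto (fun k => (P k).eval x) atTop (𝓝 ((f x).re)) := by
    intro x hx
    obtain ⟨hfx, hefx⟩ := pos_on_nonneg ha hsum hx
    rw [Metric.tendsto_atTop]
    intro δ hδ
    obtain ⟨ε, hε, hεδ⟩ : ∃ ε : ℝ, 0 < ε ∧ (f x).re * (Real.exp ε - 1) < δ := by
      have hcont : Continuous fun ε : ℝ => (f x).re * (Real.exp ε - 1) := by fun_prop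
      obtain ⟨ε, h1, h2⟩ := ((hcont.tendsto' 0 0 (by simp)).mono_left
        (nhdsWithin_le_nhds (s := Set.Ioi (0 : ℝ)))).eventually_lt_const hδ |>.and
          eventually_mem_nhdsWithin |>.exists
      exact ⟨ε, h2, h1⟩
    obtain ⟨N, hN⟩ := eventually_atTop.1 (tendsto_natCast_atTop_atTop.eventually
      (FA.PrimeRaceLittlewood.eventually_product_exact hf h0 hgr (x : ℂ) hε))
    refine ⟨N, fun k hk => ?_⟩
    obtain ⟨Z, h1, h2, hup, hlow⟩ := hN k hk
    have hprod : ‖f 0‖ * (Z.map fun ρ => ‖(x : ℂ) - ρ‖ / ‖ρ‖).prod = (P k).eval x := by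
      rw [(hP k).2 Z h1 h2, eval_linProd, hnc, Multiset.map_map]
      congr 2
      refine Multiset.map_congr rfl fun ρ hρ => ?_
      obtain ⟨-, hne, hz⟩ := h1 ρ hρ
      have him := hzero ρ hz
      have hρe : ρ = (ρ.re : ℂ) := Complex.ext (by simp) (by simp [him])
      have hneg : ρ.re < 0 := by
        by_contra hge
        obtain ⟨hp, -⟩ := pos_on_nonneg ha hsum (not_lt.1 hge)
        rw [← hρe, hz] at hp
        simp at hp
      simp only [Function.comp_apply]
      have hne' := hneg.ne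
      rw [hρe, ← Complex.ofReal_sub, Complex.norm_real, Complex.norm_real, Real.norm_eq_abs,
        Real.norm_eq_abs, abs_of_neg hneg, abs_of_nonneg (by linarith)]
      field_simp
      ring
    rw [hprod, hefx, Complex.norm_real, Real.norm_of_nonneg hfx.le] at hup hlow
    have hPnn : 0 ≤ (P k).eval x := by
      rw [← hprod]
      exact mul_nonneg (norm_nonneg _) (Multiset.prod_nonneg fun b hb => by
        obtain ⟨ρ, -, rfl⟩ := Multiset.mem_map.1 hb
        positivity)
    have he1 : 1 ≤ Real.exp ε := Real.one_le_exp hε.le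
    have hlow' : (P k).eval x ≤ (f x).re * Real.exp ε := by
      rwa [Real.exp_neg, ← div_eq_mul_inv, div_le_iff₀ (Real.exp_pos ε)] at hlow
    rw [Real.dist_eq, abs_lt]
    constructor
    · nlinarith
    · nlinarith
  have hnn : ∀ k j, 0 ≤ (P k).coeff j := fun k j => by
    obtain ⟨R, hR, hPk⟩ := (hP k).1
    rw [hPk]
    exact coeff_linProd_nonneg hc0.le hR j
  obtain ⟨M, hM⟩ : ∃ M, ∀ k, (P k).eval 2 ≤ M := by
    obtain ⟨M, hM⟩ := (hlim 2 zero_le_two).bddAbove_range
    exact ⟨M, fun k => hM ⟨k, rfl⟩⟩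
  have hcb : ∀ k j, (P k).coeff j * 2 ^ j ≤ M := fun k j => by
    refine le_trans ?_ (hM k)
    rw [eval_eq_sum_range' (n := max ((P k).natDegree + 1) (j + 1)) (by omega)]
    exact Finset.single_le_sum (f := fun i => (P k).coeff i * 2 ^ i)
      (fun i _ => mul_nonneg (hnn k i) (by positivity)) (Finset.mem_range.2 (by omega))
  have hmem : ∀ k, (fun j => (P k).coeff j) ∈
      Set.univ.pi fun j : ℕ => Set.Icc (0 : ℝ) (M / 2 ^ j) := fun k j _ =>
    ⟨hnn k j, by rw [le_div_iff₀ (by positivity)]; exact hcb k j⟩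
  obtain ⟨b, hb, se, hse, hselim⟩ := (isCompact_univ_pi fun j : ℕ =>
    isCompact_Icc (a := (0 : ℝ)) (b := M / 2 ^ j)).tendsto_subseq hmem
  have hco : ∀ j, Tendsto (fun k => (P (se k)).coeff j) atTop (𝓝 (b j)) :=
    fun j => tendsto_pi_nhds.1 hselim j
  have hM0 : 0 ≤ M := by have := hcb 0 0; simp at this; linarith [hnn 0 0]
  obtain ⟨hsa, hea⟩ := eq_ofReal_tsum hsum 1
  have heq : ∀ j, b j = a j := by
    have hK : ∀ j, |b j - a j| ≤ M + ∑' i, a i * (1 : ℝ) ^ i := fun j => by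
      have h1 : |b j| ≤ M := by
        rw [abs_of_nonneg (hb j trivial).1]
        exact (hb j trivial).2.trans (div_le_self hM0 (one_le_pow₀ one_le_two))
      have h2 : |a j| ≤ ∑' i, a i * (1 : ℝ) ^ i := by
        rw [abs_of_pos (ha j)]
        simpa using hsa.le_tsum j fun i _ => by simpa using (ha i).le
      exact (abs_sub _ _).trans (add_le_add h1 h2)
    have hz := eq_zero_of_tsum_eq_zero hK fun x hx0 hx2 => by
      obtain ⟨hsx, hex⟩ := eq_ofReal_tsum hsum x
      have hgeo : Summable fun j => M * (1 / 2 : ℝ) ^ j := summable_geometric_two.mul_left M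
      have hdom : ∀ k j, ‖(P (se k)).coeff j * x ^ j‖ ≤ M * (1 / 2) ^ j := fun k j => by
        rw [Real.norm_of_nonneg (mul_nonneg (hnn _ j) (pow_nonneg hx0.le j))]
        exact mul_le_mul
          ((hmem (se k) j trivial).2.trans (div_le_self hM0 (one_le_pow₀ one_le_two)))
          (pow_le_pow_left₀ hx0.le hx2 j) (by positivity) hM0
      have hbs : Summable fun j => b j * x ^ j := Summable.of_norm_bounded hgeo fun j =>
        le_of_tendsto (((hco j).mul_const _).norm) (Eventually.of_forall fun k => hdom k j)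
      have h1 : Tendsto (fun k => ∑' j, (P (se k)).coeff j * x ^ j) atTop
          (𝓝 (∑' j, b j * x ^ j)) :=
        tendsto_tsum_of_dominated_convergence hgeo (fun j => (hco j).mul_const _)
          (Eventually.of_forall hdom)
      have h2 : (fun k => ∑' j, (P (se k)).coeff j * x ^ j) = fun k => (P (se k)).eval x := by
        funext k
        rw [eval_eq_sum_range, tsum_eq_sum (s := Finset.range ((P (se k)).natDegree + 1))]
        intro j hj
        rw [coeff_eq_zero_of_natDegree_lt (by simpa using hj), zero_mul]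
      rw [h2] at h1
      have h3 := tendsto_nhds_unique h1 ((hlim x hx0.le).comp hse.tendsto_atTop)
      rw [hex, Complex.ofReal_re] at h3
      simp only [sub_mul]
      rw [hbs.tsum_sub hsx, h3, sub_self]
    exact fun j => sub_eq_zero.1 (hz j)
  refine ⟨fun k => (P (se k)).map (algebraMap ℝ ℂ), fun k => ?_, fun j => ?_⟩
  · obtain ⟨R, -, hPk⟩ := (hP (se k)).1
    simp only [hPk]
    exact realZeros_linProd hc0.ne' R
  · simp only [coeff_map, Complex.coe_algebraMap]
    rw [← heq j]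
    exact (Complex.continuous_ofReal.tendsto _).comp (hco j)

/-- **Real zeros give hyperbolic Jensen polynomials.** -/
theorem jensenSum_im_eq_zero (hf : Differentiable ℂ f)
    (hgr : ∀ η : ℝ, 0 < η → ∃ G : ℝ, ∀ z : ℂ, ‖f z‖ ≤ Real.exp (η * ‖z‖ + G))
    (ha : ∀ j, 0 < a j) (hsum : ∀ z : ℂ, HasSum (fun j => (a j : ℂ) * z ^ j) (f z))
    (hzero : ∀ z : ℂ, f z = 0 → z.im = 0) (d n : ℕ) {z : ℂ}
    (hz : jensenSum (fun j => j ! * a j) d n z = 0) : z.im = 0 := by
  obtain ⟨P, hP, hlim⟩ := exists_approx hf hgr ha hsum hzero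
  rcases eq_or_ne z 0 with rfl | hz0
  · simp
  obtain ⟨b, hb⟩ : ∃ b : ℕ → ℂ, b = fun j =>
      (d.choose j : ℂ) * (((n + j) ! * a (n + j) : ℝ) : ℂ) := ⟨_, rfl⟩
  have hrev : ∑ j ∈ Finset.range (d + 1), b j * z⁻¹ ^ (d - j) = 0 := by
    have : ∑ j ∈ Finset.range (d + 1), b j * z⁻¹ ^ (d - j) =
        z⁻¹ ^ d * jensenSum (fun j => j ! * a j) d n z := by
      rw [jensenSum, Finset.mul_sum]
      refine Finset.sum_congr rfl fun j hj => ?_
      have hjd : j ≤ d := Nat.lt_succ_iff.1 (Finset.mem_range.1 hj)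
      conv_rhs => rw [← Nat.sub_add_cancel hjd, pow_add]
      rw [Nat.sub_add_cancel hjd, hb, inv_pow z j]
      field_simp
    rw [this, hz, mul_zero]
  have h := im_eq_zero_of_limit (d := d) (b := b)
    (Q := fun k => polyAct (derivative^[n] (P k)) (X ^ d))
    (c := fun k j => (derivative^[n] (P k)).coeff j * (d.descFactorial j : ℂ))
    (fun k => (realZeros_iterate_derivative (hP k) n).elim
      (fun h => Or.inl (by simp [polyAct, h])) fun h => realZeros_polyAct h (realZeros_X_pow d))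
    (fun k w => eval_polyAct_X_pow _ d w) (fun j hj => ?_) ?_ hrev
  · by_contra him
    exact him (by simpa [Complex.inv_im, hz0] using h)
  · simp only [coeff_iterate_derivative, hb]
    have ht := ((hlim (j + n)).const_smul ((j + n).descFactorial n)).mul_const
      (d.descFactorial j : ℂ)
    have h2 : ((j + n).descFactorial n : ℝ) * j ! = (n + j) ! := by
      have := Nat.factorial_mul_descFactorial (show n ≤ j + n by omega)
      rw [Nat.add_sub_cancel, add_comm j n] at this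
      rw [add_comm j n, mul_comm]
      exact_mod_cast this
    convert ht using 2
    rw [Nat.descFactorial_eq_factorial_mul_choose d j, add_comm n j, nsmul_eq_mul]
    push_cast
    rw [show (((j + n)! : ℕ) : ℂ) = ((j + n).descFactorial n : ℂ) * (j ! : ℂ) by
      rw [add_comm j n] at h2 ⊢; exact_mod_cast h2.symm]
    ring
  · simp only [hb, Nat.choose_zero_right, Nat.cast_one, one_mul, add_zero, ne_eq,
      Complex.ofReal_eq_zero]
    exact (mul_pos (Nat.cast_pos.2 n.factorial_pos) (ha n)).ne'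

/-- **The converse**, from the shift `0` alone. -/
theorem im_eq_zero_of_jensenSum (hf : Differentiable ℂ f) (ha : ∀ j, 0 < a j)
    (hsum : ∀ z : ℂ, HasSum (fun j => (a j : ℂ) * z ^ j) (f z))
    (h : ∀ (d : ℕ) (z : ℂ), jensenSum (fun j => j ! * a j) d 0 z = 0 → z.im = 0) {z : ℂ}
    (hz : f z = 0) : z.im = 0 := by
  by_contra him
  have hterm : ∀ d j : ℕ, (d.choose j : ℝ) * j ! / (d : ℝ) ^ j ≤ 1 := fun d j => by
    rw [← Nat.cast_mul, mul_comm, ← Nat.descFactorial_eq_factorial_mul_choose]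
    rcases Nat.eq_zero_or_pos d with rfl | hd
    · rcases j with _ | i <;> simp
    · rw [div_le_one (by positivity)]
      exact_mod_cast Nat.descFactorial_le_pow d j
  have hlimj : ∀ j, Tendsto (fun d : ℕ => (d.choose j : ℝ) * j ! / (d : ℝ) ^ j) atTop (𝓝 1) := by
    intro j
    induction j with
    | zero => simp
    | succ i ih =>
      have h1 : Tendsto (fun d : ℕ => 1 - (i : ℝ) * (d : ℝ)⁻¹) atTop (𝓝 1) := by
        simpa using ((tendsto_natCast_atTop_atTop (R := ℝ)).inv_tendsto_atTop.const_mul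
          (i : ℝ)).const_sub 1
      have h2 := ih.mul h1
      rw [one_mul] at h2
      refine h2.congr' ?_
      filter_upwards [eventually_gt_atTop i] with d hd
      have hd0 : (d : ℝ) ≠ 0 := Nat.cast_ne_zero.2 (by omega)
      have e := congrArg (Nat.cast : ℕ → ℝ) (Nat.choose_succ_right_eq d i)
      push_cast [Nat.cast_sub hd.le] at e
      rw [Nat.factorial_succ]
      push_cast
      rw [show (d.choose (i + 1) : ℝ) * (((i : ℝ) + 1) * (i ! : ℝ)) =
          (d.choose i : ℝ) * ((d : ℝ) - i) * (i ! : ℝ) by rw [← e]; ring, pow_succ]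
      field_simp
  refine FA.DeBruijn.ne_zero_of_limit (U := {w : ℂ | w.im ≠ 0})
    (isOpen_ne.preimage Complex.continuous_im)
    (F := fun d : ℕ => fun w => jensenSum (fun j => j ! * a j) d 0 (w / d)) (fun d => ?_) hf
    (fun R ε hε => ?_) ?_ ⟨0, fun h0 => ?_⟩ him hz
  · unfold jensenSum
    fun_prop
  · obtain ⟨hs, -⟩ := eq_ofReal_tsum hsum (max R 0)
    have hdist : Tendsto (fun d : ℕ =>
        ∑' j, |(d.choose j : ℝ) * j ! / (d : ℝ) ^ j - 1| * (a j * max R 0 ^ j)) atTop (𝓝 0) := by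
      have := tendsto_tsum_of_dominated_convergence (g := fun _ : ℕ => (0 : ℝ))
        (f := fun (d : ℕ) (j : ℕ) =>
          |(d.choose j : ℝ) * j ! / (d : ℝ) ^ j - 1| * (a j * max R 0 ^ j))
        (bound := fun j => 1 * (a j * max R 0 ^ j)) (𝓕 := atTop) (hs.mul_left 1)
        (fun j => by simpa using (((hlimj j).sub_const 1).abs).mul_const (a j * max R 0 ^ j))
        (Eventually.of_forall fun d j => by
          have := ha j
          rw [Real.norm_of_nonneg (by positivity)]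
          refine mul_le_mul_of_nonneg_right (abs_le.2 ⟨?_, ?_⟩) (by positivity)
          · linarith [(by positivity : (0 : ℝ) ≤ (d.choose j : ℝ) * j ! / (d : ℝ) ^ j)]
          · linarith [hterm d j])
      simpa using this
    filter_upwards [hdist.eventually_lt_const hε] with d hd w hw
    refine lt_of_le_of_lt ?_ hd
    have hsF : HasSum
        (fun j => (((d.choose j : ℝ) * j ! / (d : ℝ) ^ j : ℝ) : ℂ) * ((a j : ℂ) * w ^ j))
        (jensenSum (fun j => j ! * a j) d 0 (w / d)) := by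
      have : jensenSum (fun j => j ! * a j) d 0 (w / d) = ∑ j ∈ Finset.range (d + 1),
          (((d.choose j : ℝ) * j ! / (d : ℝ) ^ j : ℝ) : ℂ) * ((a j : ℂ) * w ^ j) := by
        refine Finset.sum_congr rfl fun j _ => ?_
        rw [zero_add, div_pow]
        push_cast
        ring
      rw [this]
      refine hasSum_sum_of_ne_finset_zero fun j hj => ?_
      rw [Nat.choose_eq_zero_of_lt (by simpa using hj)]
      simp
    have hdiff := hsF.sub (hsum w)
    rw [← hdiff.tsum_eq]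
    have hsR : Summable fun j =>
        |(d.choose j : ℝ) * j ! / (d : ℝ) ^ j - 1| * (a j * max R 0 ^ j) := by
      refine Summable.of_nonneg_of_le (fun j => by have := ha j; positivity) (fun j => ?_)
        (hs.mul_left 1)
      have := ha j
      refine mul_le_mul_of_nonneg_right (abs_le.2 ⟨?_, ?_⟩) (by positivity)
      · linarith [(by positivity : (0 : ℝ) ≤ (d.choose j : ℝ) * j ! / (d : ℝ) ^ j)]
      · linarith [hterm d j]
    refine tsum_of_norm_bounded hsR.hasSum fun j => ?_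
    rw [show ∀ x : ℂ, x * ((a j : ℂ) * w ^ j) - (a j : ℂ) * w ^ j = (x - 1) * ((a j : ℂ) * w ^ j)
      from fun x => by ring, ← Complex.ofReal_one, ← Complex.ofReal_sub, norm_mul, norm_mul,
      norm_pow, Complex.norm_real, Complex.norm_real, Real.norm_eq_abs, Real.norm_eq_abs,
      abs_of_pos (ha j)]
    exact mul_le_mul_of_nonneg_left (mul_le_mul_of_nonneg_left
      (pow_le_pow_left₀ (norm_nonneg w) (hw.trans (le_max_left _ _)) j) (ha j).le) (abs_nonneg _)
  · filter_upwards [eventually_gt_atTop 0] with d hd w hw h0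
    have h1 := h d _ h0
    rw [Complex.div_natCast_im, div_eq_zero_iff, or_iff_left (Nat.cast_ne_zero.2 hd.ne')] at h1
    exact hw h1
  · have := (pos_on_nonneg ha hsum le_rfl).1
    rw [Complex.ofReal_zero, h0] at this
    simp at this

/-- Degree `2`: **the Turán inequality**. -/
theorem turan_of_jensenSum {g : ℕ → ℝ} {n : ℕ} (hg : 0 < g (n + 2))
    (h : ∀ z : ℂ, jensenSum g 2 n z = 0 → z.im = 0) : g n * g (n + 2) ≤ g (n + 1) ^ 2 := by
  by_contra hlt
  rw [not_le] at hlt
  obtain ⟨s, hs⟩ : ∃ s, s = √(g n * g (n + 2) - g (n + 1) ^ 2) := ⟨_, rfl⟩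
  have hs0 : 0 < s := hs ▸ Real.sqrt_pos.2 (by linarith)
  have hs2 : (s : ℂ) ^ 2 = ((g n * g (n + 2) - g (n + 1) ^ 2 : ℝ) : ℂ) := by
    rw [← Complex.ofReal_pow, hs, Real.sq_sqrt (by linarith)]
  have hz := h (((-g (n + 1) : ℝ) + (s : ℂ) * Complex.I) / (g (n + 2) : ℂ)) (by
    have hg' : (g (n + 2) : ℂ) ≠ 0 := Complex.ofReal_ne_zero.2 hg.ne'
    simp only [jensenSum, Finset.sum_range_succ, Finset.sum_range_zero, Nat.choose_zero_right,
      Nat.choose_one_right, Nat.choose_self, zero_add, add_zero, pow_zero, pow_one]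
    push_cast at hs2 ⊢
    field_simp
    linear_combination (s : ℂ) ^ 2 * Complex.I_sq - hs2)
  rw [Complex.div_ofReal_im] at hz
  simp [hg.ne', hs0.ne'] at hz

end FA.JensenPolynomials

end
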