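import Fermat.Agent.JensenPolynomials.Laguerre
import Fermat.Agent.JensenPolynomials.Poulain
import Mathlib.Analysis.Calculus.Deriv.Polynomial
import Mathlib.Analysis.Calculus.Deriv.Slope
import Mathlib.Topology.Order.IntermediateValue
import Mathlib.Analysis.InnerProductSpace.Basic

/-!
# The zeros of `He_d` are real and simple, and stay real under perturbation

Continuous functions tending pointwise to `± He_d` have, in the limit, `d` zeros; a polynomial of
degree `d` with `d` real zeros has no others.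
-/

set_option autoImplicit false

noncomputable section

namespace FA.JensenPolynomials

open Polynomial Filter Topology

/-- `He_d` over `ℂ`. -/
def hermC (d : ℕ) : ℂ[X] := (hermite d).map (Int.castRingHom ℂ)

theorem natDegree_hermC (d : ℕ) : (hermC d).natDegree = d := by
  rw [hermC, (hermite_monic d).natDegree_map, natDegree_hermite]

theorem hermC_ne_zero (d : ℕ) : hermC d ≠ 0 := ((hermite_monic d).map _).ne_zero

theorem eval_hermC_ofReal (d : ℕ) (x : ℝ) : (hermC d).eval (x : ℂ) = (hermVal d x : ℂ) := by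
  induction d using Nat.twoStepInduction with
  | zero => simp [hermC, hermVal]
  | one => simp [hermC, hermVal]
  | more d h0 h1 =>
    rw [hermVal_succ_succ, hermC, hermite_succ (d + 1), derivative_hermite_succ]
    simp only [Polynomial.map_sub, Polynomial.map_mul, Polynomial.map_add, Polynomial.map_one,
      Polynomial.map_natCast, Polynomial.map_X, eval_sub, eval_mul, eval_add, eval_one,
      eval_natCast, eval_X]
    rw [show ((hermite (d + 1)).map (Int.castRingHom ℂ)).eval (x : ℂ) = (hermVal (d + 1) x : ℂ)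
      from h1, show ((hermite d).map (Int.castRingHom ℂ)).eval (x : ℂ) = (hermVal d x : ℂ) from h0]
    push_cast
    ring

theorem realZeros_hermC (d : ℕ) : RealZeros (hermC d) := by
  induction d with
  | zero => intro z hz; simp [hermC] at hz
  | succ d ih =>
    intro z hz
    by_contra him
    have hqz : (hermC d).eval z ≠ 0 := fun h => him (ih z h)
    have hs := (IsAlgClosed.splits (hermC d)).eval_derivative_div_eval_of_ne_zero hqz
    rw [hermC, hermite_succ, Polynomial.map_sub, Polynomial.map_mul, map_X, ← derivative_map,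
      eval_sub, eval_mul, eval_X, sub_eq_zero] at hz
    rw [show (hermC d).derivative.eval z = z * (hermC d).eval z from hz.symm,
      mul_div_cancel_right₀ _ hqz] at hs
    have h := (im_sum_inv him (hermC d).roots fun r hr => ih r (isRoot_of_mem_roots hr)).1
    rw [← hs] at h
    exact absurd h (not_le.2 (mul_self_pos.2 him))

theorem hermVal_no_common (d : ℕ) (x : ℝ) : hermVal (d + 1) x = 0 → hermVal d x ≠ 0 := by
  induction d with
  | zero => intro _; simp [hermVal]
  | succ d ih =>
    intro h1 h0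
    rw [hermVal_succ_succ, h0, mul_zero, zero_sub, neg_eq_zero, mul_eq_zero] at h1
    exact ih h0 (h1.resolve_left (by positivity))

theorem hasDerivAt_hermVal (d : ℕ) (x : ℝ) :
    HasDerivAt (hermVal (d + 1)) (((d : ℝ) + 1) * hermVal d x) x := by
  refine (((hermite (d + 1)).map (Int.castRingHom ℝ)).hasDerivAt x).congr_deriv ?_
  rw [derivative_map, derivative_hermite_succ]
  simp [hermVal]

theorem exists_hermite_roots (d : ℕ) :
    ∃ R : Finset ℝ, R.card = d ∧ ∀ x ∈ R, hermVal d x = 0 := by
  classical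
  refine ⟨((hermC d).roots.map Complex.re).toFinset, ?_, fun x hx => ?_⟩
  · have hnd : (hermC d).roots.Nodup := by
      refine Multiset.nodup_iff_count_le_one.2 fun z => ?_
      by_contra hcnt
      rw [not_le, count_roots, one_lt_rootMultiplicity_iff_isRoot (hermC_ne_zero d)] at hcnt
      obtain ⟨hroot, hder⟩ := hcnt
      have hz : z ∈ (hermC d).roots := (mem_roots (hermC_ne_zero d)).2 hroot
      refine absurd hder.eq_zero ?_
      have him := realZeros_hermC d z (isRoot_of_mem_roots hz)
      rcases d with _ | d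
      · simp [hermC] at hz
      show (derivative (hermC (d + 1))).eval z ≠ 0
      have hze : z = (z.re : ℂ) := Complex.ext (by simp) (by simp [him])
      have h0 : (hermC (d + 1)).eval z = 0 := isRoot_of_mem_roots hz
      rw [hze, eval_hermC_ofReal, Complex.ofReal_eq_zero] at h0
      rw [hze, hermC, derivative_map, derivative_hermite_succ, Polynomial.map_mul, eval_mul,
        show ((hermite d).map (Int.castRingHom ℂ)).eval (z.re : ℂ) = (hermVal d z.re : ℂ) from
          eval_hermC_ofReal d z.re]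
      refine mul_ne_zero ?_ (Complex.ofReal_ne_zero.2 (hermVal_no_common d _ h0))
      simp [Nat.cast_add_one_ne_zero]
    rw [Multiset.toFinset_card_of_nodup, Multiset.card_map,
      ← (IsAlgClosed.splits (hermC d)).natDegree_eq_card_roots, natDegree_hermC]
    refine hnd.map_on fun a ha b hb h => Complex.ext h ?_
    rw [realZeros_hermC d a (isRoot_of_mem_roots ha), realZeros_hermC d b (isRoot_of_mem_roots hb)]
  · rw [Multiset.mem_toFinset, Multiset.mem_map] at hx
    obtain ⟨z, hz, rfl⟩ := hx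
    have h0 : (hermC d).eval z = 0 := isRoot_of_mem_roots hz
    rw [show z = (z.re : ℂ) from Complex.ext (by simp)
      (by simp [realZeros_hermC d z (isRoot_of_mem_roots hz)]), eval_hermC_ofReal,
      Complex.ofReal_eq_zero] at h0
    exact h0

theorem exists_sign_change {d : ℕ} {r η : ℝ} (hη : 0 < η) (h0 : hermVal (d + 1) r = 0) :
    ∃ a b, r - η < a ∧ a < r ∧ r < b ∧ b < r + η ∧
      hermVal (d + 1) a * hermVal (d + 1) b < 0 := by
  obtain ⟨D, hD⟩ : ∃ D, D = ((d : ℝ) + 1) * hermVal d r := ⟨_, rfl⟩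
  have hD0 : D ≠ 0 := hD ▸ mul_ne_zero (by positivity) (hermVal_no_common d r h0)
  have hs := hasDerivAt_iff_tendsto_slope.1 (hasDerivAt_hermVal d r)
  rw [← hD] at hs
  have hsign : ∀ᶠ x in 𝓝[≠] r, 0 < D * ((x - r) * hermVal (d + 1) x) := by
    filter_upwards [(hs.const_mul D).eventually_const_lt (mul_self_pos.2 hD0),
      self_mem_nhdsWithin] with x hx hne
    have hne' : x - r ≠ 0 := sub_ne_zero.2 hne
    rw [slope_def_field, h0, sub_zero] at hx
    have := mul_pos hx (mul_self_pos.2 hne')
    refine this.trans_eq ?_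
    field_simp
  have hl : ∀ᶠ x in 𝓝[<] r, 0 < D * ((x - r) * hermVal (d + 1) x) :=
    hsign.filter_mono (nhdsWithin_mono _ fun x hx => ne_of_lt hx)
  have hr : ∀ᶠ x in 𝓝[>] r, 0 < D * ((x - r) * hermVal (d + 1) x) :=
    hsign.filter_mono (nhdsWithin_mono _ fun x hx => ne_of_gt hx)
  obtain ⟨a, ⟨ha1, ha2⟩, ha3⟩ :=
    ((hl.and (Ioo_mem_nhdsLT (show r - η < r by linarith))).mono fun x hx => (⟨hx.2, hx.1⟩ :
      x ∈ Set.Ioo (r - η) r ∧ 0 < D * ((x - r) * hermVal (d + 1) x))).exists
  obtain ⟨b, ⟨hb1, hb2⟩, hb3⟩ :=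
    ((hr.and (Ioo_mem_nhdsGT (show r < r + η by linarith))).mono fun x hx => (⟨hx.2, hx.1⟩ :
      x ∈ Set.Ioo r (r + η) ∧ 0 < D * ((x - r) * hermVal (d + 1) x))).exists
  refine ⟨a, b, ha1, ha2, hb1, hb2, ?_⟩
  by_contra hge
  rw [not_lt] at hge
  have := mul_pos ha3 hb3
  nlinarith [mul_nonneg (mul_nonneg (mul_self_nonneg D) hge)
    (mul_pos (sub_pos.2 ha2) (sub_pos.2 hb1)).le]

/-- **The zeros persist.** -/
theorem eventually_roots {d : ℕ} {f : ℕ → ℝ → ℝ} (hf : ∀ n, Continuous (f n))
    (hlim : ∀ x, Tendsto (fun n => f n x) atTop (𝓝 ((-1) ^ d * hermVal d x))) :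
    ∀ᶠ n in atTop, ∃ S : Finset ℝ, S.card = d ∧ ∀ x ∈ S, f n x = 0 := by
  classical
  rcases d with _ | d
  · exact Eventually.of_forall fun n => ⟨∅, rfl, by simp⟩
  obtain ⟨R, hRc, hR⟩ := exists_hermite_roots (d + 1)
  obtain ⟨η, hη, hsep⟩ : ∃ η : ℝ, 0 < η ∧ ∀ r ∈ R, ∀ s ∈ R, r ≠ s → 2 * η ≤ |r - s| := by
    rcases Finset.eq_empty_or_nonempty R.offDiag with h | h
    · refine ⟨1, one_pos, fun r hr s hs hne => ?_⟩
      have : (r, s) ∈ R.offDiag := Finset.mem_offDiag.2 ⟨hr, hs, hne⟩
      simp [h] at this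
    · obtain ⟨p, hp, hmin⟩ := R.offDiag.exists_min_image (fun p : ℝ × ℝ => |p.1 - p.2|) h
      refine ⟨|p.1 - p.2| / 2, half_pos (abs_pos.2 (sub_ne_zero.2 (Finset.mem_offDiag.1 hp).2.2)),
        fun r hr s hs hne => ?_⟩
      have := hmin (r, s) (Finset.mem_offDiag.2 ⟨hr, hs, hne⟩)
      linarith
  have hex : ∀ r ∈ R, ∀ᶠ n in atTop, ∃ x, |x - r| < η ∧ f n x = 0 := by
    intro r hr
    obtain ⟨a, b, h1, h2, h3, h4, h5⟩ := exists_sign_change hη (hR r hr)
    have hl := (hlim a).mul (hlim b)
    have hneg : (-1 : ℝ) ^ (d + 1) * hermVal (d + 1) a *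
        ((-1) ^ (d + 1) * hermVal (d + 1) b) < 0 := by
      rw [mul_mul_mul_comm, ← mul_pow]
      simpa using h5
    filter_upwards [hl.eventually_lt_const hneg] with n hn
    have hab : a ≤ b := by linarith
    have hc := (hf n).continuousOn (s := Set.Icc a b)
    obtain ⟨x, hx, hx0⟩ : ∃ x ∈ Set.Icc a b, f n x = 0 := by
      rcases le_or_gt (f n a) 0 with hfa | hfa
      · exact intermediate_value_Icc hab hc ⟨hfa, by nlinarith⟩
      · exact intermediate_value_Icc' hab hc ⟨by nlinarith, hfa.le⟩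
    exact ⟨x, abs_lt.2 ⟨by linarith [hx.1], by linarith [hx.2]⟩, hx0⟩
  filter_upwards [(eventually_all_finset R).2 hex] with n hn
  choose g hg hg0 using hn
  refine ⟨R.attach.image fun r => g r.1 r.2, ?_, fun x hx => ?_⟩
  · rw [Finset.card_image_of_injective, Finset.card_attach, hRc]
    rintro ⟨r, hr⟩ ⟨s, hs⟩ h
    by_contra hne
    have h1 := hsep r hr s hs fun e => hne (Subtype.ext e)
    have h2 := hg r hr
    have h3 := hg s hs
    simp only at h
    rw [h] at h2
    rw [abs_lt] at h2 h3
    have : |r - s| < 2 * η := abs_lt.2 ⟨by linarith, by linarith⟩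
    linarith
  · obtain ⟨r, -, rfl⟩ := Finset.mem_image.1 hx
    exact hg0 r.1 r.2

/-- A polynomial of degree `d` with `d` real zeros. -/
theorem im_eq_zero_of_card {d : ℕ} {q : ℝ[X]} (hd : q.natDegree ≤ d) (hq : q ≠ 0) {S : Finset ℝ}
    (hS : S.card = d) (h : ∀ x ∈ S, q.eval x = 0) {z : ℂ} (hz : aeval z q = 0) : z.im = 0 := by
  classical
  by_contra him
  obtain ⟨T, hT⟩ : ∃ T, T = insert z (S.image fun x : ℝ => (x : ℂ)) := ⟨_, rfl⟩
  have hz' : z ∉ S.image fun x : ℝ => (x : ℂ) := fun h => by
    obtain ⟨x, -, rfl⟩ := Finset.mem_image.1 h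
    simp at him
  have hcard : T.card = d + 1 := by
    rw [hT, Finset.card_insert_of_notMem hz', Finset.card_image_of_injective _
      Complex.ofReal_injective, hS]
  have h0 : q.map (algebraMap ℝ ℂ) = 0 := by
    refine eq_zero_of_natDegree_lt_card_of_eval_eq_zero' _ T (fun w hw => ?_) (by
      rw [natDegree_map, hcard]; omega)
    rw [hT, Finset.mem_insert, Finset.mem_image] at hw
    rw [eval_map_algebraMap]
    rcases hw with rfl | ⟨x, hx, rfl⟩
    · exact hz
    · rw [← Complex.coe_algebraMap, aeval_algebraMap_apply_eq_algebraMap_eval, h x hx, map_zero]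
  exact hq ((Polynomial.map_eq_zero_iff Complex.ofReal_injective).1 h0)

end FA.JensenPolynomials

end
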