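import Fermat.Agent.JensenPolynomials.Concentration
import Fermat.Agent.JensenPolynomials.Hermite

/-!
# The theorem of Griffin, Ono, Rolen and Zagier

Exactly, with `b = n + 1/2` and `m k` the mean of `(u² / a² - 1)^k`,
`J_{d,n} (-4 z / a²) / g n = ∑ C (d, k) m k (-z)^k / riseFac b k * lagSum (d - k) (b + k) z`;
only `k = 0` survives `√b^d` at `z = b + y √b`.
-/

set_option autoImplicit false

noncomputable section

namespace FA.JensenPolynomials

open MeasureTheory Filter Topology Polynomial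
open scoped Real Nat

/-- `k! / (2k)! ∫_0^∞ exp (t u²) Φ u u^(2k)`. -/
def xiTaylor (t : ℝ) (k : ℕ) : ℝ := (k ! : ℝ) * momCoef t k

theorem xiTaylor_pos (t : ℝ) (k : ℕ) : 0 < xiTaylor t k :=
  mul_pos (Nat.cast_pos.2 k.factorial_pos) (momCoef_pos t k)

/-- The total mass. -/
def momTotal (t : ℝ) (n : ℕ) : ℝ := ∫ u in Set.Ioi (0 : ℝ), momWeight t n u

theorem momTotal_eq (t : ℝ) (n : ℕ) : momTotal t n = ((2 * n)! : ℝ) * momCoef t n := by
  rw [momTotal, momCoef, mul_div_cancel₀ _ (Nat.cast_ne_zero.2 (Nat.factorial_ne_zero _))]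
  rfl

theorem momTotal_pos (t : ℝ) (n : ℕ) : 0 < momTotal t n := by
  rw [momTotal_eq]
  exact mul_pos (Nat.cast_pos.2 (Nat.factorial_pos _)) (momCoef_pos t n)

theorem factorial_ratio (n j : ℕ) :
    ((n + j)! : ℝ) * (2 * n)! * (4 ^ j * riseFac ((n : ℝ) + 1 / 2) j) =
      (n ! : ℝ) * (2 * (n + j))! := by
  induction j with
  | zero => simp [riseFac]
  | succ j ih =>
    rw [show riseFac ((n : ℝ) + 1 / 2) (j + 1) =
        riseFac ((n : ℝ) + 1 / 2) j * ((n : ℝ) + 1 / 2 + j) from Finset.prod_range_succ _ _,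
      ← add_assoc, Nat.factorial_succ, show 2 * (n + j + 1) = 2 * (n + j) + 1 + 1 by ring,
      Nat.factorial_succ (2 * (n + j) + 1), Nat.factorial_succ (2 * (n + j)), pow_succ]
    push_cast
    linear_combination ((n + j + 1 : ℝ) * (4 * ((n : ℝ) + 1 / 2 + j))) * ih

theorem xiTaylor_ratio (t : ℝ) (n j : ℕ) :
    xiTaylor t (n + j) / xiTaylor t n =
      momTotal t (n + j) / momTotal t n / (4 ^ j * riseFac ((n : ℝ) + 1 / 2) j) := by
  have h := factorial_ratio n j
  have := momCoef_pos t n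
  have hr := riseFac_pos (show (0 : ℝ) < (n : ℝ) + 1 / 2 by positivity) j
  rw [xiTaylor, xiTaylor, momTotal_eq, momTotal_eq, div_div,
    div_eq_div_iff (by positivity) (by positivity)]
  linear_combination momCoef t (n + j) * momCoef t n * h

/-- The mean of `(u² / a² - 1)^k`. -/
def devMean (t : ℝ) (n : ℕ) (a : ℝ) (k : ℕ) : ℝ :=
  (∫ u in Set.Ioi (0 : ℝ), momWeight t n u * (u ^ 2 / a ^ 2 - 1) ^ k) / momTotal t n

theorem momWeight_nonneg (t : ℝ) (n : ℕ) {u : ℝ} (hu : 0 ≤ u) : 0 ≤ momWeight t n u :=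
  mul_nonneg (mul_nonneg (Real.exp_pos _).le (FA.DeBruijnNewman.polyaPhi_pos u).le)
    (pow_nonneg hu _)

theorem integrableOn_momWeight_pow (t : ℝ) (n : ℕ) (a : ℝ) (k : ℕ) :
    IntegrableOn (fun u => momWeight t n u * (u ^ 2 / a ^ 2 - 1) ^ k) (Set.Ioi 0) := by
  refine (integrableOn_momWeight_dev t n a k).mono'
    (((((by fun_prop : Continuous fun u : ℝ => Real.exp (t * u ^ 2))).mul
      FA.DeBruijnNewman.continuous_polyaPhi).mul
        (by fun_prop : Continuous fun u : ℝ => u ^ (2 * n))).mul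
          (by fun_prop : Continuous fun u : ℝ => (u ^ 2 / a ^ 2 - 1) ^ k)
      ).aestronglyMeasurable.restrict
    (ae_restrict_of_forall_mem measurableSet_Ioi fun u (hu : 0 < u) => le_of_eq ?_)
  rw [norm_mul, norm_pow, Real.norm_of_nonneg (momWeight_nonneg t n hu.le), Real.norm_eq_abs]

theorem abs_devMean_le (t : ℝ) (n : ℕ) (a : ℝ) (k : ℕ) :
    |devMean t n a k| ≤
      (∫ u in Set.Ioi (0 : ℝ), momWeight t n u * |u ^ 2 / a ^ 2 - 1| ^ k) / momTotal t n := by
  rw [devMean, abs_div, abs_of_pos (momTotal_pos t n)]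
  refine div_le_div_of_nonneg_right ?_ (momTotal_pos t n).le
  refine abs_integral_le_integral_abs.trans (le_of_eq ?_)
  refine setIntegral_congr_fun measurableSet_Ioi fun u (hu : 0 < u) => ?_
  simp only [abs_mul, abs_pow, abs_of_nonneg (momWeight_nonneg t n hu.le)]

theorem devMean_zero (t : ℝ) (n : ℕ) (a : ℝ) : devMean t n a 0 = 1 := by
  simp only [devMean, pow_zero, mul_one]
  exact div_self (momTotal_pos t n).ne'

theorem momTotal_ratio (t : ℝ) (n j : ℕ) (a : ℝ) :
    momTotal t (n + j) / momTotal t n / (a ^ 2) ^ j =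
      ∑ k ∈ Finset.range (j + 1), (j.choose k : ℝ) * devMean t n a k := by
  have e : ∀ u : ℝ, momWeight t (n + j) u / (a ^ 2) ^ j =
      ∑ k ∈ Finset.range (j + 1),
        (j.choose k : ℝ) * (momWeight t n u * (u ^ 2 / a ^ 2 - 1) ^ k) := by
    intro u
    have h := add_pow (u ^ 2 / a ^ 2 - 1) 1 j
    rw [sub_add_cancel, div_pow] at h
    simp only [one_pow, mul_one] at h
    rw [momWeight, momWeight, mul_add, pow_add, ← mul_assoc, mul_div_assoc, pow_mul u 2 j, h,
      Finset.mul_sum]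
    refine Finset.sum_congr rfl fun k _ => ?_
    ring
  rw [div_right_comm, momTotal, ← integral_div]
  simp only [e]
  rw [integral_finsetSum _ fun k _ => (integrableOn_momWeight_pow t n a k).const_mul _,
    Finset.sum_div]
  simp only [integral_const_mul, devMean, mul_div_assoc]

/-- The binomial exchange. -/
theorem sum_lagSum (d : ℕ) {b : ℝ} (hb : 0 < b) (z : ℝ) (m : ℕ → ℝ) :
    ∑ j ∈ Finset.range (d + 1), (d.choose j : ℝ) * (-z) ^ j / riseFac b j *
        (∑ k ∈ Finset.range (j + 1), (j.choose k : ℝ) * m k) =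
      ∑ k ∈ Finset.range (d + 1), (d.choose k : ℝ) * m k * (-z) ^ k / riseFac b k *
        lagSum (d - k) (b + k) z := by
  have h1 : ∀ j ∈ Finset.range (d + 1), (∑ k ∈ Finset.range (j + 1), (j.choose k : ℝ) * m k) =
      ∑ k ∈ Finset.range (d + 1), (j.choose k : ℝ) * m k := fun j hj => by
    refine Finset.sum_subset (Finset.range_mono (by simp at hj; omega)) fun k _ hk => ?_
    rw [Finset.mem_range, not_lt] at hk
    rw [Nat.choose_eq_zero_of_lt hk, Nat.cast_zero, zero_mul]
  rw [Finset.sum_congr rfl fun j hj => by rw [h1 j hj, Finset.mul_sum], Finset.sum_comm]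
  refine Finset.sum_congr rfl fun k hk => ?_
  rw [Finset.mem_range] at hk
  rw [show d + 1 = k + (d - k + 1) by omega, Finset.sum_range_add,
    Finset.sum_eq_zero fun j hj => by
      rw [Nat.choose_eq_zero_of_lt (Finset.mem_range.1 hj), Nat.cast_zero, zero_mul, mul_zero],
    zero_add, lagSum, Finset.mul_sum]
  refine Finset.sum_congr rfl fun i hi => ?_
  rw [Finset.mem_range] at hi
  have e : (d.choose (k + i) : ℝ) * ((k + i).choose k : ℝ) =
      (d.choose k : ℝ) * ((d - k).choose i : ℝ) := by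
    rw [← Nat.cast_mul, ← Nat.cast_mul, Nat.choose_mul (by omega : k ≤ k + i),
      Nat.add_sub_cancel_left]
  have := (riseFac_pos hb k).ne'
  have := (riseFac_pos (show 0 < b + k by positivity) i).ne'
  rw [riseFac_add, pow_add]
  field_simp
  linear_combination (-z) ^ k * (-z) ^ i * m k * e

/-- **The exact expansion.** -/
theorem jensen_expansion (t : ℝ) (d n : ℕ) (a z : ℝ) :
    ∑ j ∈ Finset.range (d + 1),
        (d.choose j : ℝ) * xiTaylor t (n + j) * (-4 * z / a ^ 2) ^ j / xiTaylor t n =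
      ∑ k ∈ Finset.range (d + 1),
        (d.choose k : ℝ) * devMean t n a k * (-z) ^ k / riseFac ((n : ℝ) + 1 / 2) k *
          lagSum (d - k) ((n : ℝ) + 1 / 2 + k) z := by
  have hb : (0 : ℝ) < (n : ℝ) + 1 / 2 := by positivity
  rw [← sum_lagSum d hb z]
  refine Finset.sum_congr rfl fun j _ => ?_
  rw [← momTotal_ratio t n j a, mul_right_comm, mul_div_assoc, xiTaylor_ratio, div_pow,
    neg_mul, ← mul_neg, mul_pow]
  have := (riseFac_pos hb j).ne'
  have := (momTotal_pos t n).ne'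
  field_simp

/-- **The Hermite limit.** -/
theorem tendsto_jensen_hermite (t : ℝ) {a : ℕ → ℝ}
    (hat : Tendsto a atTop atTop) (hc : ∀ᶠ n : ℕ in atTop, IsCentre t n (a n)) (d : ℕ) (y : ℝ) :
    Tendsto (fun n : ℕ => √((n : ℝ) + 1 / 2) ^ d *
      ((∑ j ∈ Finset.range (d + 1), (d.choose j : ℝ) * xiTaylor t (n + j) *
        (-4 * ((n : ℝ) + 1 / 2 + y * √((n : ℝ) + 1 / 2)) / a n ^ 2) ^ j) / xiTaylor t n))
      atTop (𝓝 ((-1) ^ d * hermVal d y)) := by
  obtain ⟨b, hb⟩ : ∃ b : ℕ → ℝ, b = fun n : ℕ => (n : ℝ) + 1 / 2 := ⟨_, rfl⟩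
  obtain ⟨z, hz⟩ : ∃ z : ℕ → ℝ, z = fun n : ℕ => b n + y * √(b n) := ⟨_, rfl⟩
  have hb0 : ∀ n, 0 < b n := fun n => by rw [hb]; positivity
  have hbt : Tendsto b atTop atTop := hb ▸ tendsto_atTop_add_const_right _ _
    tendsto_natCast_atTop_atTop
  have hzy : Tendsto (fun n => (z n - b n) / √(b n)) atTop (𝓝 y) := by
    refine tendsto_const_nhds.congr fun n => ?_
    have := (Real.sqrt_pos.2 (hb0 n)).ne'
    simp only [hz]
    field_simp
    ring
  have hterm : ∀ k ∈ Finset.range (d + 1), Tendsto (fun n : ℕ => (d.choose k : ℝ) *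
      (devMean t n (a n) k * √(b n) ^ k) * ((-z n) ^ k / riseFac (b n) k) *
      ((√(b n) / √(b n + k)) ^ (d - k) * (√(b n + k) ^ (d - k) *
        lagSum (d - k) (b n + k) (z n)))) atTop
      (𝓝 (if k = 0 then (-1) ^ d * hermVal d y else 0)) := by
    intro k _
    obtain ⟨hb', hz', hr⟩ := tendsto_center_add hbt hzy (k : ℝ)
    have h3 := (hr.pow (d - k)).mul (tendsto_lagSum (d - k) _ z y hb' hz')
    have h2 : Tendsto (fun n => (-z n) ^ k / riseFac (b n) k) atTop (𝓝 ((-1) ^ k)) := by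
      have := tendsto_finsetProd (Finset.range k) fun i _ =>
        (tendsto_ratio (tendsto_center_add hbt hzy (i : ℝ)).1
          (tendsto_center_add hbt hzy (i : ℝ)).2.1).const_mul (-1)
      simp only [mul_one, Finset.prod_const, Finset.card_range] at this
      refine this.congr fun n => ?_
      rw [riseFac, ← Finset.card_range k, ← Finset.prod_const, Finset.card_range,
        ← Finset.prod_div_distrib]
      exact Finset.prod_congr rfl fun i _ => by ring
    rcases eq_or_ne k 0 with rfl | hk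
    · simp only [devMean_zero, Nat.cast_zero, pow_zero, Nat.choose_zero_right, Nat.cast_one,
        if_pos, Nat.sub_zero, mul_one, one_mul, riseFac, Finset.range_zero, Finset.prod_empty,
        div_one] at h3 ⊢
      simpa using h3
    have h1 : Tendsto (fun n : ℕ => devMean t n (a n) k * √(b n) ^ k) atTop (𝓝 0) := by
      obtain ⟨K, hK0, hK⟩ := exists_dev_bound k
      have hlim := ((tendsto_centre_ratio hat hc).pow k).const_mul K
      rw [zero_pow hk, mul_zero] at hlim
      refine squeeze_zero_norm' ?_ hlim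
      filter_upwards [hc] with n hn
      have hs : (0 : ℝ) ≤ √(b n) := Real.sqrt_nonneg _
      rw [norm_mul, norm_pow, Real.norm_eq_abs, Real.norm_of_nonneg hs, mul_pow,
        mul_left_comm K, mul_comm _ (√(b n) ^ k)]
      subst hb
      refine mul_le_mul_of_nonneg_left ((abs_devMean_le t n (a n) k).trans ?_) (pow_nonneg hs k)
      rw [div_le_iff₀ (momTotal_pos t n)]
      exact hK t n (a n) hn
    have := ((h1.const_mul (d.choose k : ℝ)).mul h2).mul h3
    rw [mul_zero, zero_mul, zero_mul] at this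
    rw [if_neg hk]
    exact this
  have hsum := tendsto_finsetSum (Finset.range (d + 1)) hterm
  rw [Finset.sum_ite_eq', if_pos (Finset.mem_range.2 d.succ_pos)] at hsum
  refine hsum.congr fun n => ?_
  subst hz hb
  rw [Finset.sum_div, jensen_expansion t d n (a n), Finset.mul_sum]
  refine Finset.sum_congr rfl fun k hk => ?_
  have : √((n : ℝ) + 1 / 2 + k) ≠ 0 := (Real.sqrt_pos.2 (by positivity)).ne'
  rw [div_pow, show √((n : ℝ) + 1 / 2) ^ d = √((n : ℝ) + 1 / 2) ^ k * √((n : ℝ) + 1 / 2) ^ (d - k)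
    by rw [← pow_add, Nat.add_sub_cancel' (by simp at hk; omega)]]
  field_simp

/-- **Griffin, Ono, Rolen, Zagier.** -/
theorem eventually_hyperbolic (t : ℝ) (d : ℕ) : ∀ᶠ n : ℕ in atTop,
    (∃ S : Finset ℝ, S.card = d ∧
      ∀ x ∈ S, ∑ j ∈ Finset.range (d + 1), (d.choose j : ℝ) * xiTaylor t (n + j) * x ^ j = 0) ∧
      ∀ z : ℂ, jensenSum (xiTaylor t) d n z = 0 → z.im = 0 := by
  classical
  obtain ⟨a, ha0, hat, hc⟩ := exists_centres t
  have h := eventually_roots (d := d) (f := fun (n : ℕ) (y : ℝ) => √((n : ℝ) + 1 / 2) ^ d *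
      ((∑ j ∈ Finset.range (d + 1), (d.choose j : ℝ) * xiTaylor t (n + j) *
        (-4 * ((n : ℝ) + 1 / 2 + y * √((n : ℝ) + 1 / 2)) / a n ^ 2) ^ j) / xiTaylor t n))
    (fun n => by fun_prop) (tendsto_jensen_hermite t hat hc d)
  refine h.mono fun n ⟨S, hS, hS0⟩ => ?_
  have hs : √((n : ℝ) + 1 / 2) ≠ 0 := (Real.sqrt_pos.2 (by positivity)).ne'
  obtain ⟨φX, hX⟩ : ∃ φX : ℝ → ℝ, φX = fun y : ℝ =>
      -4 * ((n : ℝ) + 1 / 2 + y * √((n : ℝ) + 1 / 2)) / a n ^ 2 := ⟨_, rfl⟩
  have hinj : Function.Injective φX := fun x y h => by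
    simp only [hX] at h
    rw [div_left_inj' (pow_ne_zero 2 (ha0 n).ne'), mul_right_inj' (by norm_num), add_right_inj,
      mul_left_inj' hs] at h
    exact h
  have hroot : ∀ x ∈ S.image φX,
      ∑ j ∈ Finset.range (d + 1), (d.choose j : ℝ) * xiTaylor t (n + j) * x ^ j = 0 := by
    intro x hx
    obtain ⟨y, hy, rfl⟩ := Finset.mem_image.1 hx
    have := hS0 y hy
    rw [mul_eq_zero, div_eq_zero_iff] at this
    simp only [hX]
    exact (this.resolve_left (pow_ne_zero d hs)).resolve_right (xiTaylor_pos t n).ne'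
  have hcard : (S.image φX).card = d := by rw [Finset.card_image_of_injective _ hinj, hS]
  refine ⟨⟨_, hcard, hroot⟩, fun z hz => ?_⟩
  obtain ⟨q, hq⟩ : ∃ q : ℝ[X], q = ∑ j ∈ Finset.range (d + 1),
      Polynomial.C ((d.choose j : ℝ) * xiTaylor t (n + j)) * X ^ j := ⟨_, rfl⟩
  refine im_eq_zero_of_card (d := d) (q := q) ?_ (fun h0 => ?_) hcard (fun x hx => ?_) ?_
  · rw [hq]
    exact natDegree_sum_le_of_forall_le _ _ fun j hj => (natDegree_C_mul_X_pow_le _ _).trans
      (by simp at hj; omega)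
  · have h1 := congrArg (fun p : ℝ[X] => p.coeff 0) (hq ▸ h0)
    simp [coeff_X_pow, Finset.sum_ite_eq, (xiTaylor_pos t n).ne'] at h1
  · rw [hq, eval_finsetSum]
    simpa using hroot x hx
  · rw [hq, map_sum]
    simpa [jensenSum] using hz

/-- **The Turán inequalities for all large `n`.** -/
theorem eventually_turan (t : ℝ) :
    ∀ᶠ n : ℕ in atTop, xiTaylor t n * xiTaylor t (n + 2) < xiTaylor t (n + 1) ^ 2 := by
  filter_upwards [eventually_hyperbolic t 2] with n ⟨⟨S, hS, hS0⟩, _⟩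
  obtain ⟨x, y, hne, rfl⟩ := Finset.card_eq_two.1 hS
  have hx := hS0 x (by simp)
  have hy := hS0 y (by simp)
  simp [Finset.sum_range_succ] at hx hy
  by_contra hle
  rw [not_lt] at hle
  have hp := xiTaylor_pos t (n + 2)
  have e : ∀ w : ℝ, xiTaylor t n + 2 * xiTaylor t (n + 1) * w + xiTaylor t (n + 2) * w ^ 2 = 0 →
      w = -xiTaylor t (n + 1) / xiTaylor t (n + 2) := fun w hw => by
    rw [eq_div_iff hp.ne']
    nlinarith [sq_nonneg (w * xiTaylor t (n + 2) + xiTaylor t (n + 1))]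
  exact hne ((e x hx).trans (e y hy).symm)

end FA.JensenPolynomials

end
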