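import Mathlib.RingTheory.Polynomial.Hermite.Basic
import Mathlib.Algebra.Polynomial.Eval.SMul
import Mathlib.Analysis.Real.Sqrt
import Mathlib.Data.Nat.Choose.Sum
import Mathlib.Tactic.LinearCombination
import Mathlib.Tactic.Positivity

/-!
# Laguerre polynomials of large parameter tend to Hermite polynomials

`lagSum d b z = ∑ C (d, j) (-z)^j / (b (b + 1) ... (b + j - 1))`; if `(z - b) / √b → y` as `b → ∞`
then `√b^d lagSum d b z → (-1)^d He_d y`.
-/

set_option autoImplicit false

noncomputable section

namespace FA.JensenPolynomials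

open Polynomial Filter Topology

/-- `b (b + 1) ... (b + j - 1)`. -/
def riseFac (b : ℝ) (j : ℕ) : ℝ := ∏ i ∈ Finset.range j, (b + i)

theorem riseFac_pos {b : ℝ} (hb : 0 < b) (j : ℕ) : 0 < riseFac b j :=
  Finset.prod_pos fun i _ => by positivity

theorem riseFac_add (b : ℝ) (k j : ℕ) : riseFac b (k + j) = riseFac b k * riseFac (b + k) j := by
  rw [riseFac, riseFac, riseFac, Finset.prod_range_add]
  simp only [Nat.cast_add, add_assoc]

theorem riseFac_succ' (b : ℝ) (j : ℕ) : riseFac b (j + 1) = b * riseFac (b + 1) j := by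
  rw [add_comm, riseFac_add]
  simp [riseFac]

/-- The Laguerre polynomial. -/
def lagSum (d : ℕ) (b z : ℝ) : ℝ :=
  ∑ j ∈ Finset.range (d + 1), (d.choose j : ℝ) * (-z) ^ j / riseFac b j

theorem lagSum_zero (b z : ℝ) : lagSum 0 b z = 1 := by simp [lagSum, riseFac]

theorem lagSum_succ (d : ℕ) {b : ℝ} (hb : 0 < b) (z : ℝ) :
    lagSum (d + 1) b z = lagSum d b z - z / b * lagSum d (b + 1) z := by
  have h0 : lagSum d b z =
      ∑ j ∈ Finset.range (d + 2), (d.choose j : ℝ) * (-z) ^ j / riseFac b j := by
    rw [lagSum, Finset.sum_range_succ _ (d + 1), Nat.choose_succ_self]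
    simp
  rw [h0, lagSum, Finset.sum_range_succ' _ (d + 1), Finset.sum_range_succ' _ (d + 1), lagSum,
    Finset.mul_sum]
  simp only [Nat.choose_zero_right, pow_zero]
  rw [add_sub_right_comm, ← Finset.sum_sub_distrib]
  congr 1
  refine Finset.sum_congr rfl fun j _ => ?_
  rw [Nat.choose_succ_succ, riseFac_succ', pow_succ]
  have := (riseFac_pos (show 0 < b + 1 by linarith) j).ne'
  have := hb.ne'
  push_cast
  field_simp
  ring

theorem lagSum_shift (d : ℕ) {b : ℝ} (hb : 0 < b) (z : ℝ) :
    lagSum (d + 1) (b + 1) z =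
      lagSum (d + 1) b z + z * (d + 1) / (b * (b + 1)) * lagSum d (b + 2) z := by
  rw [lagSum, lagSum, lagSum, Finset.sum_range_succ' _ (d + 1), Finset.sum_range_succ' _ (d + 1),
    Finset.mul_sum]
  simp only [Nat.choose_zero_right, pow_zero, riseFac, Finset.range_zero, Finset.prod_empty]
  rw [add_right_comm, ← Finset.sum_add_distrib]
  congr 1
  refine Finset.sum_congr rfl fun j _ => ?_
  have h1 : riseFac b (j + 1) = b * riseFac (b + 1) j := riseFac_succ' b j
  have h2 : riseFac (b + 1) (j + 1) = (b + 1) * riseFac (b + 2) j := by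
    rw [riseFac_succ', show b + 1 + 1 = b + 2 by ring]
  have h4 : riseFac (b + 1) (j + 1) = riseFac (b + 1) j * (b + 1 + j) := by
    rw [riseFac, riseFac, Finset.prod_range_succ]
  simp only [riseFac] at h1 h2 h4
  rw [h1, h2]
  have e : ((d + 1).choose (j + 1) : ℝ) * (j + 1) = (d + 1) * (d.choose j : ℝ) := by
    exact_mod_cast (Nat.add_one_mul_choose_eq d j).symm
  have := (riseFac_pos (show 0 < b + 1 by linarith) j).ne'
  have h5 := (riseFac_pos (show 0 < b + 2 by linarith) j).ne'
  have h6 := (riseFac_pos (show 0 < b + 1 by linarith) j).ne'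
  simp only [riseFac] at h5 h6
  have hR : (∏ i ∈ Finset.range j, (b + 1 + (i : ℝ))) * (b + 1 + j) =
      (b + 1) * ∏ i ∈ Finset.range j, (b + 2 + (i : ℝ)) := h4.symm.trans h2
  have := hb.ne'
  have : b + 1 ≠ 0 := by linarith
  field_simp
  rw [pow_succ]
  linear_combination (((d + 1).choose (j + 1) : ℝ) * (-z) ^ j * (-z)) * hR +
    (z * (-z) ^ j * ∏ i ∈ Finset.range j, (b + 1 + (i : ℝ))) * e

/-- `He_d y`. -/
def hermVal (d : ℕ) (y : ℝ) : ℝ := ((hermite d).map (Int.castRingHom ℝ)).eval y

theorem derivative_hermite_succ (d : ℕ) :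
    derivative (hermite (d + 1)) = ((d : ℤ[X]) + 1) * hermite d := by
  induction d with
  | zero => simp
  | succ d ih =>
    rw [hermite_succ (d + 1), derivative_sub, derivative_mul, derivative_X, one_mul, ih,
      derivative_mul, show derivative ((d : ℤ[X]) + 1) = 0 by simp, zero_mul, zero_add]
    rw [hermite_succ d]
    push_cast
    ring

theorem hermVal_succ_succ (d : ℕ) (y : ℝ) :
    hermVal (d + 2) y = y * hermVal (d + 1) y - (d + 1) * hermVal d y := by
  rw [hermVal, hermite_succ (d + 1), derivative_hermite_succ]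
  simp [hermVal, hermite_succ]

/-- The shift of the parameter keeps the hypothesis. -/
theorem tendsto_center_add {b z : ℕ → ℝ} {y : ℝ} (hb : Tendsto b atTop atTop)
    (hz : Tendsto (fun n => (z n - b n) / √(b n)) atTop (𝓝 y)) (k : ℝ) :
    Tendsto (fun n => b n + k) atTop atTop ∧
      Tendsto (fun n => (z n - (b n + k)) / √(b n + k)) atTop (𝓝 y) ∧
      Tendsto (fun n => √(b n) / √(b n + k)) atTop (𝓝 1) := by
  have hb' : Tendsto (fun n => b n + k) atTop atTop := tendsto_atTop_add_const_right _ k hb
  have hr : Tendsto (fun n => √(b n) / √(b n + k)) atTop (𝓝 1) := by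
    have h1 : Tendsto (fun n => (√(1 + k / b n))⁻¹) atTop (𝓝 1) := by
      have h := (((tendsto_const_nhds (x := k)).div_atTop hb).const_add 1)
      rw [add_zero] at h
      simpa using ((Real.continuous_sqrt.tendsto 1).comp h).inv₀ (by simp)
    refine h1.congr' ?_
    filter_upwards [hb.eventually_gt_atTop (|k| + 1)] with n hn
    have hb0 : 0 < b n := lt_of_le_of_lt (by positivity) hn
    have hk : 0 < b n + k := by linarith [neg_abs_le k]
    rw [show 1 + k / b n = (b n + k) / b n by field_simp, Real.sqrt_div hk.le, inv_div]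
  refine ⟨hb', ?_, hr⟩
  have hsq : Tendsto (fun n => k / √(b n + k)) atTop (𝓝 0) :=
    tendsto_const_nhds.div_atTop (Real.tendsto_sqrt_atTop.comp hb')
  have := (hz.mul hr).sub hsq
  rw [mul_one, sub_zero] at this
  refine this.congr' ?_
  filter_upwards [hb.eventually_gt_atTop 0] with n hn
  have h0 := (Real.sqrt_pos.2 hn).ne'
  rw [div_mul_div_cancel₀ h0, ← sub_div]
  ring_nf

theorem tendsto_ratio {b z : ℕ → ℝ} {y : ℝ} (hb : Tendsto b atTop atTop)
    (hz : Tendsto (fun n => (z n - b n) / √(b n)) atTop (𝓝 y)) :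
    Tendsto (fun n => z n / b n) atTop (𝓝 1) := by
  have h := (hz.div_atTop (Real.tendsto_sqrt_atTop.comp hb)).add_const 1
  rw [zero_add] at h
  refine h.congr' ?_
  filter_upwards [hb.eventually_gt_atTop 0] with n hn
  simp only [Function.comp_apply]
  rw [div_div, Real.mul_self_sqrt hn.le]
  field_simp
  ring

/-- **Laguerre to Hermite.** -/
theorem tendsto_lagSum : ∀ (d : ℕ) (b z : ℕ → ℝ) (y : ℝ), Tendsto b atTop atTop →
    Tendsto (fun n => (z n - b n) / √(b n)) atTop (𝓝 y) →
    Tendsto (fun n => √(b n) ^ d * lagSum d (b n) (z n)) atTop (𝓝 ((-1) ^ d * hermVal d y)) := by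
  intro d
  induction d using Nat.strong_induction_on with
  | _ d ih =>
    intro b z y hb hz
    match d with
    | 0 => simp [lagSum_zero, hermVal]
    | 1 =>
      refine (hz.neg.congr' ?_).trans (by simp [hermVal])
      filter_upwards [hb.eventually_gt_atTop 0] with n hn
      rw [lagSum_succ 0 hn, lagSum_zero, lagSum_zero, pow_one]
      have h0 := (Real.sqrt_pos.2 hn).ne'
      field_simp
      rw [Real.sq_sqrt hn.le]
      ring
    | m + 2 =>
      obtain ⟨hb2, hz2, hr2⟩ := tendsto_center_add hb hz 2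
      have h1 := ih (m + 1) (by omega) b z y hb hz
      have h2 := (ih m (by omega) _ z y hb2 hz2).mul (hr2.pow m)
      have hbb : Tendsto (fun n => b n / (b n + 1)) atTop (𝓝 1) := by
        have h := ((tendsto_const_nhds (x := (1 : ℝ))).div_atTop
          (tendsto_atTop_add_const_right _ 1 hb)).const_sub 1
        rw [sub_zero] at h
        refine h.congr' ?_
        filter_upwards [hb.eventually_gt_atTop 0] with n hn
        field_simp
        ring
      have h3 := (((((tendsto_ratio hb hz).pow 2).mul hbb).mul h2).const_mul ((m : ℝ) + 1))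
      have h4 := (hz.neg.mul h1).sub h3
      refine (h4.congr' ?_).trans (le_of_eq ?_)
      · filter_upwards [hb.eventually_gt_atTop 0] with n hn
        have h0 := (Real.sqrt_pos.2 hn).ne'
        have h20 := (Real.sqrt_pos.2 (show 0 < b n + 2 by linarith)).ne'
        rw [lagSum_succ (m + 1) hn, lagSum_shift m hn, div_pow (√(b n)), pow_succ, pow_succ]
        have hb1 : b n + 1 ≠ 0 := by linarith
        field_simp
        rw [show √(b n) ^ (m + 2) = √(b n) ^ m * b n by rw [pow_add, Real.sq_sqrt hn.le]]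
        ring
      · rw [hermVal_succ_succ]
        congr 1
        ring

end FA.JensenPolynomials

end
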