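import Fermat.Agent.DeBruijnNewman.Threshold
import Fermat.Agent.JensenPolynomials.Criterion
import Mathlib.Analysis.SpecialFunctions.Trigonometric.Series

/-!
# The moments of Pólya's kernel

`H_t w = ∑ (-w²)^k momCoef t k`, so `genFn t ζ = ∑ momCoef t k ζ^k` has growth `exp (o |ζ|)` and
its zeros are all real iff those of `H_t` are.
-/

set_option autoImplicit false

noncomputable section

namespace FA.JensenPolynomials

open MeasureTheory Filter Topology Complex FA.DeBruijn FA.DeBruijnNewman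
open scoped Nat

/-- `∫_0^∞ exp (t u²) Φ u u^(2k) / (2k)!`. -/
def momCoef (t : ℝ) (k : ℕ) : ℝ :=
  (∫ u in Set.Ioi (0 : ℝ), Real.exp (t * u ^ 2) * polyaPhi u * u ^ (2 * k)) / (2 * k)!

/-- `∑ momCoef t k ζ^k`. -/
def genFn (t : ℝ) (ζ : ℂ) : ℂ := evenPart (heatFlow t xiWave) (-ζ)

theorem integrable_phi_gauss (t R : ℝ) :
    Integrable fun u : ℝ => Real.exp (t * u ^ 2) * polyaPhi u * Real.exp (R * |u|) := by
  refine ((gaussDecay_polyaPhi t).bound_integrable 1 |>.const_mul (2 * Real.exp (R ^ 2))).mono'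
    ((((by fun_prop : Continuous fun u : ℝ => Real.exp (t * u ^ 2))).mul continuous_polyaPhi).mul
      (by fun_prop : Continuous fun u : ℝ => Real.exp (R * |u|))).aestronglyMeasurable
    (Eventually.of_forall fun u => ?_)
  have hp := polyaPhi_pos u
  rw [Real.norm_of_nonneg (by positivity),
    abs_of_pos (by positivity : 0 < polyaPhi u / 2 * Real.exp (t * u ^ 2)),
    show 2 * Real.exp (R ^ 2) * (polyaPhi u / 2 * Real.exp (t * u ^ 2) * Real.exp (1 * u ^ 2)) =
      Real.exp (t * u ^ 2) * polyaPhi u * (Real.exp (R ^ 2) * Real.exp (1 * u ^ 2)) by ring,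
    ← Real.exp_add]
  refine mul_le_mul_of_nonneg_left (Real.exp_le_exp.2 ?_) (by positivity)
  nlinarith [sq_nonneg (|u| - R / 2), sq_abs u, sq_nonneg R]

theorem pow_le_factorial_mul_exp (k : ℕ) {x : ℝ} (hx : 0 ≤ x) : x ^ k ≤ k ! * Real.exp x := by
  have := Real.pow_div_factorial_le_exp x hx k
  rwa [div_le_iff₀ (Nat.cast_pos.2 k.factorial_pos), mul_comm] at this

theorem integrableOn_moment (t : ℝ) (k : ℕ) :
    IntegrableOn (fun u : ℝ => Real.exp (t * u ^ 2) * polyaPhi u * u ^ (2 * k)) (Set.Ioi 0) := by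
  refine (((integrable_phi_gauss t 1).const_mul ((2 * k)! : ℝ)).integrableOn).mono'
    ((((by fun_prop : Continuous fun u : ℝ => Real.exp (t * u ^ 2))).mul continuous_polyaPhi).mul
      (by fun_prop : Continuous fun u : ℝ => u ^ (2 * k))).aestronglyMeasurable.restrict
    (Eventually.of_forall fun u => ?_)
  have hp := polyaPhi_pos u
  rw [norm_mul, Real.norm_of_nonneg (by positivity), norm_pow, Real.norm_eq_abs, one_mul,
    mul_left_comm]
  exact mul_le_mul_of_nonneg_left (pow_le_factorial_mul_exp _ (abs_nonneg u)) (by positivity)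

theorem momCoef_pos (t : ℝ) (k : ℕ) : 0 < momCoef t k := by
  refine div_pos ?_ (Nat.cast_pos.2 (Nat.factorial_pos _))
  have hpos : ∀ u ∈ Set.Ioi (0 : ℝ),
      0 < Real.exp (t * u ^ 2) * polyaPhi u * u ^ (2 * k) := fun u hu => by
    have := polyaPhi_pos u
    have : (0 : ℝ) < u := hu
    positivity
  rw [setIntegral_pos_iff_support_of_nonneg_ae
    (ae_restrict_of_forall_mem measurableSet_Ioi fun u hu => (hpos u hu).le)
      (integrableOn_moment t k)]
  refine lt_of_lt_of_le (b := volume (Set.Ioi (0 : ℝ))) (by simp) (measure_mono fun u hu => ?_)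
  exact ⟨(hpos u hu).ne', hu⟩

theorem hasSum_heatFlow_moments (t : ℝ) (w : ℂ) :
    HasSum (fun k => (momCoef t k : ℂ) * (-w ^ 2) ^ k) (heatFlow t xiWave w) := by
  rw [heatFlow_xiWave_half]
  have h := hasSum_integral_of_dominated_convergence (μ := volume.restrict (Set.Ioi (0 : ℝ)))
    (F := fun (k : ℕ) (u : ℝ) => ((Real.exp (t * u ^ 2) * polyaPhi u : ℝ) : ℂ) *
      ((-1) ^ k * (w * u) ^ (2 * k) / ((2 * k)! : ℂ)))
    (f := fun u : ℝ => ((Real.exp (t * u ^ 2) * polyaPhi u : ℝ) : ℂ) * Complex.cos (w * u))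
    (fun k u => Real.exp (t * u ^ 2) * polyaPhi u * ((‖w‖ * |u|) ^ (2 * k) / (2 * k)!))
    (fun k => (((Complex.continuous_ofReal.comp
      ((by fun_prop : Continuous fun u : ℝ => Real.exp (t * u ^ 2)).mul continuous_polyaPhi)).mul
        (by fun_prop : Continuous fun u : ℝ => (-1 : ℂ) ^ k * (w * u) ^ (2 * k) / ((2 * k)! : ℂ))
      ).aestronglyMeasurable))
    (fun k => Eventually.of_forall fun u => by
      have := polyaPhi_pos u
      rw [norm_mul, Complex.norm_real, Real.norm_of_nonneg (by positivity), norm_div, norm_mul,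
        norm_pow, norm_pow, norm_neg, norm_one, one_pow, one_mul, norm_mul, Complex.norm_real,
        Real.norm_eq_abs, Complex.norm_natCast])
    (Eventually.of_forall fun u => (Real.hasSum_cosh (‖w‖ * |u|)).summable.mul_left _)
    (by
      simp only [tsum_mul_left, ← Real.cosh_eq_tsum]
      refine ((integrable_phi_gauss t ‖w‖).integrableOn).mono' ?_ (Eventually.of_forall fun u => ?_)
      · exact ((((by fun_prop : Continuous fun u : ℝ => Real.exp (t * u ^ 2))).mul
          continuous_polyaPhi).mul (by fun_prop : Continuous fun u : ℝ => Real.cosh (‖w‖ * |u|))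
          ).aestronglyMeasurable
      · have := polyaPhi_pos u
        rw [Real.norm_of_nonneg (mul_nonneg (by positivity) (Real.cosh_pos _).le)]
        refine mul_le_mul_of_nonneg_left ?_ (by positivity)
        rw [Real.cosh_eq]
        linarith [Real.exp_le_exp.2 (show -(‖w‖ * |u|) ≤ ‖w‖ * |u| by
          linarith [mul_nonneg (norm_nonneg w) (abs_nonneg u)])])
    (Eventually.of_forall fun u => (Complex.hasSum_cos (w * u)).mul_left _)
  refine h.congr_fun fun k => ?_
  rw [momCoef, Complex.ofReal_div, ← integral_complex_ofReal, div_mul_eq_mul_div,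
    ← integral_mul_const, ← integral_div]
  refine setIntegral_congr_fun measurableSet_Ioi fun u _ => ?_
  push_cast
  rw [neg_pow, mul_pow, ← pow_mul]
  ring

theorem genFn_hasSum (t : ℝ) (ζ : ℂ) :
    HasSum (fun k => (momCoef t k : ℂ) * ζ ^ k) (genFn t ζ) := by
  have h := hasSum_heatFlow_moments t ((-ζ) ^ (1 / 2 : ℂ))
  rw [FA.PrimeRaceLittlewood.sqrt_sq, neg_neg] at h
  exact h

theorem heatFlow_even (t : ℝ) (w : ℂ) : heatFlow t xiWave (-w) = heatFlow t xiWave w := by
  rw [heatFlow_xiWave, cosTransform, cosTransform]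
  simp only [neg_mul, Complex.cos_neg]

theorem differentiable_genFn (t : ℝ) : Differentiable ℂ (genFn t) :=
  (differentiable_evenPart (by rw [heatFlow_xiWave]; exact (gaussDecay_polyaPhi t).heatGrowth.diff)
    (heatFlow_even t)).comp (differentiable_id.neg)

theorem genFn_growth (t : ℝ) {η : ℝ} (hη : 0 < η) :
    ∃ G : ℝ, ∀ ζ : ℂ, ‖genFn t ζ‖ ≤ Real.exp (η * ‖ζ‖ + G) := by
  obtain ⟨G, hG⟩ := (gaussDecay_polyaPhi t).heatGrowth.bound η hη
  refine ⟨G, fun ζ => ?_⟩
  rw [genFn, evenPart, heatFlow_xiWave]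
  have := hG ((-ζ) ^ (1 / 2 : ℂ))
  rwa [FA.PrimeRaceLittlewood.norm_sqrt, Real.sq_sqrt (norm_nonneg _), norm_neg] at this

theorem genFn_zeros_iff (t : ℝ) :
    (∀ ζ : ℂ, genFn t ζ = 0 → ζ.im = 0) ↔
      ∀ z : ℂ, heatFlow t xiWave z = 0 → z.im = 0 := by
  constructor
  · intro h z hz
    have hζ : genFn t (-z ^ 2) = 0 := by
      rw [genFn, neg_neg, evenPart_sq (heatFlow_even t), hz]
    have h1 := h _ hζ
    by_contra him
    simp [pow_two, mul_im] at h1
    have hre : z.re = 0 := by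
      have h2 : z.im * z.re = 0 := by linarith
      exact (mul_eq_zero.1 h2).resolve_left him
    have h3 := (pos_on_nonneg (momCoef_pos t) (genFn_hasSum t)
      (mul_self_nonneg z.im)).1
    rw [show ((z.im * z.im : ℝ) : ℂ) = -z ^ 2 by
      conv_rhs => rw [← re_add_im z, hre, Complex.ofReal_zero, zero_add, mul_pow, I_sq]
      push_cast; ring, hζ] at h3
    simp at h3
  · intro h ζ hζ
    have h1 := h _ (show heatFlow t xiWave ((-ζ) ^ (1 / 2 : ℂ)) = 0 from hζ)
    have h2 := congrArg Complex.im (FA.PrimeRaceLittlewood.sqrt_sq (-ζ))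
    rw [pow_two, mul_im, h1, neg_im] at h2
    linarith

/-- **Jensen's criterion for the flow.** -/
theorem heatFlow_real_iff_jensen (t : ℝ) :
    ((∀ z : ℂ, heatFlow t xiWave z = 0 → z.im = 0) ↔
      ∀ (d n : ℕ) (z : ℂ), jensenSum (fun j => j ! * momCoef t j) d n z = 0 → z.im = 0) ∧
    ((∀ z : ℂ, heatFlow t xiWave z = 0 → z.im = 0) ↔
      ∀ (d : ℕ) (z : ℂ), jensenSum (fun j => j ! * momCoef t j) d 0 z = 0 → z.im = 0) := by
  rw [← genFn_zeros_iff]
  have hf := differentiable_genFn t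
  have hA : (∀ ζ : ℂ, genFn t ζ = 0 → ζ.im = 0) →
      ∀ (d n : ℕ) (z : ℂ), jensenSum (fun j => j ! * momCoef t j) d n z = 0 → z.im = 0 :=
    fun h d n z => jensenSum_im_eq_zero hf (fun η hη => genFn_growth t hη) (momCoef_pos t)
      (genFn_hasSum t) h d n
  have hB := fun h ζ => im_eq_zero_of_jensenSum hf (momCoef_pos t) (genFn_hasSum t) h (z := ζ)
  exact ⟨⟨hA, fun h => hB fun d => h d 0⟩, ⟨fun h d => hA h d 0, hB⟩⟩

end FA.JensenPolynomials

end
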