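import Fermat.Agent.JensenPolynomials.Sequence
import Fermat.Agent.RademacherPartition.Main
import Mathlib.Analysis.SpecialFunctions.Pow.Asymptotics

/-!
# The Jensen polynomials of the partition function

With `t = 1 / √(n - 1/24)` and `a = π √(2/3)`, the first term of Rademacher's series gives
`log p (n + j) - log p n` as `∑ q i t * t ^ (2 i - 1) * j ^ i + o (t ^ (2 d))`, where `q i` is a
polynomial and `q 2 0 = -a / 8`.
-/

set_option autoImplicit false

noncomputable section

namespace FA.JensenPolynomials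

open Filter Topology Asymptotics
open FA.PartitionGrowth (partCount one_le_partCount)
open FA.RademacherPartition (rademacherTerm rademacherFun)
open scoped Real

/-- The Taylor coefficients of an analytic function. -/
theorem exists_taylor {ψ : ℝ → ℝ} (h : AnalyticAt ℝ ψ 0) :
    ∃ b : ℕ → ℝ, b 0 = ψ 0 ∧ ∀ D : ℕ,
      (fun u => ψ u - ∑ i ∈ Finset.range (D + 1), b i * u ^ i) =O[𝓝 0] fun u => u ^ (D + 1) := by
  obtain ⟨p, hp⟩ := h
  refine ⟨fun i => p.coeff i, hp.coeff_zero _, fun D => ?_⟩
  have h1 := hp.isBigO_sub_partialSum_pow (D + 1)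
  simp only [zero_add, FormalMultilinearSeries.partialSum,
    FormalMultilinearSeries.apply_eq_pow_smul_coeff, smul_eq_mul] at h1
  refine IsBigO.of_norm_right ?_
  simp only [norm_pow, mul_comm (p.coeff _)]
  exact h1

/-- The same along `u = j t²`. -/
theorem taylor_along {ψ : ℝ → ℝ} {b : ℕ → ℝ} (hb0 : b 0 = ψ 0)
    (hb : ∀ D : ℕ, (fun u => ψ u - ∑ i ∈ Finset.range (D + 1), b i * u ^ i) =O[𝓝 0]
      fun u => u ^ (D + 1))
    {T : ℕ → ℝ} (hT : Tendsto T atTop (𝓝 0)) (j : ℝ) (D : ℕ) :
    (fun n => ψ (j * T n ^ 2) - ψ 0 - ∑ i ∈ Finset.Icc 1 D, b i * (j * T n ^ 2) ^ i) =O[atTop]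
      fun n => T n ^ (2 * D + 2) := by
  have h0 : Tendsto (fun n => j * T n ^ 2) atTop (𝓝 0) := by simpa using (hT.pow 2).const_mul j
  have h1 := (hb D).comp_tendsto h0
  have e : ∀ u : ℝ, ∑ i ∈ Finset.range (D + 1), b i * u ^ i =
      ψ 0 + ∑ i ∈ Finset.Icc 1 D, b i * u ^ i := fun u => by
    rw [Finset.range_eq_Ico, Finset.sum_eq_sum_Ico_succ_bot D.succ_pos, zero_add, pow_zero,
      mul_one, hb0, show Finset.Ico 1 D.succ = Finset.Icc 1 D by ext; simp]
  refine ((h1.congr_left fun n => ?_).congr_right fun n => rfl).trans ?_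
  · simp only [Function.comp_apply, e]
    ring
  · refine ((isBigO_refl (fun n => T n ^ (2 * D + 2)) atTop).const_mul_left
      (j ^ (D + 1))).congr_left fun n => ?_
    simp only [Function.comp_apply]
    rw [mul_pow, ← pow_mul, mul_add, mul_one]

theorem analyticAt_log_one_add : AnalyticAt ℝ (fun u : ℝ => Real.log (1 + u)) 0 :=
  (analyticAt_const.add analyticAt_id).log (by simp)

theorem analyticAt_sqrt_one_add : AnalyticAt ℝ (fun u : ℝ => √(1 + u)) 0 := by
  have h : AnalyticAt ℝ (fun u : ℝ => Real.exp (Real.log (1 + u) / 2)) 0 :=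
    analyticAt_rexp.comp (analyticAt_log_one_add.div analyticAt_const two_ne_zero)
  refine h.congr ?_
  filter_upwards [Ioi_mem_nhds (show (-1 : ℝ) < 0 by norm_num)] with u (hu : -1 < u)
  rw [Real.sqrt_eq_rpow, Real.rpow_def_of_pos (by linarith)]
  ring_nf

theorem sqrt_one_add_second {b : ℕ → ℝ} (hb0 : b 0 = 1)
    (hb : ∀ D : ℕ, (fun u => √(1 + u) - ∑ i ∈ Finset.range (D + 1), b i * u ^ i) =O[𝓝 0]
      fun u => u ^ (D + 1)) : b 2 = -1 / 8 := by
  obtain ⟨u, hu⟩ : ∃ u : ℕ → ℝ, u = fun n : ℕ => 1 / ((n : ℝ) + 1) := ⟨_, rfl⟩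
  have hu0 : Tendsto u atTop (𝓝 0) := hu ▸ tendsto_one_div_add_atTop_nhds_zero_nat
  have hpos : ∀ n, 0 < u n := fun n => by rw [hu]; positivity
  have hs : Tendsto (fun n => √(1 + u n)) atTop (𝓝 1) := by
    simpa [Function.comp_def] using (Real.continuous_sqrt.tendsto _).comp (hu0.const_add 1)
  have hlim : ∀ D : ℕ, Tendsto (fun n => (√(1 + u n) -
      ∑ i ∈ Finset.range (D + 1), b i * u n ^ i) / u n ^ D) atTop (𝓝 0) := fun D => by
    refine ((((hb D).comp_tendsto hu0).trans_isLittleO ?_)).tendsto_div_nhds_zero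
    exact (isLittleO_pow_pow (Nat.lt_succ_self D)).comp_tendsto hu0
  have hsq : ∀ n, √(1 + u n) ^ 2 = 1 + u n := fun n =>
    Real.sq_sqrt (by linarith [hpos n])
  have h1 : b 1 = 1 / 2 := by
    have h := tendsto_nhds_unique (hlim 1) (((tendsto_const_nhds (x := (1 : ℝ))).div
      (hs.add_const 1) (by norm_num)).sub_const (b 1) |>.congr fun n => ?_)
    · linarith
    · simp only [Pi.div_apply]
      have := Real.sqrt_nonneg (1 + u n)
      have := (hpos n).ne'
      rw [Finset.sum_range_succ, Finset.sum_range_one, hb0]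
      field_simp
      linear_combination -hsq n
  have h := tendsto_nhds_unique (hlim 2) (((tendsto_const_nhds (x := (-1 / 2 : ℝ))).div
    ((hs.add_const 1).pow 2) (by norm_num)).sub_const (b 2) |>.congr fun n => ?_)
  · norm_num at h
    linarith
  · simp only [Pi.div_apply]
    have := Real.sqrt_nonneg (1 + u n)
    have := (hpos n).ne'
    rw [Finset.sum_range_succ, Finset.sum_range_succ, Finset.sum_range_one, hb0, h1]
    field_simp
    linear_combination (-2 * √(1 + u n) - 2 + u n) * hsq n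

/-- `√(n - 1/24)`. -/
def partRoot (n : ℕ) : ℝ := √((n : ℝ) - 1 / 24)

/-- `π √(2/3)`. -/
def partRate : ℝ := π * √(2 / 3)

theorem partRate_pos : 0 < partRate := by rw [partRate]; positivity

theorem tendsto_partRoot : Tendsto partRoot atTop atTop :=
  Real.tendsto_sqrt_atTop.comp (tendsto_atTop_add_const_right _ _ tendsto_natCast_atTop_atTop)

/-- The main term. -/
def partMain (n : ℕ) : ℝ :=
  Real.exp (partRate * partRoot n) * (partRate * partRoot n - 1) /
    (4 * (π * √2) * partRoot n ^ 3)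

/-- The relative error. -/
def partErr (n : ℕ) : ℝ := partCount n / partMain n - 1

theorem abs_sub_partMain_le {n : ℕ} (hn : 0 < n) (hs : 1 ≤ partRoot n) :
    |partCount n - partMain n| ≤
      (5 * Real.exp partRate + 1) * Real.exp (partRate * partRoot n / 2) := by
  have h24 : (1 : ℝ) / 24 < n := by
    have : (1 : ℝ) ≤ n := Nat.one_le_cast.2 hn
    linarith
  have hexp : π * √(2 * (n : ℝ) / 3) ≤ partRate * partRoot n + 2 * partRate := by
    rw [show (2 * (n : ℝ) / 3) = 2 / 3 * n by ring, Real.sqrt_mul (by norm_num), ← mul_assoc,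
      ← partRate, ← mul_comm partRate 2, ← mul_add]
    refine mul_le_mul_of_nonneg_left ?_ partRate_pos.le
    rw [Real.sqrt_le_iff]
    have h : partRoot n ^ 2 = (n : ℝ) - 1 / 24 := Real.sq_sqrt (by linarith)
    exact ⟨by linarith, by nlinarith⟩
  have hN := FA.RademacherPartition.norm_partCount_sub_partial_le hn two_pos
  rw [show Finset.Icc 1 2 = {1, 2} from rfl, Finset.sum_pair (by norm_num)] at hN
  obtain ⟨T1, hT1⟩ : ∃ T1, T1 = deriv (rademacherFun 1) (n : ℝ) := ⟨_, rfl⟩
  have e1 : rademacherTerm n 1 = (T1 : ℂ) := by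
    simp [rademacherTerm, FA.RademacherPartition.rademacherSum, FA.DedekindSums.dedekindSum,
      FA.DedekindSums.sawtooth, hT1]
  have h2 := FA.RademacherPartition.norm_rademacherTerm_le hn two_pos
  have hc : 0 < π * √2 := by positivity
  have hc1 : 1 ≤ π * √2 := one_le_mul_of_one_le_of_one_le (by linarith [Real.pi_gt_three])
    (Real.one_le_sqrt.2 (by norm_num))
  obtain ⟨X, hX⟩ : ∃ X, X = Real.exp (π * √(2 * (n : ℝ) / 3) / (2 : ℕ)) := ⟨_, rfl⟩
  rw [← hX] at hN h2
  have hXp : 0 < X := hX ▸ Real.exp_pos _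
  have hXle : X ≤ Real.exp partRate * Real.exp (partRate * partRoot n / 2) := by
    rw [hX, ← Real.exp_add]
    refine Real.exp_le_exp.2 ?_
    push_cast
    linarith
  have hA : |partCount n - T1 / (π * √2)| ≤ 5 * X := by
    have h : ‖((partCount n - T1 / (π * √2) : ℝ) : ℂ)‖ ≤ 5 * X := by
      have e : ((partCount n - T1 / (π * √2) : ℝ) : ℂ) = ((partCount n : ℂ) -
          (rademacherTerm n 1 + rademacherTerm n 2) / ((π * √2 : ℝ) : ℂ)) +
            rademacherTerm n 2 / ((π * √2 : ℝ) : ℂ) := by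
        rw [e1]
        push_cast
        ring
      rw [e]
      refine (norm_add_le _ _).trans ?_
      rw [norm_div, Complex.norm_real, Real.norm_of_nonneg hc.le]
      have h3 : ‖rademacherTerm n 2‖ / (π * √2) ≤ 3 * X := by
        refine (div_le_self (norm_nonneg _) hc1).trans (h2.trans ?_)
        refine mul_le_of_le_one_right (by positivity) (div_le_one_of_le₀ ?_ (by positivity))
        exact one_le_mul_of_one_le_of_one_le (by norm_num) (Real.one_le_sqrt.2 (by norm_num))
      have h4 : 2 * X / √((2 : ℕ) : ℝ) ≤ 2 * X :=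
        div_le_self (by positivity) (Real.one_le_sqrt.2 (by norm_num))
      linarith
    rwa [Complex.norm_real, Real.norm_eq_abs] at h
  have hd := (FA.RademacherPartition.hasDerivAt_rademacherFun 1 h24).deriv
  rw [Nat.cast_one, div_one, Real.sqrt_mul (by norm_num), ← mul_assoc π, ← partRate,
    ← hT1, Real.cosh_eq, Real.sinh_eq] at hd
  have hB : |T1 / (π * √2) - partMain n| ≤ 1 := by
    have hw : 0 ≤ partRate * partRoot n := mul_nonneg partRate_pos.le (by linarith)
    have e : T1 / (π * √2) - partMain n = Real.exp (-(partRate * partRoot n)) *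
        (partRate * partRoot n + 1) / (4 * (π * √2) * partRoot n ^ 3) := by
      have := (show partRoot n ≠ 0 by linarith)
      rw [hd, partMain]
      unfold partRoot at *
      field_simp
      ring
    rw [e, abs_of_nonneg (by positivity)]
    refine div_le_one_of_le₀ (le_trans ?_ (one_le_mul_of_one_le_of_one_le
      (by linarith) (one_le_pow₀ hs))) (by positivity)
    rw [Real.exp_neg, inv_mul_le_one₀ (Real.exp_pos _)]
    exact Real.add_one_le_exp _
  have hE : 1 ≤ Real.exp (partRate * partRoot n / 2) :=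
    Real.one_le_exp (div_nonneg (mul_nonneg partRate_pos.le (by linarith)) two_pos.le)
  calc |partCount n - partMain n| ≤ |partCount n - T1 / (π * √2)| + |T1 / (π * √2) - partMain n| :=
        abs_sub_le _ _ _
    _ ≤ _ := by linarith [mul_le_mul_of_nonneg_left hXle (show (0 : ℝ) ≤ 5 by norm_num)]

theorem eventually_partMain_pos : ∀ᶠ n in atTop, 0 < partMain n := by
  filter_upwards [tendsto_partRoot.eventually_ge_atTop 1,
    (tendsto_partRoot.const_mul_atTop partRate_pos).eventually_gt_atTop 1] with n h1 h2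
  exact div_pos (mul_pos (Real.exp_pos _) (by linarith)) (by positivity)

/-- **The error is exponentially small.** -/
theorem tendsto_partErr (m : ℕ) :
    Tendsto (fun n => |partErr n| * partRoot n ^ m) atTop (𝓝 0) := by
  obtain ⟨C, hC⟩ : ∃ C, C = (5 * Real.exp partRate + 1) * (4 * (π * √2)) := ⟨_, rfl⟩
  have hC0 : 0 ≤ C := hC ▸ by positivity
  have ha := partRate_pos
  have hlim := (((Real.tendsto_pow_mul_exp_neg_atTop_nhds_zero (m + 3)).comp
    (tendsto_partRoot.const_mul_atTop (half_pos partRate_pos))).const_mul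
      (C / (partRate / 2) ^ (m + 3)))
  rw [mul_zero] at hlim
  refine squeeze_zero' ?_ ?_ hlim
  · filter_upwards [tendsto_partRoot.eventually_ge_atTop 0] with n hn
    positivity
  · filter_upwards [eventually_gt_atTop 0, tendsto_partRoot.eventually_ge_atTop 1,
      (tendsto_partRoot.const_mul_atTop partRate_pos).eventually_ge_atTop 2,
      eventually_partMain_pos] with n hn hs hw hM
    have hb := abs_sub_partMain_le hn hs
    obtain ⟨E, hE⟩ : ∃ E, E = Real.exp (partRate * partRoot n / 2) := ⟨_, rfl⟩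
    rw [← hE] at hb
    have hE0 : 0 < E := hE ▸ Real.exp_pos _
    have hMl : E ^ 2 / (4 * (π * √2) * partRoot n ^ 3) ≤ partMain n := by
      rw [partMain, hE, ← Real.exp_nat_mul]
      refine div_le_div_of_nonneg_right (le_of_eq_of_le ?_ (le_mul_of_one_le_right
        (Real.exp_pos _).le (by linarith))) (by positivity)
      push_cast
      ring_nf
    rw [partErr, div_sub_one hM.ne', abs_div, abs_of_pos hM]
    refine (mul_le_mul_of_nonneg_right (div_le_div₀ (by positivity) hb (by positivity) hMl)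
      (by positivity)).trans_eq ?_
    simp only [Function.comp_apply]
    rw [Real.exp_neg, show partRate / 2 * partRoot n = partRate * partRoot n / 2 by ring, ← hE, hC,
      div_pow, div_pow, mul_pow]
    field_simp
    ring

/-- `1 / √(n - 1/24)`. -/
def partScale (n : ℕ) : ℝ := (partRoot n)⁻¹

theorem tendsto_partScale : Tendsto partScale atTop (𝓝 0) := tendsto_partRoot.inv_tendsto_atTop

theorem eventually_partScale : ∀ᶠ n in atTop, 0 < partScale n :=
  (tendsto_partRoot.eventually_gt_atTop 0).mono fun _ h => inv_pos.2 h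

theorem log_one_add_partErr (j m : ℕ) :
    (fun n => Real.log (1 + partErr (n + j))) =o[atTop] fun n => partScale n ^ m := by
  have hj : Tendsto (fun n : ℕ => n + j) atTop atTop := tendsto_add_atTop_nat j
  have h0 : Tendsto (fun n => |partErr (n + j)|) atTop (𝓝 0) := by
    simpa [Function.comp_def] using (tendsto_partErr 0).comp hj
  refine (isLittleO_iff_tendsto' ?_).2 (squeeze_zero_norm' ?_
    (by simpa [Function.comp_def] using ((tendsto_partErr m).comp hj).const_mul 2))
  · filter_upwards [eventually_partScale] with n hn h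
    exact absurd h (pow_pos hn m).ne'
  filter_upwards [eventually_partScale, h0.eventually_le_const (show (0 : ℝ) < 1 / 2 by norm_num)]
    with n hn he
  obtain ⟨he1, he2⟩ := abs_le.1 he
  rw [partScale, inv_pow, div_inv_eq_mul, Real.norm_eq_abs, abs_mul, ← mul_assoc]
  refine mul_le_mul ?_ ?_ (abs_nonneg _) (by positivity)
  · rw [abs_le]
    constructor
    · have h := Real.one_sub_inv_le_log_of_pos (show 0 < 1 + partErr (n + j) by linarith)
      have hi : (1 + partErr (n + j))⁻¹ ≤ 1 + 2 * |partErr (n + j)| := by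
        rw [inv_le_iff_one_le_mul₀ (by linarith [neg_abs_le (partErr (n + j))])]
        nlinarith [neg_abs_le (partErr (n + j)), abs_nonneg (partErr (n + j))]
      linarith
    · have h := Real.log_le_sub_one_of_pos (show 0 < 1 + partErr (n + j) by linarith)
      linarith [le_abs_self (partErr (n + j)), abs_nonneg (partErr (n + j))]
  · rw [abs_pow]
    refine pow_le_pow_left₀ (abs_nonneg _) ?_ m
    rw [abs_of_nonneg (show 0 ≤ partRoot n from Real.sqrt_nonneg _), partRoot, partRoot]
    exact Real.sqrt_le_sqrt (by push_cast; linarith [(Nat.cast_nonneg j : (0 : ℝ) ≤ j)])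

theorem log_partCount_eq : ∀ᶠ n in atTop, Real.log (partCount n) =
    partRate * partRoot n + Real.log (1 - partScale n / partRate) - 2 * Real.log (partRoot n) +
      Real.log (partRate / (4 * (π * √2))) + Real.log (1 + partErr n) := by
  filter_upwards [tendsto_partRoot.eventually_gt_atTop 0, eventually_partMain_pos,
    (tendsto_partRoot.const_mul_atTop partRate_pos).eventually_gt_atTop 1] with n hs hM hw
  have hp : 0 < partCount n := zero_lt_one.trans_le (one_le_partCount n)
  have ha := partRate_pos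
  have e : partCount n = partMain n * (1 + partErr n) := by
    rw [partErr, add_sub_cancel, mul_div_cancel₀ _ hM.ne']
  have he : 0 < 1 + partErr n := by rw [partErr, add_sub_cancel]; positivity
  have h1 : 0 < 1 - partScale n / partRate := by
    rw [partScale, sub_pos, div_lt_one ha, inv_lt_iff_one_lt_mul₀ hs]
    exact hw
  rw [e, Real.log_mul hM.ne' he.ne', partMain,
    show Real.exp (partRate * partRoot n) * (partRate * partRoot n - 1) /
      (4 * (π * √2) * partRoot n ^ 3) = Real.exp (partRate * partRoot n) *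
        (1 - partScale n / partRate) * (partRate / (4 * (π * √2))) / partRoot n ^ 2 by
      rw [partScale]; field_simp,
    Real.log_div (by positivity) (by positivity), Real.log_mul (by positivity) (by positivity),
    Real.log_mul (Real.exp_pos _).ne' h1.ne', Real.log_exp, Real.log_pow]
  push_cast
  ring

/-- `T (n + j) = T n / √(1 + j T n²)`. -/
theorem partRoot_add {n : ℕ} (hn : 0 < n) (j : ℕ) :
    partRoot (n + j) = partRoot n * √(1 + j * partScale n ^ 2) := by
  have h : 0 < (n : ℝ) - 1 / 24 := by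
    have : (1 : ℝ) ≤ n := Nat.one_le_cast.2 hn
    linarith
  rw [partScale, inv_pow, show partRoot n ^ 2 = (n : ℝ) - 1 / 24 from Real.sq_sqrt h.le, partRoot,
    partRoot, ← Real.sqrt_mul h.le]
  congr 1
  rw [mul_add, mul_one, mul_left_comm, mul_inv_cancel₀ h.ne']
  push_cast
  ring

theorem sum_Icc_one {D : ℕ} (hD : 2 ≤ D) (f : ℕ → ℝ) :
    ∑ i ∈ Finset.Icc 1 D, f i = f 1 + f 2 + ∑ i ∈ Finset.Icc 3 D, f i := by
  rw [show Finset.Icc 1 D = insert 1 (insert 2 (Finset.Icc 3 D)) by ext x; simp; omega,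
    Finset.sum_insert (by simp), Finset.sum_insert (by simp), add_assoc]

/-- **The expansion.** -/
theorem exists_expansion (d : ℕ) : ∃ q : ℕ → ℝ → ℝ, (∀ i, Continuous (q i)) ∧
    q 2 0 = -partRate / 8 ∧ ∀ j : ℕ,
      (fun n : ℕ => Real.log (partCount (n + j) / partCount n) -
        ∑ i ∈ Finset.Icc 1 (max d 2), q i (partScale n) * partScale n ^ (2 * i - 1) * (j : ℝ) ^ i)
        =o[atTop] fun n => partScale n ^ (2 * d) := by
  obtain ⟨bs, hs0, hs⟩ := exists_taylor analyticAt_sqrt_one_add
  obtain ⟨bl, hl0, hl⟩ := exists_taylor analyticAt_log_one_add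
  choose bk hk0 hk using fun k : ℕ =>
    exists_taylor ((analyticAt_sqrt_one_add.inv (by simp)).pow k)
  have hs2 : bs 2 = -1 / 8 := sqrt_one_add_second (by simpa using hs0) hs
  refine ⟨fun i x => partRate * bs i - x * bl i + ∑ k ∈ Finset.Icc 1 (2 * d),
    bl k * (-1 / partRate) ^ k * x ^ (k + 1) * bk k i, fun i => by fun_prop, ?_, fun j => ?_⟩
  · simp [hs2]
    ring
  obtain ⟨D, hD⟩ : ∃ D, D = max d 2 := ⟨_, rfl⟩
  rw [← hD]
  have hdD : d ≤ D := hD ▸ le_max_left _ _
  obtain ⟨T, hT⟩ : ∃ T : ℕ → ℝ, T = partScale := ⟨_, rfl⟩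
  have hT0 : Tendsto T atTop (𝓝 0) := hT ▸ tendsto_partScale
  have hTp : ∀ᶠ n in atTop, 0 < T n := hT ▸ eventually_partScale
  have hpow : ∀ N, 2 * d < N → (fun n => T n ^ N) =o[atTop] fun n => T n ^ (2 * d) :=
    fun N hN => (isLittleO_pow_pow hN).comp_tendsto hT0
  have hu : Tendsto (fun n => (j : ℝ) * T n ^ 2) atTop (𝓝 0) := by
    simpa using (hT0.pow 2).const_mul (j : ℝ)
  have hT' : Tendsto (fun n => T (n + j)) atTop (𝓝 0) := hT0.comp (tendsto_add_atTop_nat j)
  have hTj : (fun n => T (n + j)) =O[atTop] T := by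
    refine IsBigO.of_bound 1 ?_
    filter_upwards [tendsto_partRoot.eventually_gt_atTop 0] with n hn
    rw [one_mul, hT, partScale, partScale, norm_inv, norm_inv]
    refine inv_anti₀ (norm_pos_iff.2 hn.ne') ?_
    rw [Real.norm_of_nonneg hn.le,
      Real.norm_of_nonneg (show 0 ≤ partRoot (n + j) from Real.sqrt_nonneg _), partRoot, partRoot]
    exact Real.sqrt_le_sqrt (by push_cast; linarith [(Nat.cast_nonneg j : (0 : ℝ) ≤ j)])
  obtain ⟨R, hR⟩ : ∃ R : ℝ → ℝ, R = fun x =>
      Real.log (1 - x / partRate) - ∑ k ∈ Finset.Icc 1 (2 * d), bl k * (-x / partRate) ^ k :=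
    ⟨_, rfl⟩
  have hlog : ∀ {S : ℕ → ℝ}, Tendsto S atTop (𝓝 0) → S =O[atTop] T →
      (fun n => R (S n)) =o[atTop] fun n => T n ^ (2 * d) := by
    intro S hS hO
    have h0 : Tendsto (fun n => -S n / partRate) atTop (𝓝 0) := by
      simpa using (hS.neg.div_const partRate)
    have h1 := (hl (2 * d)).comp_tendsto h0
    refine (h1.congr_left fun n => ?_).trans_isLittleO (IsBigO.trans_isLittleO ?_
      (hpow (2 * d + 1) (by omega)))
    · simp only [Function.comp_apply, hR]
      rw [Finset.range_eq_Ico, Finset.sum_eq_sum_Ico_succ_bot (Nat.succ_pos _),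
        show Finset.Ico (0 + 1) (2 * d).succ = Finset.Icc 1 (2 * d) by ext; simp, hl0]
      simp [neg_div, sub_eq_add_neg]
    · exact ((hO.neg_left.const_mul_left partRate⁻¹).congr_left fun n => by
        simp [div_eq_inv_mul]).pow _
  have e1 := (taylor_along hs0 hs hT0 (j : ℝ) D).mul (isBigO_refl (fun n => (T n)⁻¹) atTop)
  have h1 : (fun n => partRate * ((√(1 + (j : ℝ) * T n ^ 2) - √(1 + 0) -
      ∑ i ∈ Finset.Icc 1 D, bs i * ((j : ℝ) * T n ^ 2) ^ i) * (T n)⁻¹))
      =o[atTop] fun n => T n ^ (2 * d) := by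
    refine ((e1.trans_eventuallyEq ?_).trans_isLittleO
      (hpow (2 * D + 1) (by omega))).const_mul_left _
    filter_upwards [hTp] with n hn
    field_simp
    ring
  have h2 := (taylor_along hl0 hl hT0 (j : ℝ) D).trans_isLittleO (hpow (2 * D + 2) (by omega))
  have h3 : (fun n => ∑ k ∈ Finset.Icc 1 (2 * d), bl k * (-T n / partRate) ^ k *
      ((√(1 + (j : ℝ) * T n ^ 2))⁻¹ ^ k - (√(1 + 0))⁻¹ ^ k -
        ∑ i ∈ Finset.Icc 1 D, bk k i * ((j : ℝ) * T n ^ 2) ^ i))
      =o[atTop] fun n => T n ^ (2 * d) := by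
    refine IsLittleO.fun_sum fun k _ => ?_
    have hb : (fun n => bl k * (-T n / partRate) ^ k) =O[atTop] fun _ : ℕ => (1 : ℝ) :=
      ((((hT0.neg.div_const partRate)).pow k).const_mul (bl k)).isBigO_one ℝ
    exact (hb.mul_isLittleO ((taylor_along (hk0 k) (hk k) hT0 (j : ℝ) D).trans_isLittleO
      (hpow (2 * D + 2) (by omega)))).congr_right fun n => one_mul _
  have h4 := (hlog hT' hTj).sub (hlog hT0 (isBigO_refl T atTop))
  have h5 := (hT ▸ log_one_add_partErr j (2 * d)).sub (hT ▸ log_one_add_partErr 0 (2 * d))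
  refine ((((h1.sub h2).add h3).add h4).add h5).congr' ?_ (Eventually.of_forall fun n => by rw [hT])
  filter_upwards [hTp, eventually_gt_atTop 0, log_partCount_eq,
    (tendsto_add_atTop_nat j).eventually log_partCount_eq] with n hn hn0 hpn hpj
  have hroot := partRoot_add hn0 j
  rw [← hT] at hroot
  have hrn : partRoot n = (T n)⁻¹ := by rw [hT, partScale, inv_inv]
  have hQ : 0 < √(1 + (j : ℝ) * T n ^ 2) := Real.sqrt_pos.2 (by positivity)
  have hTnj : T (n + j) = T n / √(1 + (j : ℝ) * T n ^ 2) := by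
    rw [hT, partScale, hroot, hrn, ← hT]
    field_simp
  rw [← hT] at hpn hpj
  rw [Real.log_div (zero_lt_one.trans_le (one_le_partCount _)).ne'
    (zero_lt_one.trans_le (one_le_partCount _)).ne', hpn, hpj, hroot, hrn,
    Real.log_mul (inv_ne_zero hn.ne') hQ.ne', Real.log_sqrt (by positivity)]
  simp only [hR, hT.symm, add_zero, Real.sqrt_one, inv_one, one_pow, Real.log_one]
  have es : ∀ k, bl k * (-T (n + j) / partRate) ^ k - bl k * (-T n / partRate) ^ k =
      bl k * (-T n / partRate) ^ k * ((√(1 + (j : ℝ) * T n ^ 2))⁻¹ ^ k - 1) := fun k => by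
    rw [hTnj, show -(T n / √(1 + (j : ℝ) * T n ^ 2)) / partRate =
      -T n / partRate * (√(1 + (j : ℝ) * T n ^ 2))⁻¹ by ring, mul_pow]
    ring
  have eq : ∑ i ∈ Finset.Icc 1 D, (partRate * bs i - T n * bl i + ∑ k ∈ Finset.Icc 1 (2 * d),
      bl k * (-1 / partRate) ^ k * T n ^ (k + 1) * bk k i) * T n ^ (2 * i - 1) * (j : ℝ) ^ i =
      partRate * ((∑ i ∈ Finset.Icc 1 D, bs i * ((j : ℝ) * T n ^ 2) ^ i) * (T n)⁻¹) -
      ∑ i ∈ Finset.Icc 1 D, bl i * ((j : ℝ) * T n ^ 2) ^ i +
      ∑ k ∈ Finset.Icc 1 (2 * d), bl k * (-T n / partRate) ^ k *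
        ∑ i ∈ Finset.Icc 1 D, bk k i * ((j : ℝ) * T n ^ 2) ^ i := by
    simp only [Finset.sum_mul, Finset.mul_sum]
    rw [Finset.sum_comm (s := Finset.Icc 1 (2 * d)), ← Finset.sum_sub_distrib,
      ← Finset.sum_add_distrib]
    refine Finset.sum_congr rfl fun i hi => ?_
    have h2i : T n ^ (2 * i - 1) = (T n ^ 2) ^ i * (T n)⁻¹ := by
      rw [← pow_mul, pow_sub₀ _ hn.ne' (by simp at hi; omega), pow_one]
    rw [add_mul, add_mul, Finset.sum_mul, Finset.sum_mul, h2i]
    congr 1
    · rw [mul_pow]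
      field_simp
    · refine Finset.sum_congr rfl fun k _ => ?_
      rw [mul_pow, div_pow, div_pow, neg_pow (T n), pow_succ]
      field_simp
  rw [eq]
  simp only [mul_sub, Finset.sum_sub_distrib, mul_one]
  have esum : ∑ k ∈ Finset.Icc 1 (2 * d), bl k * (-T (n + j) / partRate) ^ k -
      ∑ k ∈ Finset.Icc 1 (2 * d), bl k * (-T n / partRate) ^ k =
      ∑ k ∈ Finset.Icc 1 (2 * d), bl k * (-T n / partRate) ^ k * (√(1 + (j : ℝ) * T n ^ 2))⁻¹ ^ k -
        ∑ k ∈ Finset.Icc 1 (2 * d), bl k * (-T n / partRate) ^ k := by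
    rw [← Finset.sum_sub_distrib, ← Finset.sum_sub_distrib]
    exact Finset.sum_congr rfl fun k _ => by rw [es k]; ring
  linear_combination -esum

/-- **Chen, Jia and Wang's conjecture** (Griffin, Ono, Rolen, Zagier). -/
theorem eventually_hyperbolic_partition (d : ℕ) : ∀ᶠ n : ℕ in atTop,
    (∃ S : Finset ℝ, S.card = d ∧
      ∀ x ∈ S, ∑ j ∈ Finset.range (d + 1), (d.choose j : ℝ) * partCount (n + j) * x ^ j = 0) ∧
      ∀ z : ℂ, jensenSum partCount d n z = 0 → z.im = 0 := by
  obtain ⟨q, hq, hq2, herr⟩ := exists_expansion d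
  have hT0 := tendsto_partScale
  have hc : Tendsto (fun n => -q 2 (partScale n)) atTop (𝓝 (partRate / 8)) := by
    have := (((hq 2).tendsto 0).comp hT0).neg
    rw [hq2] at this
    convert this using 2
    · simp
    · ring
  have hcp := hc.eventually_const_lt (show 0 < partRate / 8 by linarith [partRate_pos])
  have hs0 : √(partRate / 8) ≠ 0 := (Real.sqrt_pos.2 (by linarith [partRate_pos])).ne'
  have hcs : Tendsto (fun n => √(-q 2 (partScale n))) atTop (𝓝 √(partRate / 8)) :=
    (Real.continuous_sqrt.tendsto _).comp hc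
  have hrt : Tendsto (fun n => √(partScale n)) atTop (𝓝 0) := by
    simpa [Function.comp_def] using (Real.continuous_sqrt.tendsto 0).comp hT0
  have hδ : ∀ᶠ n in atTop, 0 < √(-q 2 (partScale n)) * √(partScale n) ^ 3 := by
    filter_upwards [hcp, eventually_partScale] with n h1 h2
    positivity
  refine eventually_hyperbolic_sequence
    (fun n => zero_lt_one.trans_le (one_le_partCount n))
    (A := fun n => q 1 (partScale n) * partScale n)
    (δ := fun n => √(-q 2 (partScale n)) * √(partScale n) ^ 3)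
    (g := fun i n => q i (partScale n) * partScale n ^ (2 * i - 1))
    hδ (by simpa using hcs.mul (hrt.pow 3)) (fun i hi => ?_) (fun j _ => ?_)
  · rw [Finset.mem_Icc] at hi
    have := ((((hq i).tendsto 0).comp hT0).div (hcs.pow i) (pow_ne_zero i hs0)).mul
      (hrt.pow (i - 2))
    rw [zero_pow (by omega), mul_zero] at this
    refine this.congr' ?_
    filter_upwards [hcp, eventually_partScale] with n h1 h2
    have hr : 0 < √(partScale n) := Real.sqrt_pos.2 h2
    have hc' : 0 < √(-q 2 (partScale n)) := Real.sqrt_pos.2 h1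
    have e : partScale n ^ (2 * i - 1) = √(partScale n) ^ (3 * i) * √(partScale n) ^ (i - 2) := by
      rw [← pow_add, show 3 * i + (i - 2) = 2 * (2 * i - 1) by omega, pow_mul _ 2,
        Real.sq_sqrt h2.le]
    simp only [Function.comp_apply, Pi.div_apply]
    rw [e, mul_pow, ← pow_mul]
    field_simp
  · have h1 := (herr j).tendsto_div_nhds_zero.mul
      ((hrt.pow d).div (hcs.pow d) (pow_ne_zero d hs0))
    rw [zero_mul] at h1
    refine h1.congr' ?_
    filter_upwards [hcp, eventually_partScale] with n h1 h2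
    have hr : 0 < √(partScale n) := Real.sqrt_pos.2 h2
    have hc' : 0 < √(-q 2 (partScale n)) := Real.sqrt_pos.2 h1
    have eI : Finset.Icc 3 (max d 2) = Finset.Icc 3 d := by ext x; simp; omega
    rw [sum_Icc_one (le_max_right d 2), eI]
    simp only [Pi.div_apply]
    rw [show partScale n ^ (2 * d) = √(partScale n) ^ (3 * d) * √(partScale n) ^ d by
        rw [← pow_add, show 3 * d + d = 2 * (2 * d) by ring, pow_mul √(partScale n),
          Real.sq_sqrt h2.le],
      mul_pow, mul_pow, ← pow_mul, ← pow_mul, Real.sq_sqrt h1.le,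
      show √(partScale n) ^ (3 * 2) = partScale n ^ 3 by
        rw [pow_mul', Real.sq_sqrt h2.le]]
    field_simp
    ring

end FA.JensenPolynomials

end
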