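import Fermat.Agent.JensenPolynomials.Criterion
import Fermat.Agent.JensenPolynomials.Hermite
import Mathlib.Analysis.Complex.Exponential
import Mathlib.Analysis.SpecialFunctions.Exp

/-!
# The general theorem of Griffin, Ono, Rolen and Zagier

If `log (α (n + j) / α n) = A n j - δ n ^ 2 j ^ 2 + ∑ g i n j ^ i + o (δ ^ d)` with
`g i = o (δ ^ i)`, then `δ ^ (-d) J_{d,n} ((δ X - 1) e^(-A)) / α n → H_d (X / 2)`:
the exponential is a polynomial in `δ j` up to `o (δ ^ d)`, and
`∑ C (d, j) j ^ i Y ^ j` is divisible by `(1 + Y) ^ (d - i)`.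
-/

set_option autoImplicit false

noncomputable section

namespace FA.JensenPolynomials

open Polynomial Filter Topology
open scoped Nat

/-- `∑ C (d, j) j^i X^j`. -/
def binomMoment (d i : ℕ) : ℝ[X] :=
  ∑ j ∈ Finset.range (d + 1), C ((d.choose j : ℝ) * (j : ℝ) ^ i) * X ^ j

theorem binomMoment_succ (d i : ℕ) :
    binomMoment d (i + 1) = X * derivative (binomMoment d i) := by
  rw [binomMoment, binomMoment, derivative_sum, Finset.mul_sum]
  refine Finset.sum_congr rfl fun j _ => ?_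
  rw [derivative_C_mul_X_pow]
  rcases j with _ | j
  · simp
  · rw [Nat.add_sub_cancel, pow_succ X j, pow_succ ((j + 1 : ℕ) : ℝ) i,
      show (d.choose (j + 1) : ℝ) * (((j + 1 : ℕ) : ℝ) ^ i * ((j + 1 : ℕ) : ℝ)) =
        (d.choose (j + 1) : ℝ) * ((j + 1 : ℕ) : ℝ) ^ i * ((j + 1 : ℕ) : ℝ) by ring]
    ring

/-- **Divisibility by a power of `1 + X`.** -/
theorem exists_binomMoment (d : ℕ) : ∀ i, i ≤ d → ∃ Q : ℝ[X],
    binomMoment d i = (1 + X) ^ (d - i) * Q ∧
      Q.eval (-1) = (-1) ^ i * (d.descFactorial i : ℝ) := by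
  intro i
  induction i with
  | zero =>
    intro _
    refine ⟨1, ?_, by simp⟩
    rw [Nat.sub_zero, mul_one, add_comm 1 X, add_pow, binomMoment]
    refine Finset.sum_congr rfl fun j _ => ?_
    simp [mul_comm]
  | succ i ih =>
    intro hi
    obtain ⟨Q, hQ, hQ1⟩ := ih (by omega)
    refine ⟨X * (C ((d - i : ℕ) : ℝ) * Q + (1 + X) * derivative Q), ?_, ?_⟩
    · rw [binomMoment_succ, hQ, derivative_mul, derivative_pow,
        show d - i - 1 = d - (i + 1) by omega,
        show derivative ((1 : ℝ[X]) + X) = 1 by simp,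
        show (1 + X : ℝ[X]) ^ (d - i) = (1 + X) ^ (d - (i + 1)) * (1 + X) by
          rw [← pow_succ, show d - (i + 1) + 1 = d - i by omega]]
      ring
    · simp only [eval_mul, eval_add, eval_X, eval_C, eval_one, hQ1, Nat.descFactorial_succ]
      push_cast
      ring

/-- The terms of `H_d (x / 2)`. -/
def hermTerm (d m : ℕ) (x : ℝ) : ℝ :=
  (-1) ^ m / (m ! : ℝ) * (d.descFactorial (2 * m) : ℝ) * x ^ (d - 2 * m)

/-- `H_d (x / 2)`. -/
def hermPhys (d : ℕ) (x : ℝ) : ℝ := ∑ m ∈ Finset.range (d + 1), hermTerm d m x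

theorem hermTerm_eq_zero {d m : ℕ} (h : d < 2 * m) (x : ℝ) : hermTerm d m x = 0 := by
  rw [hermTerm, Nat.descFactorial_eq_zero_iff_lt.2 h, Nat.cast_zero, mul_zero, zero_mul]

theorem hermPhys_eq_range {d N : ℕ} (h : d ≤ N) (x : ℝ) :
    hermPhys d x = ∑ m ∈ Finset.range (N + 1), hermTerm d m x :=
  Finset.sum_subset (Finset.range_mono (by omega)) fun m _ hm =>
    hermTerm_eq_zero (by simp at hm; omega) x

theorem descFactorial_recursion (d k : ℕ) :
    ((d + 2).descFactorial (k + 2) : ℝ) =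
      (d + 1).descFactorial (k + 2) + (k + 2) * (d + 1) * d.descFactorial k := by
  have h1 : (d + 2).descFactorial (k + 2) = (d + 2) * (d + 1).descFactorial (k + 1) :=
    Nat.succ_descFactorial_succ (d + 1) (k + 1)
  have h2 : (d + 1).descFactorial (k + 1) = (d + 1) * d.descFactorial k :=
    Nat.succ_descFactorial_succ d k
  have h3 : (d + 1).descFactorial (k + 2) = (d + 1 - (k + 1)) * (d + 1).descFactorial (k + 1) :=
    Nat.descFactorial_succ (d + 1) (k + 1)
  rcases le_or_gt (k + 1) (d + 1) with hk | hk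
  · rw [h1, h3, h2, show d + 1 - (k + 1) = d - k by omega]
    push_cast [Nat.cast_sub (show k ≤ d by omega)]
    ring
  · rw [h1, h3, Nat.descFactorial_eq_zero_iff_lt.2 hk,
      Nat.descFactorial_eq_zero_iff_lt.2 (show d < k by omega)]
    simp

theorem hermPhys_succ_succ (d : ℕ) (x : ℝ) :
    hermPhys (d + 2) x = x * hermPhys (d + 1) x - 2 * (d + 1) * hermPhys d x := by
  rw [hermPhys_eq_range (le_refl (d + 2)), hermPhys_eq_range (show d + 1 ≤ d + 2 by omega),
    hermPhys_eq_range (show d ≤ d + 1 by omega), Finset.sum_range_succ' _ (d + 2),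
    Finset.sum_range_succ' _ (d + 2), mul_add, Finset.mul_sum, Finset.mul_sum,
    add_sub_right_comm, ← Finset.sum_sub_distrib]
  congr 1
  · refine Finset.sum_congr rfl fun m _ => ?_
    have hr := descFactorial_recursion d (2 * m)
    rw [hermTerm, hermTerm, hermTerm, show 2 * (m + 1) = 2 * m + 2 by ring, hr,
      show d + 2 - (2 * m + 2) = d - 2 * m by omega, pow_succ (-1 : ℝ) m, Nat.factorial_succ]
    push_cast
    rcases le_or_gt (2 * m + 2) (d + 1) with h | h
    · simp only [show d - 2 * m = (d - (2 * m + 1)) + 1 by omega, pow_succ]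
      field_simp
      ring
    · rw [Nat.descFactorial_eq_zero_iff_lt.2 h, Nat.cast_zero]
      field_simp
      ring
  · simp [hermTerm]
    ring

/-- `H_d (x / 2) = √2^d He_d (x / √2)`. -/
theorem hermPhys_eq_hermVal (d : ℕ) (x : ℝ) :
    hermPhys d x = √2 ^ d * hermVal d (x / √2) := by
  have h2 : √(2 : ℝ) ≠ 0 := (Real.sqrt_pos.2 two_pos).ne'
  induction d using Nat.twoStepInduction with
  | zero => simp [hermPhys, hermTerm, hermVal]
  | one =>
    simp [hermPhys, hermTerm, hermVal, Finset.sum_range_succ]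
    field_simp
  | more d h0 h1 =>
    rw [hermPhys_succ_succ, hermVal_succ_succ, h1, h0,
      show √(2 : ℝ) ^ (d + 2) = √2 ^ d * 2 by rw [pow_add, Real.sq_sqrt two_pos.le],
      show √(2 : ℝ) ^ (d + 1) = √2 ^ d * √2 from pow_succ _ _]
    field_simp
    linear_combination x * hermVal (d + 1) (x / √2) * Real.sq_sqrt two_pos.le

/-- Coefficientwise convergence passes to products. -/
theorem tendsto_coeff_mul {P Q : ℕ → ℝ[X]} {p q : ℝ[X]}
    (hP : ∀ i, Tendsto (fun n => (P n).coeff i) atTop (𝓝 (p.coeff i)))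
    (hQ : ∀ i, Tendsto (fun n => (Q n).coeff i) atTop (𝓝 (q.coeff i))) (i : ℕ) :
    Tendsto (fun n => (P n * Q n).coeff i) atTop (𝓝 ((p * q).coeff i)) := by
  simp only [coeff_mul]
  exact tendsto_finsetSum _ fun u _ => (hP u.1).mul (hQ u.2)

/-- The scaled exponent. -/
def expPoly (d : ℕ) (r : ℕ → ℝ) : ℝ[X] := -X ^ 2 + ∑ i ∈ Finset.Icc 3 d, C (r i) * X ^ i

/-- Its exponential, cut off. -/
def expTrunc (d : ℕ) (r : ℕ → ℝ) : ℝ[X] :=
  ∑ m ∈ Finset.range (d + 1), C (1 / (m ! : ℝ)) * expPoly d r ^ m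

theorem natDegree_expTrunc (d : ℕ) (r : ℕ → ℝ) : (expTrunc d r).natDegree ≤ d * (d + 2) := by
  refine natDegree_sum_le_of_forall_le _ _ fun m hm => (natDegree_C_mul_le _ _).trans
    (natDegree_pow_le.trans (Nat.mul_le_mul (by simp at hm; omega) ?_))
  refine (natDegree_add_le _ _).trans (max_le ?_ ?_)
  · rw [natDegree_neg, natDegree_X_pow]
    omega
  · exact natDegree_sum_le_of_forall_le _ _ fun i hi => (natDegree_C_mul_X_pow_le _ _).trans
      (by simp at hi; omega)

theorem eval_expPoly (d : ℕ) (r : ℕ → ℝ) (y : ℝ) :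
    (expPoly d r).eval y = -y ^ 2 + ∑ i ∈ Finset.Icc 3 d, r i * y ^ i := by
  simp [expPoly, eval_finsetSum]

theorem tendsto_coeff_expTrunc {d : ℕ} {r : ℕ → ℕ → ℝ}
    (hr : ∀ i ∈ Finset.Icc 3 d, Tendsto (fun n => r n i) atTop (𝓝 0)) (k : ℕ) :
    Tendsto (fun n => (expTrunc d (r n)).coeff k) atTop
      (𝓝 (∑ m ∈ Finset.range (d + 1), 1 / (m ! : ℝ) * ((-X ^ 2 : ℝ[X]) ^ m).coeff k)) := by
  simp only [expTrunc, finsetSum_coeff, coeff_C_mul]
  refine tendsto_finsetSum _ fun m hm => Tendsto.const_mul _ ?_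
  clear hm
  have h1 : ∀ i, Tendsto (fun n => (expPoly d (r n)).coeff i) atTop
      (𝓝 ((-X ^ 2 : ℝ[X]).coeff i)) := fun i => by
    simp only [expPoly, coeff_add, finsetSum_coeff, coeff_C_mul]
    have := tendsto_finsetSum (Finset.Icc 3 d) fun l hl =>
      (hr l hl).mul_const ((X ^ l : ℝ[X]).coeff i)
    simp only [zero_mul, Finset.sum_const_zero] at this
    have h := this.const_add ((-X ^ 2 : ℝ[X]).coeff i)
    rw [add_zero] at h
    exact h
  clear hr
  induction m generalizing k with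
  | zero => simp
  | succ m ih => simpa only [pow_succ] using tendsto_coeff_mul (fun i => ih i) h1 k

theorem tendsto_binomMoment_scaled {d : ℕ} {δ : ℕ → ℝ} (hδ : ∀ᶠ n in atTop, 0 < δ n)
    (hδ0 : Tendsto δ atTop (𝓝 0)) (i : ℕ) (x : ℝ) :
    Tendsto (fun n => δ n ^ i * (binomMoment d i).eval (δ n * x - 1) / δ n ^ d) atTop
      (𝓝 (if i ≤ d then (-1) ^ i * (d.descFactorial i : ℝ) * x ^ (d - i) else 0)) := by
  have hY : Tendsto (fun n => δ n * x - 1) atTop (𝓝 (-1)) := by
    simpa using (hδ0.mul_const x).sub_const 1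
  split_ifs with hi
  · obtain ⟨Q, hQ, hQ1⟩ := exists_binomMoment d i hi
    have := ((Q.continuous.tendsto (-1)).comp hY).mul_const (x ^ (d - i))
    rw [hQ1] at this
    refine this.congr' ?_
    filter_upwards [hδ] with n hn
    rw [Function.comp_apply, hQ, eval_mul, eval_pow, eval_add, eval_one, eval_X,
      add_sub_cancel, mul_pow, eq_div_iff (pow_pos hn d).ne',
      show δ n ^ d = δ n ^ i * δ n ^ (d - i) by rw [← pow_add, Nat.add_sub_cancel' hi]]
    ring
  · rw [not_le] at hi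
    have := (hδ0.pow (i - d)).mul (((binomMoment d i).continuous.tendsto (-1)).comp hY)
    rw [zero_pow (by omega), zero_mul] at this
    refine this.congr' ?_
    filter_upwards [hδ] with n hn
    rw [Function.comp_apply, eq_div_iff (pow_pos hn d).ne',
      show δ n ^ i = δ n ^ d * δ n ^ (i - d) by rw [← pow_add, Nat.add_sub_cancel' hi.le]]
    ring

theorem coeff_neg_sq_pow (m k : ℕ) :
    ((-X ^ 2 : ℝ[X]) ^ m).coeff k = if k = 2 * m then (-1 : ℝ) ^ m else 0 := by
  rw [neg_pow, ← pow_mul, show (-1 : ℝ[X]) ^ m = C ((-1 : ℝ) ^ m) by simp, coeff_C_mul,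
    coeff_X_pow]
  split_ifs <;> simp

theorem tendsto_main_part {d : ℕ} {δ : ℕ → ℝ} {r : ℕ → ℕ → ℝ} (hδ : ∀ᶠ n in atTop, 0 < δ n)
    (hδ0 : Tendsto δ atTop (𝓝 0))
    (hr : ∀ i ∈ Finset.Icc 3 d, Tendsto (fun n => r n i) atTop (𝓝 0)) (x : ℝ) :
    Tendsto (fun n => (∑ j ∈ Finset.range (d + 1), (d.choose j : ℝ) *
      (expTrunc d (r n)).eval (δ n * j) * (δ n * x - 1) ^ j) / δ n ^ d) atTop
      (𝓝 (hermPhys d x)) := by
  have h := tendsto_finsetSum (Finset.range (d * (d + 2) + 1)) fun k _ =>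
    (tendsto_coeff_expTrunc hr k).mul (tendsto_binomMoment_scaled (d := d) hδ hδ0 k x)
  refine (h.congr fun n => ?_).trans (le_of_eq ?_)
  · have e : ∀ j ∈ Finset.range (d + 1),
        (d.choose j : ℝ) * (expTrunc d (r n)).eval (δ n * j) * (δ n * x - 1) ^ j =
        ∑ k ∈ Finset.range (d * (d + 2) + 1), (expTrunc d (r n)).coeff k * (δ n ^ k *
          ((d.choose j : ℝ) * (j : ℝ) ^ k * (δ n * x - 1) ^ j)) := fun j _ => by
      rw [eval_eq_sum_range' (Nat.lt_succ_of_le (natDegree_expTrunc d (r n))), Finset.mul_sum,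
        Finset.sum_mul]
      exact Finset.sum_congr rfl fun k _ => by ring
    rw [Finset.sum_congr rfl e, Finset.sum_comm, Finset.sum_div]
    refine Finset.sum_congr rfl fun k _ => ?_
    rw [← Finset.mul_sum, ← Finset.mul_sum, binomMoment, eval_finsetSum, mul_div_assoc]
    simp
    ring
  · congr 1
    simp only [Finset.sum_mul]
    rw [Finset.sum_comm, hermPhys]
    refine Finset.sum_congr rfl fun m hm => ?_
    rw [Finset.mem_range] at hm
    simp only [coeff_neg_sq_pow]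
    rw [Finset.sum_eq_single (2 * m) (fun k _ hk => by rw [if_neg hk, mul_zero, zero_mul])
      (fun h => absurd (Finset.mem_range.2 (by nlinarith)) h), if_pos rfl]
    rcases le_or_gt (2 * m) d with h | h
    · rw [if_pos h, hermTerm, pow_mul (-1 : ℝ) 2 m]
      norm_num
      ring
    · rw [if_neg (not_le.2 h), hermTerm_eq_zero h, mul_zero]

/-- **Griffin, Ono, Rolen, Zagier**, for a sequence. -/
theorem tendsto_sequence_hermite {d : ℕ} {α A δ : ℕ → ℝ} {g : ℕ → ℕ → ℝ} (hα : ∀ n, 0 < α n)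
    (hδ : ∀ᶠ n in atTop, 0 < δ n) (hδ0 : Tendsto δ atTop (𝓝 0))
    (hg : ∀ i ∈ Finset.Icc 3 d, Tendsto (fun n => g i n / δ n ^ i) atTop (𝓝 0))
    (hlog : ∀ j ≤ d, Tendsto (fun n => (Real.log (α (n + j) / α n) - (A n * j - δ n ^ 2 * j ^ 2 +
      ∑ i ∈ Finset.Icc 3 d, g i n * (j : ℝ) ^ i)) / δ n ^ d) atTop (𝓝 0)) (x : ℝ) :
    Tendsto (fun n => (∑ j ∈ Finset.range (d + 1), (d.choose j : ℝ) * α (n + j) *
      ((δ n * x - 1) * Real.exp (-A n)) ^ j) / (α n * δ n ^ d)) atTop
      (𝓝 (√2 ^ d * hermVal d (x / √2))) := by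
  rw [← hermPhys_eq_hermVal]
  obtain ⟨r, hr⟩ : ∃ r : ℕ → ℕ → ℝ, r = fun n i => g i n / δ n ^ i := ⟨_, rfl⟩
  have hr' : ∀ i ∈ Finset.Icc 3 d, Tendsto (fun n => r n i) atTop (𝓝 0) := hr ▸ hg
  have herr : ∀ j ∈ Finset.range (d + 1), Tendsto (fun n =>
      (α (n + j) / α n * Real.exp (-A n) ^ j - (expTrunc d (r n)).eval (δ n * j)) / δ n ^ d)
      atTop (𝓝 0) := by
    intro j hj
    obtain ⟨v, hv⟩ : ∃ v : ℕ → ℝ, v = fun n => (expPoly d (r n)).eval (δ n * j) := ⟨_, rfl⟩
    have hv0 : Tendsto v atTop (𝓝 0) ∧ Tendsto (fun n => v n / δ n) atTop (𝓝 0) := by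
      have hd : Tendsto (fun n => δ n * (j : ℝ)) atTop (𝓝 0) := by
        simpa using hδ0.mul_const (j : ℝ)
      constructor
      · have := (hd.pow 2).neg.add (tendsto_finsetSum (Finset.Icc 3 d) fun i hi =>
          (hr' i hi).mul (hd.pow i))
        simp only [hv, eval_expPoly]
        simpa using this
      · have := (hd.mul_const (j : ℝ)).neg.add (tendsto_finsetSum (Finset.Icc 3 d) fun i hi =>
          (hr' i hi).mul ((hd.pow (i - 1)).mul_const (j : ℝ)))
        simp only [neg_zero, zero_mul, Finset.sum_const_zero, add_zero] at this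
        refine this.congr' ?_
        filter_upwards [hδ] with n hn
        simp only [hv]
        rw [eval_expPoly, add_div, Finset.sum_div]
        congr 1
        · field_simp
        · refine Finset.sum_congr rfl fun i hi => ?_
          rw [show (δ n * (j : ℝ)) ^ i = (δ n * j) ^ (i - 1) * (δ n * j) by
            rw [← pow_succ, Nat.sub_add_cancel (by simp at hi; omega)]]
          field_simp
    obtain ⟨ε, hε⟩ : ∃ ε : ℕ → ℝ, ε = fun n => Real.log (α (n + j) / α n) - (A n * j -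
      δ n ^ 2 * j ^ 2 + ∑ i ∈ Finset.Icc 3 d, g i n * (j : ℝ) ^ i) := ⟨_, rfl⟩
    have hεd : Tendsto (fun n => ε n / δ n ^ d) atTop (𝓝 0) :=
      hε ▸ hlog j (by simp at hj; omega)
    have hε0 : Tendsto ε atTop (𝓝 0) := by
      have := hεd.mul (hδ0.pow d)
      rw [zero_mul] at this
      refine this.congr' ?_
      filter_upwards [hδ] with n hn
      field_simp
    have h1 : Tendsto (fun n => Real.exp (v n) * ((Real.exp (ε n) - 1) / δ n ^ d))
        atTop (𝓝 0) := by
      have hb : Tendsto (fun n => (Real.exp (ε n) - 1) / δ n ^ d) atTop (𝓝 0) := by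
        refine squeeze_zero_norm' ?_ (by simpa using hεd.abs.const_mul 2)
        filter_upwards [hε0.abs.eventually_le_const (show |(0 : ℝ)| < 1 by norm_num)] with n hn
        rw [Real.norm_eq_abs, abs_div, abs_div, ← mul_div_assoc]
        exact div_le_div_of_nonneg_right (Real.abs_exp_sub_one_le hn) (abs_nonneg _)
      simpa using ((Real.continuous_exp.tendsto 0).comp hv0.1).mul hb
    have h2 : Tendsto (fun n => (Real.exp (v n) - (expTrunc d (r n)).eval (δ n * j)) / δ n ^ d)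
        atTop (𝓝 0) := by
      have hlim := ((hv0.2.abs.pow d).mul hv0.1.abs).mul_const
        (((d + 1).succ : ℝ) / ((d + 1)! * (d + 1 : ℕ)))
      simp only [abs_zero, mul_zero, zero_mul] at hlim
      refine squeeze_zero_norm' ?_ hlim
      filter_upwards [hδ, hv0.1.abs.eventually_le_const (show |(0 : ℝ)| < 1 by norm_num)]
        with n hn hn1
      have hb := Real.exp_bound hn1 d.succ_pos
      rw [show (∑ m ∈ Finset.range d.succ, v n ^ m / (m ! : ℝ)) =
          (expTrunc d (r n)).eval (δ n * j) by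
        rw [expTrunc, eval_finsetSum, hv]
        exact Finset.sum_congr rfl fun m _ => by rw [eval_mul, eval_C, eval_pow]; ring] at hb
      rw [Real.norm_eq_abs, abs_div, abs_of_pos (pow_pos hn d)]
      refine (div_le_div_of_nonneg_right hb (pow_pos hn d).le).trans_eq ?_
      rw [abs_div, abs_of_pos hn, div_pow, Nat.succ_eq_add_one, pow_succ]
      push_cast
      field_simp
    have := h1.add h2
    rw [add_zero] at this
    refine this.congr' ?_
    filter_upwards [hδ] with n hn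
    have e : α (n + j) / α n * Real.exp (-A n) ^ j = Real.exp (v n) * Real.exp (ε n) := by
      rw [← Real.exp_log (div_pos (hα (n + j)) (hα n)), ← Real.exp_nat_mul, ← Real.exp_add,
        ← Real.exp_add]
      congr 1
      simp only [hε, hv, eval_expPoly, hr]
      rw [show ∑ i ∈ Finset.Icc 3 d, g i n / δ n ^ i * (δ n * (j : ℝ)) ^ i =
          ∑ i ∈ Finset.Icc 3 d, g i n * (j : ℝ) ^ i from Finset.sum_congr rfl fun i _ => by
        rw [mul_pow]; field_simp]
      ring
    rw [e]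
    ring
  have hY : Tendsto (fun n => δ n * x - 1) atTop (𝓝 (-1)) := by
    simpa using (hδ0.mul_const x).sub_const 1
  have hsum := (tendsto_finsetSum (Finset.range (d + 1)) fun j hj =>
    ((herr j hj).mul (hY.pow j)).const_mul (d.choose j : ℝ)).add
      (tendsto_main_part hδ hδ0 hr' x)
  simp only [zero_mul, mul_zero, Finset.sum_const_zero, zero_add] at hsum
  refine hsum.congr fun n => ?_
  rw [Finset.sum_div, Finset.sum_div, ← Finset.sum_add_distrib]
  refine Finset.sum_congr rfl fun j _ => ?_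
  have := (hα n).ne'
  rw [mul_pow]
  field_simp
  ring

/-- `d` real zeros exclude others. -/
theorem real_zeros_of_card {d n : ℕ} {α : ℕ → ℝ} (hα : 0 < α n) {S : Finset ℝ} (hS : S.card = d)
    (h : ∀ x ∈ S, ∑ j ∈ Finset.range (d + 1), (d.choose j : ℝ) * α (n + j) * x ^ j = 0) :
    (∃ S : Finset ℝ, S.card = d ∧
      ∀ x ∈ S, ∑ j ∈ Finset.range (d + 1), (d.choose j : ℝ) * α (n + j) * x ^ j = 0) ∧
      ∀ z : ℂ, jensenSum α d n z = 0 → z.im = 0 := by
  refine ⟨⟨S, hS, h⟩, fun z hz => ?_⟩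
  obtain ⟨q, hq⟩ : ∃ q : ℝ[X], q = ∑ j ∈ Finset.range (d + 1),
      C ((d.choose j : ℝ) * α (n + j)) * X ^ j := ⟨_, rfl⟩
  refine im_eq_zero_of_card (d := d) (q := q) ?_ (fun h0 => ?_) hS (fun x hx => ?_) ?_
  · rw [hq]
    exact natDegree_sum_le_of_forall_le _ _ fun j hj => (natDegree_C_mul_X_pow_le _ _).trans
      (by simp at hj; omega)
  · have h1 := congrArg (fun p : ℝ[X] => p.coeff 0) (hq ▸ h0)
    simp [coeff_X_pow, Finset.sum_ite_eq, hα.ne'] at h1
  · rw [hq, eval_finsetSum]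
    simpa using h x hx
  · rw [hq, map_sum]
    simpa [jensenSum] using hz

/-- **Hence `d` distinct real zeros.** -/
theorem eventually_hyperbolic_sequence {d : ℕ} {α A δ : ℕ → ℝ} {g : ℕ → ℕ → ℝ}
    (hα : ∀ n, 0 < α n) (hδ : ∀ᶠ n in atTop, 0 < δ n) (hδ0 : Tendsto δ atTop (𝓝 0))
    (hg : ∀ i ∈ Finset.Icc 3 d, Tendsto (fun n => g i n / δ n ^ i) atTop (𝓝 0))
    (hlog : ∀ j ≤ d, Tendsto (fun n => (Real.log (α (n + j) / α n) - (A n * j - δ n ^ 2 * j ^ 2 +
      ∑ i ∈ Finset.Icc 3 d, g i n * (j : ℝ) ^ i)) / δ n ^ d) atTop (𝓝 0)) :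
    ∀ᶠ n : ℕ in atTop,
      (∃ S : Finset ℝ, S.card = d ∧
        ∀ x ∈ S, ∑ j ∈ Finset.range (d + 1), (d.choose j : ℝ) * α (n + j) * x ^ j = 0) ∧
      ∀ z : ℂ, jensenSum α d n z = 0 → z.im = 0 := by
  classical
  have h2 : √(2 : ℝ) ≠ 0 := (Real.sqrt_pos.2 two_pos).ne'
  have h := eventually_roots (d := d) (f := fun (n : ℕ) (y : ℝ) => (-1) ^ d / √2 ^ d *
      ((∑ j ∈ Finset.range (d + 1), (d.choose j : ℝ) * α (n + j) *
        ((δ n * (√2 * y) - 1) * Real.exp (-A n)) ^ j) / (α n * δ n ^ d)))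
    (fun n => by fun_prop) (fun y => by
      have := (tendsto_sequence_hermite hα hδ hδ0 hg hlog (√2 * y)).const_mul
        ((-1) ^ d / √2 ^ d)
      rw [mul_div_cancel_left₀ y h2] at this
      refine this.trans (le_of_eq ?_)
      congr 1
      field_simp)
  filter_upwards [h, hδ] with n ⟨S, hS, hS0⟩ hn
  obtain ⟨φX, hX⟩ : ∃ φX : ℝ → ℝ, φX = fun y : ℝ =>
      (δ n * (√2 * y) - 1) * Real.exp (-A n) := ⟨_, rfl⟩
  have hinj : Function.Injective φX := fun x y h => by
    simp only [hX] at h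
    rwa [mul_left_inj' (Real.exp_pos _).ne', sub_left_inj, mul_right_inj' hn.ne',
      mul_right_inj' h2] at h
  have hroot : ∀ x ∈ S.image φX,
      ∑ j ∈ Finset.range (d + 1), (d.choose j : ℝ) * α (n + j) * x ^ j = 0 := by
    intro x hx
    obtain ⟨y, hy, rfl⟩ := Finset.mem_image.1 hx
    have := hS0 y hy
    simp only [hX]
    rw [mul_eq_zero, div_eq_zero_iff, div_eq_zero_iff] at this
    simpa [h2, (hα n).ne', hn.ne'] using this
  exact real_zeros_of_card (hα n) (by rw [Finset.card_image_of_injective _ hinj, hS]) hroot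

/-- Degree `2`: **the strict Turán inequality**. -/
theorem turan_strict_of_card {n : ℕ} {α : ℕ → ℝ} (hα : 0 < α (n + 2)) {S : Finset ℝ}
    (hS : S.card = 2)
    (h : ∀ x ∈ S, ∑ j ∈ Finset.range (2 + 1), ((2 : ℕ).choose j : ℝ) * α (n + j) * x ^ j = 0) :
    α n * α (n + 2) < α (n + 1) ^ 2 := by
  obtain ⟨x, y, hne, rfl⟩ := Finset.card_eq_two.1 hS
  have hx := h x (by simp)
  have hy := h y (by simp)
  simp [Finset.sum_range_succ] at hx hy
  by_contra hle
  rw [not_lt] at hle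
  have e : ∀ w : ℝ, α n + 2 * α (n + 1) * w + α (n + 2) * w ^ 2 = 0 →
      w = -α (n + 1) / α (n + 2) := fun w hw => by
    rw [eq_div_iff hα.ne']
    nlinarith [sq_nonneg (w * α (n + 2) + α (n + 1))]
  exact hne ((e x hx).trans (e y hy).symm)

/-- Degree `3`: **the cubic Turán inequality**. -/
theorem cubic_turan_of_card {n : ℕ} {α : ℕ → ℝ} (hα : 0 < α (n + 3)) {S : Finset ℝ}
    (hS : S.card = 3)
    (h : ∀ x ∈ S, ∑ j ∈ Finset.range (3 + 1), ((3 : ℕ).choose j : ℝ) * α (n + j) * x ^ j = 0) :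
    (α (n + 1) * α (n + 2) - α n * α (n + 3)) ^ 2 <
      4 * (α (n + 1) ^ 2 - α n * α (n + 2)) * (α (n + 2) ^ 2 - α (n + 1) * α (n + 3)) := by
  obtain ⟨x, y, z, hxy, hxz, hyz, rfl⟩ := Finset.card_eq_three.1 hS
  have hx := h x (by simp)
  have hy := h y (by simp)
  have hz := h z (by simp)
  simp [Finset.sum_range_succ] at hx hy hz
  obtain ⟨e, he⟩ : ∃ e, e = α (n + 3) := ⟨_, rfl⟩
  rw [← he] at hx hy hz hα ⊢
  have h1 : 3 * α (n + 1) + 3 * α (n + 2) * (x + y) + e * (x ^ 2 + x * y + y ^ 2) = 0 := by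
    refine mul_left_cancel₀ (sub_ne_zero.2 hxy) ?_
    linear_combination hx - hy
  have h2 : 3 * α (n + 1) + 3 * α (n + 2) * (x + z) + e * (x ^ 2 + x * z + z ^ 2) = 0 := by
    refine mul_left_cancel₀ (sub_ne_zero.2 hxz) ?_
    linear_combination hx - hz
  have hc : α (n + 2) = -e * (x + y + z) / 3 := by
    have : (y - z) * (3 * α (n + 2) + e * (x + y + z)) = 0 := by linear_combination h1 - h2
    have := (mul_eq_zero.1 this).resolve_left (sub_ne_zero.2 hyz)
    linarith
  have hb : α (n + 1) = e * (x * y + x * z + y * z) / 3 := by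
    rw [hc] at h1
    linear_combination h1 / 3
  have ha : α n = -e * (x * y * z) := by
    rw [hc, hb] at hx
    linear_combination hx
  have hpos : 0 < e ^ 4 * ((x - y) * (y - z) * (x - z)) ^ 2 / 27 := by
    have := pow_pos hα 4
    have := pow_two_pos_of_ne_zero (mul_ne_zero (mul_ne_zero (sub_ne_zero.2 hxy)
      (sub_ne_zero.2 hyz)) (sub_ne_zero.2 hxz))
    positivity
  rw [← sub_pos, ha, hb, hc]
  refine hpos.trans_eq ?_
  ring

end FA.JensenPolynomials

end
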